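import Fermat.Agent.TwoAdic.Pair.Cond
import Fermat.Agent.Engine.TSide
import Fermat.Agent.SquareOld.Statement
import Fermat.Agent.Route.Modularity
import Fermat.Agent.TwoAdic.C0.FormsHom
import Mathlib.Algebra.DualNumber

/-!
# The two-adic lifting step: the problem and its two inputs

`LiftProblem` is a pair of the deformation problem `LiftData.pairCond E W ∅` ordinary at `2`,
together with residual modularity at level `E.D`.  `CurvePoint` attaches one to a switched curve;
`LiftingTwo` says that the eigen system of such a point occurs at level `2 D X ∏ w²`, `X`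
squarefree auxiliary.
-/

set_option autoImplicit false

noncomputable section

open IsLocalRing GaloisRep Fermat.Agent.DefRing Fermat.Agent.HeckeModule
open scoped DualNumber

namespace Fermat.Agent.TwoAdic.TopDown

/-- The residual representation comes from an eigenform of level `D` whose coefficients at `2`
and at the primes of `D` are `1`. -/
def IsResiduallyModular {k : Type} [Field k] (D : ℕ) (r : MRep k) (S : Finset ℕ) : Prop :=
  ∃ f : CuspForm (CongruenceSubgroup.Gamma0 D) 2, f.IsNormalizedEigenform ∧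
    ∃ Q : Ideal (integralClosure ℤ ℂ), Q.IsMaximal ∧ (2 : integralClosure ℤ ℂ) ∈ Q ∧
      (∀ ℓ : ℕ, ℓ.Prime → (ℓ = 2 ∨ ℓ ∣ D) → ∃ a : integralClosure ℤ ℂ,
        (a : ℂ) = ModularFormClass.qCoeff f ℓ ∧ a - 1 ∈ Q) ∧
      ∀ ℓ : ℕ, ℓ.Prime → ℓ ∉ S → ∃ (a : integralClosure ℤ ℂ) (m : ℤ),
        (a : ℂ) = ModularFormClass.qCoeff f ℓ ∧ a - (m : integralClosure ℤ ℂ) ∈ Q ∧
          ∀ P : ValuationSubring (AlgebraicClosure ℚ), P.LiesOverPrime ℓ →
            ∀ φ : GQ, P.IsFrobeniusAt φ ℓ → (r φ).trace = (m : k)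

theorem exists_prime_three_mod_four {D : ℕ} (hD : Squarefree D) (hD8 : D % 8 = 3) :
    ∃ ℓ : ℕ, ℓ.Prime ∧ ℓ ∣ D ∧ ℓ % 4 = 3 := by
  by_contra! h
  have key : (∏ ℓ ∈ D.primeFactors, ℓ) % 4 = 1 := by
    rw [Finset.prod_nat_mod]
    rw [Finset.prod_congr rfl fun ℓ hℓ => show ℓ % 4 = 1 from ?_]
    · simp
    · have hp := Nat.prime_of_mem_primeFactors hℓ
      have hd := Nat.dvd_of_mem_primeFactors hℓ
      have h3 := h ℓ hp hd
      have hodd : ¬ 2 ∣ ℓ := fun h2 => by have := h2.trans hd; omega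
      omega
  rw [Nat.prod_primeFactors_of_squarefree hD] at key
  omega

/-- The doubling of the residual eigen system at level `D`. -/
def HasDoubling {k : Type} [Field k] (D : ℕ) (r : MRep k) (S : Finset ℕ) : Prop :=
  ∃ ψ : HeckePoly ℤ →+* (ZMod 2)[ε], C0.KillsCoh D ψ ∧
    (∀ l : Nat.Primes, (l : ℕ) = 2 → ψ (MvPolynomial.X l) = 1 + ε) ∧
    (∀ l : Nat.Primes, (l : ℕ) ∣ D → ψ (MvPolynomial.X l) = 1) ∧
    ∀ l : Nat.Primes, (l : ℕ) ∉ S → (l : ℕ) ≠ 2 → ¬ (l : ℕ) ∣ D → ∃ m : ℤ,
      ψ (MvPolynomial.X l) = TrivSqZeroExt.inl (m : ZMod 2) ∧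
        ∀ P : ValuationSubring (AlgebraicClosure ℚ), P.LiesOverPrime l →
          ∀ φ : GQ, P.IsFrobeniusAt φ l → (r φ).trace = (m : k)

variable (O : Type) [CommRing O] [IsDomain O] [IsDiscreteValuationRing O]
  [IsAdicComplete (maximalIdeal O) O] [Finite (ResidueField O)] [CharP (ResidueField O) 2]

/-- A lifting problem with a point: a pair `(rho, alpha)` ordinary at `2`, new with the signs of
`E` at the primes of `D`, with an inertia-fixed vector at the further odd primes `W`. -/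
structure LiftProblem where
  /-- the data: `D`, the free prime and the signs; no auxiliary new primes -/
  E : LiftData
  /-- the residual representation with its normal form data -/
  res : NormalData O
  /-- the odd primes outside `D` at which the point ramifies -/
  W : Finset ℕ
  /-- the point -/
  rho : GaloisRepAdic O
  /-- its unit root at `2` -/
  alpha : O
  /-- its Frobenius traces -/
  a : ℕ → O
  /-- the exceptional primes -/
  S : Finset ℕ
  aux_empty : E.aux = ∅
  ℓ₀_mod : E.ℓ₀ % 4 = 3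
  dihedral : IsDihedralResidual E.D res.rbar
  cont : IsCont res.rbar
  modular : IsResiduallyModular E.D res.rbar S
  doubling : HasDoubling E.D res.rbar S
  W_spec : ∀ w ∈ W, w.Prime ∧ w ≠ 2 ∧ ¬ w ∣ E.D
  fixed : ∀ w ∈ W, ∀ P : ValuationSubring (AlgebraicClosure ℚ), P.LiesOverPrime w →
    ∃ v : rho.V, v ≠ 0 ∧ ∀ σ ∈ P.inertiaSubgroupIn ℚ, rho.ρ σ v = v
  cond : E.pairCond W ∅ O rho
  ordinary : Pair.IsOrdinary rho alpha
  alpha_residue : residue O alpha = 1
  residual : ∃ b : Module.Basis (Fin 2) O rho.V, ∀ σ : GQ,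
    mapRep (residue O) (matrixRep rho b) σ = res.rbar σ
  attached : Engine.IsAttachedSystem O 2 rho S a
  mem_S : ∀ ℓ : ℕ, ℓ.Prime → (ℓ = 2 ∨ ℓ ∣ E.D ∨ ℓ ∈ W) → ℓ ∈ S

/-- The level of a lifting problem, with auxiliary part `X`. -/
def LiftProblem.base {O : Type} [CommRing O] [IsDomain O] [IsDiscreteValuationRing O]
    [IsAdicComplete (maximalIdeal O) O] [Finite (ResidueField O)] [CharP (ResidueField O) 2]
    (P : LiftProblem O) (X : ℕ) : ℕ :=
  2 * P.E.D * X

/-- The two-adic lifting theorem: the point occurs with squares at the scalar primes. -/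
def LiftingTwo : Prop :=
  ∀ (O : Type) [CommRing O] [IsDomain O] [IsDiscreteValuationRing O]
    [IsAdicComplete (maximalIdeal O) O] [Finite (ResidueField O)] [CharP (ResidueField O) 2]
    [CharZero O],
    (∃ z : ResidueField O, z * z + z + 1 = 0) →
    ∀ P : LiftProblem O, ∃ (X : ℕ) (S : Finset ℕ), Squarefree (P.base X) ∧
      (∀ w ∈ P.W, ¬ w ∣ X) ∧ P.S ⊆ S ∧
      (∀ ℓ : ℕ, ℓ.Prime → ℓ ∣ X → ℓ ∈ S) ∧
      Engine.Occurs (FractionRing O) (P.base X * ∏ w ∈ P.W, w * w) 1 S
        (fun ℓ => algebraMap O (FractionRing O) (P.a ℓ))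

/-- A switched curve gives a lifting problem whose point has the traces of the curve. -/
def CurvePoint : Prop :=
  ∀ W' : WeierstrassCurve ℤ, W'.IsSemistableModel → W'.Δ < 0 →
    (∃ (k : ℕ) (r : ℤ), 0 < k ∧ W'.Δ = 4 ^ k * r ∧ r % 8 = 5) →
    (∀ x : ℚ, x ^ 3 + (-27 * (W'.c₄ : ℚ)) * x + (-54 * (W'.c₆ : ℚ)) ≠ 0) →
    ∃ (O : Type) (_ : CommRing O) (_ : IsDomain O) (_ : IsDiscreteValuationRing O)
      (_ : IsAdicComplete (maximalIdeal O) O) (_ : Finite (ResidueField O))
      (_ : CharP (ResidueField O) 2) (_ : CharZero O),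
      (∃ z : ResidueField O, z * z + z + 1 = 0) ∧
      ∃ P : LiftProblem O, ∀ ℓ : ℕ, ℓ.Prime → ℓ ∉ P.S → P.a ℓ = (W'.apOfModel ℓ : O)

/-- Eigen systems with a fixed vector at a square of the level are old, over every coefficient
ring. -/
def SquareInput : Prop :=
  ∀ (O : Type) [CommRing O] [IsDomain O] [IsDiscreteValuationRing O]
    [IsAdicComplete (maximalIdeal O) O] [CharZero O] (M w : ℕ),
    SquareOld.SquareLevelIsOld O 2 M w

end Fermat.Agent.TwoAdic.TopDown

end
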