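import Fermat.Agent.TwoAdic.Route.FinalInputs

/-!
# The final step over a larger coefficient ring

A point in a finite extension `O'` of the ring of pairs over `O` is an `O'`-point of the ring of
pairs over `O'`, with the same traces and the same unit root.
-/

set_option autoImplicit false

noncomputable section

open IsLocalRing GaloisRep Fermat.Agent.DefRing Fermat.Agent.Deform

namespace Fermat.Agent.TwoAdic

namespace TopDown

open Pair

variable {O O' : Type} [CommRing O] [IsDomain O] [IsDiscreteValuationRing O]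
  [IsAdicComplete (maximalIdeal O) O] [Finite (ResidueField O)] [CharP (ResidueField O) 2]
  [CommRing O'] [IsDomain O'] [IsDiscreteValuationRing O']
  [IsAdicComplete (maximalIdeal O') O'] [Finite (ResidueField O')] [CharP (ResidueField O') 2]
  (f : O →+* O') [IsLocalHom f]

variable {D : NormalData O} {E : LiftData} {Q : Finset ℕ} {C : Set (GQ × GQ)}

omit [IsAdicComplete (maximalIdeal O') O'] [Finite (ResidueField O')] [CharP (ResidueField O') 2] in
omit [IsAdicComplete (maximalIdeal O) O] [Finite (ResidueField O)] [CharP (ResidueField O) 2] in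
/-- A pair over an algebra with the residue field of `O`, mapped to `O'`, is a pair over `O'`. -/
theorem isPair_map_extend {B : Type} [CommRing B] [IsLocalRing B] [Algebra O B]
    {hl : IsLocalHom (algebraMap O B)} {hs : Function.Surjective (residue B ∘ algebraMap O B)}
    {N : MRep B} {α : B} (hp : IsPair D E Q C hl hs N α) (g : B →+* O') (hgl : IsLocalHom g)
    (hg : ∀ o, g (algebraMap O B o) = f o) :
    IsPair (D.extend f) E Q C isLocalHom_algebraMap_self residue_surjective_self
      (mapRep g N) (g α) := by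
  obtain ⟨⟨hnorm, hred, hc, hcond⟩, hα, hord⟩ := hp
  have hev : ∀ x, evRep (mapRep g N) (MonoidAlgebra.mapRingHom GQ f x) = (evRep N x).map g :=
    evRep_mapRingHom f g hg N
  have hres : ∀ x : B, residue O' (g x) = ResidueField.map f (toResidue hl hs x) := fun x => by
    obtain ⟨o, ho⟩ := hs (residue B x)
    rw [Function.comp_apply] at ho
    have h1 : x - algebraMap O B o ∈ maximalIdeal B := by
      rw [← residue_eq_zero_iff, map_sub, ← ho, sub_self]
    have h2 : residue O' (g x) = residue O' (f o) := by
      rw [← sub_eq_zero, ← map_sub, ← hg, ← map_sub, residue_eq_zero_iff]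
      exact fun hu => h1 (hgl.map_nonunit _ hu)
    have h3 : toResidue hl hs x = residue O o := by
      have h4 := (toResidue_eq_zero_iff hl hs).mpr h1
      rw [map_sub, sub_eq_zero] at h4
      rw [h4, AlgHom.commutes]
      rfl
    rw [h2, h3, ResidueField.map_residue]
  have hres' : ∀ x : O', toResidue (𝒪 := O') (A := O') isLocalHom_algebraMap_self
      residue_surjective_self x = residue O' x := toResidue_self
  refine ⟨⟨?_, ?_, hc.map g hgl, Final.pairCond_mapRep g hgl E Q C N hc hcond⟩, ?_, hord.map g⟩
  · obtain ⟨h1, h2, h3⟩ := hnorm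
    refine ⟨?_, ?_, ?_⟩
    · show evRep (mapRep g N) (MonoidAlgebra.mapRingHom GQ f D.u) 1 0 = 0
      rw [hev, Matrix.map_apply, h1, map_zero]
    · show evRep (mapRep g N) (MonoidAlgebra.mapRingHom GQ f D.w) 0 0 = 0
      rw [hev, Matrix.map_apply, h2, map_zero]
    · show evRep (mapRep g N) (MonoidAlgebra.mapRingHom GQ f D.w) 1 0 = 1
      rw [hev, Matrix.map_apply, h3, map_one]
  · show mapRep _ (mapRep g N) = mapRep (ResidueField.map f) D.rbar
    refine MonoidHom.ext fun σ => Matrix.ext fun i j => ?_
    have e : toResidue hl hs (N σ i j) = D.rbar σ i j :=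
      congrFun (congrFun (DFunLike.congr_fun hred σ) i) j
    simp only [mapRep_apply, Matrix.map_apply]
    rw [← e]
    exact (hres' _).trans (hres _)
  · rw [hres', hres, hα, map_one]

variable [Algebra O O'] [Module.Finite O O'] [IsLocalHom (algebraMap O O')]

omit [Finite (ResidueField O)] [CharP (ResidueField O) 2] [Finite (ResidueField O')]
  [CharP (ResidueField O') 2] in
/-- **A point in `O'` of the ring of pairs over `O` is an `O'`-point of the ring of pairs over
`O'`, with the same traces and the same unit root.** -/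
theorem exists_point_extended {h : IsResidualPair D E Q C} (U : (pairFunctor h).UniversalPoint)
    {h' : IsResidualPair (D.extend (algebraMap O O')) E Q C}
    (U' : (pairFunctor h').UniversalPoint) (θ : U.R →ₐ[O] O') :
    ∃ θ' : U'.R →ₐ[O'] O', θ' (uRoot U') = θ (uRoot U) ∧
      ∀ σ, θ' (Matrix.trace (uRep U' σ)) = θ (Matrix.trace (uRep U σ)) := by
  let I : Ideal U.R := RingHom.ker (θ : U.R →+* O')
  have : Nontrivial (U.R ⧸ I) :=
    Ideal.Quotient.nontrivial_iff.mpr (RingHom.ker_ne_top (θ : U.R →+* O'))
  have : IsLocalRing (U.R ⧸ I) :=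
    IsLocalRing.of_surjective' (Ideal.Quotient.mk I) Ideal.Quotient.mk_surjective
  let g : (U.R ⧸ I) →ₐ[O] O' := Ideal.Quotient.liftₐ I θ fun _ ha => ha
  have hginj : Function.Injective g := RingHom.kerLift_injective (θ : U.R →+* O')
  have : Module.Finite O (U.R ⧸ I) := Module.Finite.of_injective g.toLinearMap hginj
  let mk : U.R →ₐ[O] U.R ⧸ I := Ideal.Quotient.mkₐ O I
  have hmk : Function.Surjective mk := Ideal.Quotient.mk_surjective
  have hl : IsLocalHom (algebraMap O (U.R ⧸ I)) :=
    haveI := isLocalHom_of_surjective' (mk : U.R →+* U.R ⧸ I) hmk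
    haveI := U.instIsLocalHom
    RingHom.isLocalHom_comp (mk : U.R →+* U.R ⧸ I) (algebraMap O U.R)
  have : IsAdicComplete (maximalIdeal (U.R ⧸ I)) (U.R ⧸ I) :=
    IsLocalRing.isAdicComplete_of_module_finite (𝒪 := O)
  have := isLocalHom_of_surjective' (mk : U.R →+* U.R ⧸ I) hmk
  have hs : Function.Surjective (residue (U.R ⧸ I) ∘ algebraMap O (U.R ⧸ I)) := fun y => by
    obtain ⟨b, rfl⟩ := residue_surjective y
    obtain ⟨a, rfl⟩ := hmk b
    obtain ⟨o, ho⟩ := U.residue_surjective (residue U.R a)
    rw [Function.comp_apply] at ho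
    exact ⟨o, congrArg (ResidueField.map (mk : U.R →+* U.R ⧸ I)) ho⟩
  have hp := IsPair.map_surjective h hl hs mk hmk (isPair_universal U)
  have hgl : IsLocalHom (g : (U.R ⧸ I) →+* O') := Engine.TRep.isLocalHom_point g
  have hp' := isPair_map_extend (algebraMap O O') hp (g : (U.R ⧸ I) →+* O') hgl g.commutes
  obtain ⟨θ', ⟨-, hθ, hroot⟩, -⟩ := Pair.existsUnique_map U' residue_surjective_self hp'
  refine ⟨θ', hroot.trans rfl, fun σ => ?_⟩
  have e' : ∀ i, θ' (uRep U' σ i i) = θ (uRep U σ i i) := fun i =>
    congrFun (congrFun (DFunLike.congr_fun hθ σ) i) i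
  simp only [Matrix.trace, Matrix.diag, Fin.sum_univ_two, map_add, e']

/-- `PointExtend` holds. -/
theorem pointExtend : PointExtend := by
  intro O _ _ _ _ _ _ O' _ _ _ _ _ _ _ _ _ _ D E C h0 U h0' U' θ
  obtain ⟨θ', -⟩ := exists_point_extended U U' θ
  exact ⟨θ'⟩

end TopDown

end Fermat.Agent.TwoAdic

end
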