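import Fermat.Agent.TwoAdic.Route.Setup

/-!
# The base setup: the auxiliary core primes relaxed

The primes added to the core are outside `S`, with `X r` sent to a prescribed value (a root of the
residual Hecke polynomial).
-/

set_option autoImplicit false

noncomputable section

open IsLocalRing GaloisRep Fermat.Agent.DefRing
open Fermat.Agent.HeckeModule Fermat.Agent.HeckeJ0 Fermat.Agent.LevelRaising

namespace Fermat.Agent.TwoAdic.TopDown

variable {O : Type} [CommRing O] [IsLocalRing O] [CharP (ResidueField O) 2]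

omit [CharP (ResidueField O) 2] in
theorem C_sub_mem_residualIdeal_iff (r : MRep (ResidueField O)) {S : Set ℕ} (a o : O) :
    (MvPolynomial.C a - MvPolynomial.C o : AwayPoly O S) ∈ residualIdeal r S ↔
      residue O a = residue O o := by
  rw [residualIdeal, RingHom.mem_ker, map_sub, sub_eq_zero]
  simp only [AlgHom.toRingHom_eq_coe, RingHom.coe_coe, residualHom, MvPolynomial.aeval_C]
  rfl

open Classical in
/-- The eigenvalues of the base setup. -/
def baseEigen (r : MRep (ResidueField O)) (R : Finset ℕ) (t : ℕ → O) (ℓ : ℕ) : ResidueField O :=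
  if ℓ ∈ R then residue O (t ℓ) else residualEigen r ℓ

/-- **The base setup.** -/
theorem exists_baseSetup (E : LiftData) (res : NormalData O) (Sm X : Finset ℕ)
    (hdih : IsDihedralResidual E.D res.rbar) (hcont : IsCont res.rbar)
    (hmod : IsResiduallyModular E.D res.rbar Sm) (hℓ₀ : E.ℓ₀ % 4 = 3) :
    ∃ R : Finset ℕ, CorePrimes E res.rbar R X ∧ ∀ Sx : Finset ℕ,
      E.D.primeFactors ∪ E.aux ⊆ Sx → Disjoint Sx R → ∀ t : ℕ → O,
      ∃ T : ALSetup O, T.core = E.ℓ₀ * prodOf R ∧ T.M = 1 ∧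
        T.W = E.D.primeFactors.erase E.ℓ₀ ∪ E.aux ∧ T.χ = 1 ∧ (∀ e, T.c e = -(E.sgn e : O)) ∧
        T.S = ↑Sx ∧
        ∀ (l : AwayIndex T.S) (o : O), MvPolynomial.X l - MvPolynomial.C o ∈ T.m ↔
          baseEigen res.rbar R t ((l : Nat.Primes) : ℕ) = residue O o := by
  classical
  obtain ⟨R, hR⟩ := exists_corePrimes E hdih hcont (ne_three hmod) X
  refine ⟨R, hR, fun Sx hsub hdisj t => ?_⟩
  have hW : E.D.primeFactors.erase E.ℓ₀ ∪ E.aux ⊆ Sx :=
    (Finset.union_subset_union (Finset.erase_subset _ _) subset_rfl).trans hsub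
  let T₀ := setup E res Sm R X hdih hcont hmod hℓ₀ hR (Sx ∪ R)
    (hW.trans Finset.subset_union_left)
  have hS : (↑Sx : Set ℕ) ⊆ T₀.S := fun x hx => Finset.mem_coe.mpr
    (Finset.mem_union_left _ (Finset.mem_coe.mp hx))
  refine ⟨T₀.relax (↑Sx) hS t fun e he => Finset.mem_coe.mpr (hW he), rfl, rfl, rfl, rfl,
    fun e => rfl, rfl, fun l o => ?_⟩
  show MvPolynomial.X l - MvPolynomial.C o ∈ relaxIdeal T₀.m (↑Sx) t ↔ _
  rw [relaxIdeal, Ideal.mem_comap, map_sub, ← MvPolynomial.algebraMap_eq, AlgHom.commutes,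
    MvPolynomial.algebraMap_eq, relaxHom, MvPolynomial.aeval_X]
  have hlS : ((l : Nat.Primes) : ℕ) ∉ Sx := fun h => l.2 (Finset.mem_coe.mpr h)
  by_cases hl : ((l : Nat.Primes) : ℕ) ∈ R
  · rw [dif_pos (show ((l : Nat.Primes) : ℕ) ∈ T₀.S from
        Finset.mem_coe.mpr (Finset.mem_union_right _ hl)), baseEigen, if_pos hl]
    exact C_sub_mem_residualIdeal_iff res.rbar _ _
  · have hlS' : ((l : Nat.Primes) : ℕ) ∉ T₀.S := fun h =>
      (Finset.mem_union.mp (Finset.mem_coe.mp h)).elim hlS hl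
    rw [dif_neg hlS', baseEigen, if_neg hl]
    exact awayX_sub_mem_residualIdeal_iff res.rbar l.1.2 hlS' o

omit [CharP (ResidueField O) 2] in
/-- The residual Frobenius traces give elements of the prime, in the shape used by the top step. -/
theorem base_mem {D : ℕ} {r : MRep (ResidueField O)} {Sm R : Finset ℕ} {t : ℕ → O} {S : Set ℕ}
    {m : Ideal (AwayPoly O S)} (hmod : IsResiduallyModular D r Sm)
    (hm : ∀ (l : AwayIndex S) (o : O), MvPolynomial.X l - MvPolynomial.C o ∈ m ↔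
      baseEigen r R t ((l : Nat.Primes) : ℕ) = residue O o)
    (S₀ : Finset ℕ) (hS₀ : Sm ∪ R ∪ {2} ⊆ S₀) (l : AwayIndex S)
    (hl : ((l : Nat.Primes) : ℕ) ∉ S₀)
    (P : ValuationSubring (AlgebraicClosure ℚ)) (hP : P.LiesOverPrime ((l : Nat.Primes) : ℕ))
    (φ : GQ) (hφ : P.IsFrobeniusAt φ ((l : Nat.Primes) : ℕ)) (o : O)
    (ho : residue O o = (r φ).trace) : MvPolynomial.X l - MvPolynomial.C o ∈ m := by
  have h := fun hx => hl (hS₀ hx)
  simp only [Finset.mem_union, Finset.mem_singleton] at h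
  rw [hm, baseEigen, if_neg fun hx => h (Or.inl (Or.inr hx)), residualEigen_of_ne r
    (fun hx => h (Or.inr hx)), residualTrace_eq hmod l.1.2 (fun hx => h (Or.inl (Or.inl hx))) hP hφ,
    ho]

omit [CharP (ResidueField O) 2] in
/-- At `2` the base prime contains `X 2 - 1`. -/
theorem base_two_mem {r : MRep (ResidueField O)} {R : Finset ℕ} {t : ℕ → O} {S : Set ℕ}
    {m : Ideal (AwayPoly O S)}
    (hm : ∀ (l : AwayIndex S) (o : O), MvPolynomial.X l - MvPolynomial.C o ∈ m ↔
      baseEigen r R t ((l : Nat.Primes) : ℕ) = residue O o)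
    (hR : 2 ∉ R) (l : AwayIndex S) (hl : ((l : Nat.Primes) : ℕ) = 2) (o : O)
    (ho : residue O o = 1) : MvPolynomial.X l - MvPolynomial.C o ∈ m := by
  rw [hm, baseEigen, hl, if_neg hR, residualEigen, if_pos rfl, ho]

end Fermat.Agent.TwoAdic.TopDown

end
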