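import Fermat.Agent.TwoAdic.Route.Inputs
import Fermat.Agent.TwoAdic.Modules.RelaxIso
import Fermat.Agent.TwoAdic.Modules.NonVanishing
import Fermat.Agent.TwoAdic.Selmer.Pattern
import Fermat.Agent.Quick.CuspTwo
import Fermat.Agent.Chebotarev.Main

/-!
# The global Atkin–Lehner setup of the lifting step

`exists_corePrimes`: auxiliary level primes with residual Frobenius of order three giving the
quartic and elliptic conditions.  `setup`: the setup of level `ℓ₀ ∏ R`, Atkin–Lehner primes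
`(D \ ℓ₀) ∪ A`, scalars `- sgn`, maximal ideal of the residual eigen system.
-/

set_option autoImplicit false

noncomputable section

open IsLocalRing GaloisRep Fermat.Agent.DefRing
open Fermat.Agent.HeckeModule Fermat.Agent.HeckeJ0 Fermat.Agent.LevelRaising

namespace Fermat.Agent.TwoAdic.TopDown

/-- Residual modularity at level `D` excludes `D = 3`. -/
theorem ne_three {k : Type} [Field k] {D : ℕ} {r : MRep k} {S : Finset ℕ}
    (h : IsResiduallyModular D r S) : D ≠ 3 := by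
  rintro rfl
  obtain ⟨f, hf, -⟩ := h
  refine hf.ne_zero (Quick.cuspForm_eq_zero_of_index_le ?_ f)
  rw [Gamma0Count.index_Gamma0]
  unfold ModularCurve.dedekindPsi
  rw [Finset.sum_filter, Nat.Prime.divisors Nat.prime_three]
  simp [Nat.prime_three.squarefree]

/-- The primes added to the level. -/
structure CorePrimes {k : Type} [Field k] (E : LiftData) (r : MRep k) (R X : Finset ℕ) : Prop where
  prime : ∀ q ∈ R, q.Prime
  mod_four : ∀ q ∈ R, q % 4 = 1
  fresh : ∀ q ∈ R, q ∉ X ∧ ¬ q ∣ 2 * E.D ∧ q ∉ E.aux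
  trace : ∀ q ∈ R, ∀ P : ValuationSubring (AlgebraicClosure ℚ), P.LiesOverPrime q →
    ∀ φ : GQ, P.IsFrobeniusAt φ q → (r φ).trace = 1
  quartic : ∀ e ∈ E.D.primeFactors.erase E.ℓ₀ ∪ E.aux, ∃ q ∈ R, jacobiSym (e : ℤ) q = -1 ∧
    ∀ e' ∈ E.D.primeFactors.erase E.ℓ₀ ∪ E.aux, e' ≠ e → jacobiSym (e' : ℤ) q = 1
  mod_three : ∃ q ∈ R, q % 3 = 2

/-- Auxiliary level primes exist, away from any finite set. -/
theorem exists_corePrimes {k : Type} [Field k] [CharP k 2] (E : LiftData) {r : MRep k}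
    (hr : IsDihedralResidual E.D r) (hc : IsCont r) (h3 : E.D ≠ 3) (X : Finset ℕ) :
    ∃ R : Finset ℕ, CorePrimes E r R X := by
  classical
  set W := E.D.primeFactors.erase E.ℓ₀ ∪ E.aux with hWdef
  have hD0 : E.D ≠ 0 := by have := E.mod_eight; omega
  set X' := X ∪ (2 * E.D).primeFactors ∪ E.aux ∪ {3} with hX'
  have hfresh : ∀ q : ℕ, q.Prime → q ∉ X' → q ∉ X ∧ ¬ q ∣ 2 * E.D ∧ q ∉ E.aux ∧ q ≠ 3 := by
    intro q hq hqX
    simp only [hX', Finset.mem_union, Finset.mem_singleton, Nat.mem_primeFactors, not_or] at hqX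
    exact ⟨hqX.1.1.1, fun h => hqX.1.1.2 ⟨hq, h, by omega⟩, hqX.1.2, hqX.2⟩
  have hℓ₀ : E.ℓ₀ ∈ E.D.primeFactors := Nat.mem_primeFactors.mpr ⟨E.prime_ℓ₀, E.dvd_ℓ₀, hD0⟩
  -- one prime for each Atkin–Lehner prime
  have hW : ∀ e ∈ W, ∃ q, q ∉ X' ∧ q.Prime ∧ q % 4 = 1 ∧
      (∀ P : ValuationSubring (AlgebraicClosure ℚ), P.LiesOverPrime q →
        ∀ φ : GQ, P.IsFrobeniusAt φ q → (r φ).trace = 1) ∧
      jacobiSym (e : ℤ) q = -1 ∧ ∀ e' ∈ W, e' ≠ e → jacobiSym (e' : ℤ) q = 1 := by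
    intro e he
    let χ : ℕ → ℤ := fun x => if x = e ∨ (x = E.ℓ₀ ∧ e ∣ E.D) then -1 else 1
    have hWp : ∀ x ∈ W, x.Prime := fun x hx => (Finset.mem_union.mp hx).elim
      (fun h => Nat.prime_of_mem_primeFactors (Finset.mem_of_mem_erase h))
      fun h => (E.aux_spec x h).1
    have heℓ : e ≠ E.ℓ₀ := fun h => (Finset.mem_union.mp he).elim
      (fun h' => Finset.notMem_erase E.ℓ₀ _ (h ▸ h')) fun h' => (E.aux_spec e h').2.2 (h ▸ E.dvd_ℓ₀)
    have hprod : ∏ x ∈ E.D.primeFactors, χ x = 1 := by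
      by_cases hed : e ∣ E.D
      · have hemem : e ∈ E.D.primeFactors.erase E.ℓ₀ :=
          Finset.mem_erase.mpr ⟨heℓ, Nat.mem_primeFactors.mpr ⟨hWp e he, hed, hD0⟩⟩
        rw [← Finset.mul_prod_erase _ _ hℓ₀, ← Finset.mul_prod_erase _ _ hemem,
          Finset.prod_eq_one fun x hx => if_neg ?_]
        · simp [χ, hed]
        · obtain ⟨hx1, hx2⟩ := Finset.mem_erase.mp hx
          rintro (h | ⟨h, -⟩)
          · exact hx1 h
          · exact (Finset.mem_erase.mp hx2).1 h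
      · exact Finset.prod_eq_one fun x hx => if_neg (by
          rintro (h | ⟨-, h⟩)
          · exact hed (h ▸ Nat.dvd_of_mem_primeFactors hx)
          · exact hed h)
    obtain ⟨q, hqX, -, hq, hq4, hJ, htr⟩ := Selmer.exists_pattern hr hc E.squarefree E.mod_eight
      (E.D.primeFactors ∪ W) (fun x hx => (Finset.mem_union.mp hx).elim
        Nat.prime_of_mem_primeFactors (hWp x))
      (fun x hx hxD => Finset.mem_union_left _ (Nat.mem_primeFactors.mpr ⟨hx, hxD, hD0⟩)) χ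
      (fun x _ => by simp only [χ]; split_ifs <;> simp) hprod 0 (fun h => absurd h (by omega)) X'
    refine ⟨q, hqX, hq, hq4, htr, (hJ e (Finset.mem_union_right _ he)).trans (if_pos (Or.inl rfl)),
      fun e' he' hne => (hJ e' (Finset.mem_union_right _ he')).trans (if_neg ?_)⟩
    rintro (h | ⟨h, -⟩)
    · exact hne h
    · exact (Finset.mem_union.mp he').elim (fun h' => Finset.notMem_erase E.ℓ₀ _ (h ▸ h'))
        fun h' => (E.aux_spec e' h').2.2 (h ▸ E.dvd_ℓ₀)
  choose g hgX hgp hg4 hgtr hgJ hgJ' using hW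
  -- one prime `≡ 2 (mod 3)`
  obtain ⟨q₀, hq₀X, hq₀, hq₀4, hq₀3, hq₀tr⟩ : ∃ q, q ∉ X' ∧ q.Prime ∧ q % 4 = 1 ∧ q % 3 = 2 ∧
      ∀ P : ValuationSubring (AlgebraicClosure ℚ), P.LiesOverPrime q →
        ∀ φ : GQ, P.IsFrobeniusAt φ q → (r φ).trace = 1 := by
    obtain ⟨x₀, hx₀⟩ : ∃ x₀, 3 ∣ E.D → x₀ ∈ E.D.primeFactors ∧ x₀ ≠ 3 := by
      by_cases h3d : 3 ∣ E.D
      · by_contra! hall
        refine h3 ?_
        have hsub : E.D.primeFactors = {3} := Finset.eq_singleton_iff_unique_mem.mpr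
          ⟨Nat.mem_primeFactors.mpr ⟨Nat.prime_three, h3d, hD0⟩, fun x hx => (hall x).2 hx⟩
        rw [← Nat.prod_primeFactors_of_squarefree E.squarefree, hsub, Finset.prod_singleton]
      · exact ⟨0, fun h => absurd h h3d⟩
    let χ : ℕ → ℤ := fun x => if x = 3 ∨ (x = x₀ ∧ 3 ∣ E.D) then -1 else 1
    have hprod : ∏ x ∈ E.D.primeFactors, χ x = 1 := by
      by_cases h3d : 3 ∣ E.D
      · obtain ⟨hx₀m, hx₀3⟩ := hx₀ h3d
        have h3m : 3 ∈ E.D.primeFactors.erase x₀ := Finset.mem_erase.mpr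
          ⟨fun h => hx₀3 h.symm, Nat.mem_primeFactors.mpr ⟨Nat.prime_three, h3d, hD0⟩⟩
        rw [← Finset.mul_prod_erase _ _ hx₀m, ← Finset.mul_prod_erase _ _ h3m,
          Finset.prod_eq_one fun x hx => if_neg ?_]
        · simp [χ, h3d]
        · obtain ⟨hx1, hx2⟩ := Finset.mem_erase.mp hx
          rintro (h | ⟨h, -⟩)
          · exact hx1 h
          · exact (Finset.mem_erase.mp hx2).1 h
      · exact Finset.prod_eq_one fun x hx => if_neg (by
          rintro (h | ⟨-, h⟩)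
          · exact h3d (h ▸ Nat.dvd_of_mem_primeFactors hx)
          · exact h3d h)
    obtain ⟨q, hqX, -, hq, hq4, hJ, htr⟩ := Selmer.exists_pattern hr hc E.squarefree E.mod_eight
      (insert 3 E.D.primeFactors) (fun x hx => (Finset.mem_insert.mp hx).elim
        (fun h => h ▸ Nat.prime_three) Nat.prime_of_mem_primeFactors)
      (fun x hx hxD => Finset.mem_insert_of_mem (Nat.mem_primeFactors.mpr ⟨hx, hxD, hD0⟩)) χ
      (fun x _ => by simp only [χ]; split_ifs <;> simp) hprod 0 (fun h => absurd h (by omega)) X'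
    refine ⟨q, hqX, hq, hq4, ?_, htr⟩
    have hne3 := (hfresh q hq hqX).2.2.2
    have h3J : jacobiSym ((3 : ℕ) : ℤ) q = -1 :=
      (hJ 3 (Finset.mem_insert_self 3 _)).trans (if_pos (Or.inl rfl))
    rw [← jacobiSym.quadratic_reciprocity_one_mod_four hq4 (by decide), jacobiSym.mod_left] at h3J
    have hcases : q % 3 = 1 ∨ q % 3 = 2 := by
      have : q % 3 ≠ 0 := fun h => hne3
        ((Nat.prime_dvd_prime_iff_eq Nat.prime_three hq).mp (Nat.dvd_of_mod_eq_zero h)).symm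
      omega
    refine hcases.resolve_left fun h => ?_
    rw [show ((q : ℤ) % ((3 : ℕ) : ℤ)) = 1 by omega, jacobiSym.one_left] at h3J
    exact absurd h3J (by decide)
  let R : Finset ℕ := insert q₀ (W.attach.image fun e => g e.1 e.2)
  have hmem : ∀ q ∈ R, q = q₀ ∨ ∃ e : ℕ, ∃ he : e ∈ W, g e he = q := fun q hq => by
    rcases Finset.mem_insert.mp hq with h | h
    · exact Or.inl h
    · obtain ⟨⟨e, he⟩, -, rfl⟩ := Finset.mem_image.mp h
      exact Or.inr ⟨e, he, rfl⟩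
  have hp : ∀ q ∈ R, q.Prime := fun q hq => by
    rcases hmem q hq with rfl | ⟨e, he, rfl⟩ <;> [exact hq₀; exact hgp e he]
  refine ⟨R, hp, fun q hq => ?_, fun q hq => ?_, fun q hq => ?_, fun e he => ?_,
    q₀, Finset.mem_insert_self _ _, hq₀3⟩
  · rcases hmem q hq with rfl | ⟨e, he, rfl⟩ <;> [exact hq₀4; exact hg4 e he]
  · have hX : q ∉ X' := by
      rcases hmem q hq with rfl | ⟨e, he, rfl⟩ <;> [exact hq₀X; exact hgX e he]
    obtain ⟨h1, h2, h4, -⟩ := hfresh q (hp q hq) hX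
    exact ⟨h1, h2, h4⟩
  · rcases hmem q hq with rfl | ⟨e, he, rfl⟩ <;> [exact hq₀tr; exact hgtr e he]
  · exact ⟨g e he, Finset.mem_insert_of_mem
      (Finset.mem_image.mpr ⟨⟨e, he⟩, Finset.mem_attach _ _, rfl⟩), hgJ e he, hgJ' e he⟩

/-- A prime `≡ 1` modulo `N` outside a finite set at which the residual Frobenius trace is `1`. -/
theorem exists_prime_one_mod {k : Type} [Field k] [CharP k 2] {D : ℕ} {r : MRep k}
    (hr : IsDihedralResidual D r) (hD : 0 < D) (hc : IsCont r) {N : ℕ} (hN : N ≠ 0)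
    (bad : Finset ℕ) :
    ∃ ℓ : ℕ, ℓ.Prime ∧ ℓ ∉ bad ∧ (ℓ : ZMod N) = 1 ∧
      ∃ A : ValuationSubring (AlgebraicClosure ℚ), A.LiesOverPrime ℓ ∧ ∃ φ : GQ,
        A.IsFrobeniusAt φ ℓ ∧ (r φ).trace = 1 := by
  classical
  have : NeZero N := ⟨hN⟩
  obtain ⟨L, hL, hL1⟩ := Selmer.exists_level hc
  obtain ⟨ζ, hζ⟩ := HasEnoughRootsOfUnity.exists_primitiveRoot (AlgebraicClosure ℚ) N
  let Z : IntermediateField ℚ (AlgebraicClosure ℚ) := IntermediateField.adjoin ℚ {ζ}
  have : FiniteDimensional ℚ Z := IntermediateField.adjoin.finiteDimensional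
    ((hζ.isIntegral (NeZero.pos N)).tower_top)
  obtain ⟨σ, τ, hσ, hτ, hc'⟩ := Selmer.exists_noncommute hr hD
  set g := σ * τ * σ⁻¹ * τ⁻¹ with hg
  have hgT : ¬ Selmer.IsTransp r g := by
    rw [Selmer.transp_iff hr, not_not, hg]
    exact Selmer.commutator_sqrt (a := -(D : ℤ)) (by rw [Selmer.rootNeg_sq]; push_cast; rfl)
  have hg1 : r g ≠ 1 := fun h => hc' (by
    have h2 : r (σ * τ) = r g * r (τ * σ) := by rw [← map_mul, hg]; congr 1; group
    rw [h, one_mul, map_mul, map_mul] at h2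
    exact h2)
  obtain ⟨ℓ, hℓ, hℓbad, A, hA, φ, hφ, hagree⟩ :=
    Chebotarev.exists_isFrobeniusAt_eqOn (L ⊔ Z) g (bad ∪ N.primeFactors)
  rw [Finset.mem_union, not_or] at hℓbad
  have hℓN : ¬ ℓ ∣ N := fun h => hℓbad.2 (Nat.mem_primeFactors.mpr ⟨hℓ, h, hN⟩)
  have hgζ : g ζ = ζ := by
    have key : ∀ (μ : AlgebraicClosure ℚ) (hμ : μ ^ N = 1), σ (τ μ) = τ (σ μ) := by
      intro μ hμ
      obtain ⟨i, -, hi⟩ := hζ.eq_pow_of_pow_eq_one
        (show σ ζ ^ N = 1 by rw [← map_pow, hζ.pow_eq_one, map_one])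
      obtain ⟨j, -, hj⟩ := hζ.eq_pow_of_pow_eq_one
        (show τ ζ ^ N = 1 by rw [← map_pow, hζ.pow_eq_one, map_one])
      obtain ⟨m, -, rfl⟩ := hζ.eq_pow_of_pow_eq_one hμ
      simp only [map_pow, ← hi, ← hj, ← pow_mul, mul_left_comm]
    have hy : ((σ⁻¹ * τ⁻¹) ζ) ^ N = 1 := by rw [← map_pow, hζ.pow_eq_one, map_one]
    have e1 : g ζ = σ (τ ((σ⁻¹ * τ⁻¹) ζ)) := by rw [hg]; rfl
    rw [e1, key _ hy, ← AlgEquiv.mul_apply, ← AlgEquiv.mul_apply,
      show τ * σ * (σ⁻¹ * τ⁻¹) = 1 by group]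
    rfl
  have h1 : φ ζ = ζ ^ ℓ := TameInertia.frobenius_root_of_unity hℓ hA hφ hℓN hζ.pow_eq_one
  rw [hagree ζ (le_sup_right (α := IntermediateField ℚ (AlgebraicClosure ℚ))
    (IntermediateField.mem_adjoin_simple_self ℚ ζ)), hgζ] at h1
  refine ⟨ℓ, hℓ, hℓbad.1, ?_, A, hA, φ, hφ, ?_⟩
  · rw [← Nat.cast_one, ZMod.natCast_eq_natCast_iff, hζ.eq_orderOf,
      ← (hζ.isOfFinOrder hN).pow_eq_pow_iff_modEq, pow_one, ← h1]
  · have := hL1 (g⁻¹ * φ) ((IntermediateField.mem_fixingSubgroup_iff L _).mpr fun x hx => by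
      rw [AlgEquiv.mul_apply,
        hagree x (le_sup_left (α := IntermediateField ℚ (AlgebraicClosure ℚ)) hx)]
      exact g.symm_apply_apply x)
    rw [show r φ = r (g * (g⁻¹ * φ)) by rw [mul_inv_cancel_left], map_mul, this, mul_one]
    exact Selmer.trace_eq_one hr hD hgT hg1

section Setup

variable {O : Type} [CommRing O] [IsLocalRing O] [CharP (ResidueField O) 2]

open Classical in
/-- The residual trace at Frobenius elements over `ℓ`. -/
def residualTrace (r : MRep (ResidueField O)) (ℓ : ℕ) : ResidueField O :=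
  if h : ∃ t : ResidueField O, ∀ P : ValuationSubring (AlgebraicClosure ℚ), P.LiesOverPrime ℓ →
      ∀ φ : GQ, P.IsFrobeniusAt φ ℓ → (r φ).trace = t
  then h.choose else 0

omit [CharP (ResidueField O) 2] in
theorem residualTrace_eq {r : MRep (ResidueField O)} {D : ℕ} {S : Finset ℕ}
    (h : IsResiduallyModular D r S) {ℓ : ℕ} (hℓ : ℓ.Prime) (hℓS : ℓ ∉ S)
    {P : ValuationSubring (AlgebraicClosure ℚ)} (hP : P.LiesOverPrime ℓ) {φ : GQ}
    (hφ : P.IsFrobeniusAt φ ℓ) : residualTrace r ℓ = (r φ).trace := by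
  obtain ⟨f, -, Q, -, -, -, hgood⟩ := h
  obtain ⟨a, m, -, -, htr⟩ := hgood ℓ hℓ hℓS
  have hex : ∃ t : ResidueField O, ∀ P : ValuationSubring (AlgebraicClosure ℚ),
      P.LiesOverPrime ℓ → ∀ φ : GQ, P.IsFrobeniusAt φ ℓ → (r φ).trace = t := ⟨_, htr⟩
  rw [residualTrace, dif_pos hex, hex.choose_spec P hP φ hφ]

/-- The residual eigenvalues: the Frobenius traces away from `2`, and `1` at `2` (the unit root
of an ordinary eigen system). -/
def residualEigen (r : MRep (ResidueField O)) (ℓ : ℕ) : ResidueField O :=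
  if ℓ = 2 then 1 else residualTrace r ℓ

omit [CharP (ResidueField O) 2] in
theorem residualEigen_of_ne (r : MRep (ResidueField O)) {ℓ : ℕ} (h : ℓ ≠ 2) :
    residualEigen r ℓ = residualTrace r ℓ :=
  if_neg h

/-- The residual eigen system as a character of the Hecke polynomials away from `S`. -/
def residualHom (r : MRep (ResidueField O)) (S : Set ℕ) : AwayPoly O S →ₐ[O] ResidueField O :=
  MvPolynomial.aeval fun l => residualEigen r ((l : Nat.Primes) : ℕ)

/-- Its maximal ideal. -/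
def residualIdeal (r : MRep (ResidueField O)) (S : Set ℕ) : Ideal (AwayPoly O S) :=
  RingHom.ker (residualHom r S).toRingHom

omit [CharP (ResidueField O) 2] in
theorem awayX_sub_mem_residualIdeal_iff (r : MRep (ResidueField O)) {S : Set ℕ} {ℓ : ℕ}
    (hℓ : ℓ.Prime) (hS : ℓ ∉ S) (o : O) :
    awayX O hℓ hS - MvPolynomial.C o ∈ residualIdeal r S ↔ residualEigen r ℓ = residue O o := by
  rw [residualIdeal, RingHom.mem_ker, map_sub, sub_eq_zero]
  simp only [AlgHom.toRingHom_eq_coe, RingHom.coe_coe, residualHom, awayX, MvPolynomial.aeval_X,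
    MvPolynomial.aeval_C]
  rfl

/-- The global setup. -/
def setup (E : LiftData) (res : NormalData O) (Sm R X : Finset ℕ)
    (hdih : IsDihedralResidual E.D res.rbar) (hcont : IsCont res.rbar)
    (hmod : IsResiduallyModular E.D res.rbar Sm) (hℓ₀ : E.ℓ₀ % 4 = 3)
    (hR : CorePrimes E res.rbar R X) (Sx : Finset ℕ)
    (hW : E.D.primeFactors.erase E.ℓ₀ ∪ E.aux ⊆ Sx) : ALSetup O where
  core := E.ℓ₀ * prodOf R
  M := 1
  W := E.D.primeFactors.erase E.ℓ₀ ∪ E.aux
  χ := 1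
  c := fun e => -(E.sgn e : O)
  S := ↑Sx
  m := residualIdeal res.rbar ↑Sx
  core_ne := mul_ne_zero E.prime_ℓ₀.ne_zero
    (Finset.prod_ne_zero_iff.mpr fun q hq => (hR.prime q hq).ne_zero)
  prime e he := (Finset.mem_union.mp he).elim
    (fun h => Nat.prime_of_mem_primeFactors (Finset.mem_of_mem_erase h))
    fun h => (E.aux_spec e h).1
  notDvd := by
    intro e he hd
    have hep : e.Prime := (Finset.mem_union.mp he).elim
      (fun h => Nat.prime_of_mem_primeFactors (Finset.mem_of_mem_erase h))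
      fun h => (E.aux_spec e h).1
    rcases hep.dvd_mul.mp hd with h | h
    · obtain rfl := (Nat.prime_dvd_prime_iff_eq hep E.prime_ℓ₀).mp h
      exact (Finset.mem_union.mp he).elim (fun h' => Finset.notMem_erase _ _ h')
        fun h' => (E.aux_spec _ h').2.2 E.dvd_ℓ₀
    · obtain ⟨q, hq, hdq⟩ := ((Nat.prime_iff.mp hep).dvd_finsetProd_iff _).mp h
      obtain rfl := (Nat.prime_dvd_prime_iff_eq hep (hR.prime q hq)).mp hdq
      obtain ⟨-, hqD, hqA⟩ := hR.fresh _ hq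
      exact (Finset.mem_union.mp he).elim (fun h' => hqD ((Nat.dvd_of_mem_primeFactors
        (Finset.mem_of_mem_erase h')).mul_left 2)) hqA
  dvd_core := one_dvd _
  mem_S e he := hW he
  isPrime := RingHom.ker_isPrime _
  le := by
    rw [Ideal.map_le_iff_le_comap]
    intro o ho
    rw [Ideal.mem_comap, residualIdeal, RingHom.mem_ker]
    simp only [AlgHom.toRingHom_eq_coe, RingHom.coe_coe, AlgHom.commutes]
    exact (residue_eq_zero_iff o).mpr ho
  two := by rw [← residue_eq_zero_iff, map_ofNat]; exact CharTwo.two_eq_zero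
  char_one u := by rw [MonoidHom.one_apply, sub_self]; exact Ideal.zero_mem _
  even := MonoidHom.one_apply _
  sq e _ _ := by
    rw [MonoidHom.one_apply, neg_mul_neg, ← Int.cast_mul]
    rcases E.sgn_spec e with h | h <;> simp [h]
  eisenstein := by
    obtain ⟨ℓ, hℓ, hℓb, h1, A, hA, φ, hφ, htr⟩ := exists_prime_one_mod hdih
      (by have := E.mod_eight; omega) hcont
      (N := E.ℓ₀ * prodOf R * prodOf (E.D.primeFactors.erase E.ℓ₀ ∪ E.aux))
      (mul_ne_zero (mul_ne_zero E.prime_ℓ₀.ne_zero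
        (Finset.prod_ne_zero_iff.mpr fun q hq => (hR.prime q hq).ne_zero))
        (Finset.prod_ne_zero_iff.mpr fun q hq => ((Finset.mem_union.mp hq).elim
          (fun h => (Nat.prime_of_mem_primeFactors (Finset.mem_of_mem_erase h)).ne_zero)
          fun h => (E.aux_spec q h).1.ne_zero))) (Sm ∪ Sx ∪ {2})
    rw [Finset.mem_union, Finset.mem_union, Finset.mem_singleton, not_or, not_or] at hℓb
    refine ⟨ℓ, hℓ, by simpa using hℓb.1.2, h1, fun h => ?_⟩
    rw [awayX_sub_mem_residualIdeal_iff, residualEigen_of_ne _ hℓb.2,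
      residualTrace_eq hmod hℓ hℓb.1.1 hA hφ, htr, map_add, map_natCast, map_one] at h
    have hodd : ¬ 2 ∣ ℓ := fun h' =>
      hℓb.2 ((Nat.prime_dvd_prime_iff_eq Nat.prime_two hℓ).mp h').symm
    obtain ⟨j, rfl⟩ : ∃ j, ℓ = 2 * j + 1 := ⟨ℓ / 2, by omega⟩
    push_cast at h
    have h20 : (2 : ResidueField O) = 0 := CharTwo.two_eq_zero
    exact one_ne_zero (show (1 : ResidueField O) = 0 by
      linear_combination h + ((j : ResidueField O) + 1) * h20)
  elliptic₄ :=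
    haveI : Fact E.ℓ₀.Prime := ⟨E.prime_ℓ₀⟩
    fun t => sq_add_one_ne_of_prime_dvd (dvd_mul_right _ _) hℓ₀ t
  elliptic₃ := by
    obtain ⟨q, hq, hq3⟩ := hR.mod_three
    have : Fact q.Prime := ⟨hR.prime q hq⟩
    exact fun t => sq_add_add_one_ne_of_prime_dvd
      ((show q ∣ prodOf R from Finset.dvd_prod_of_mem id hq).mul_left _) hq3 t
  quartic e he := by
    obtain ⟨q, hq, h1, h2'⟩ := hR.quartic e he
    exact ⟨q, hR.prime q hq, (show q ∣ prodOf R from Finset.dvd_prod_of_mem id hq).mul_left _,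
        hR.mod_four q hq, h1, h2'⟩

end Setup

end Fermat.Agent.TwoAdic.TopDown

end
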