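import Fermat.Agent.TwoAdic.Route.Inputs
import Fermat.Agent.TwoAdic.Pair.Residual
import Fermat.Agent.TwoAdic.TSide.Descend
import Fermat.Agent.Deform.Residual

/-!
# `LiftingTwo` from the final step

The final step says that every `O`-point of the universal ring of pairs free at the further primes
occurs; the point of a lifting problem is such a point after putting it in normal form.
-/

set_option autoImplicit false

noncomputable section

open IsLocalRing GaloisRep Fermat.Agent.DefRing Fermat.Agent.Deform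

namespace Fermat.Agent.TwoAdic.TopDown

/-- The final step of the 2-adic lifting: every `O`-point of the universal ring of pairs without
crystalline
equation, free at `W`, occurs at level `2 D X ∏ w²`. -/
def FinalStep : Prop :=
  ∀ (O : Type) [CommRing O] [IsDomain O] [IsDiscreteValuationRing O]
    [IsAdicComplete (maximalIdeal O) O] [Finite (ResidueField O)] [CharP (ResidueField O) 2]
    [CharZero O],
    (∃ z : ResidueField O, z * z + z + 1 = 0) →
    ∀ (E : LiftData) (res : NormalData O) (W S : Finset ℕ), E.aux = ∅ → E.ℓ₀ % 4 = 3 →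
      IsDihedralResidual E.D res.rbar → IsCont res.rbar → IsResiduallyModular E.D res.rbar S →
      HasDoubling E.D res.rbar S →
      (∀ w ∈ W, w.Prime ∧ w ≠ 2 ∧ ¬ w ∣ E.D) →
      (∀ ℓ : ℕ, ℓ.Prime → (ℓ = 2 ∨ ℓ ∣ E.D ∨ ℓ ∈ W) → ℓ ∈ S) →
      ∀ (h : Pair.IsResidualPair res E W ∅) (U : (Pair.pairFunctor h).UniversalPoint),
        ∃ (X : ℕ) (S' : Finset ℕ), Squarefree (2 * E.D * X) ∧ (∀ w ∈ W, ¬ w ∣ X) ∧ S ⊆ S' ∧
          (∀ ℓ : ℕ, ℓ.Prime → ℓ ∣ X → ℓ ∈ S') ∧
          ∀ (θ : U.R →ₐ[O] O) (a : ℕ → O),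
            (∀ ℓ : ℕ, ℓ.Prime → ℓ ∉ S' → ∀ A : ValuationSubring (AlgebraicClosure ℚ),
              A.LiesOverPrime ℓ → ∀ φ : GQ, A.IsFrobeniusAt φ ℓ →
                θ (Matrix.trace (Pair.uRep U φ)) = a ℓ) →
            Engine.Occurs (FractionRing O) (2 * E.D * X * ∏ w ∈ W, w * w) 1 S'
              (fun ℓ => algebraMap O (FractionRing O) (a ℓ))

variable {O : Type} [CommRing O] [IsDomain O] [IsDiscreteValuationRing O]
  [IsAdicComplete (maximalIdeal O) O] [Finite (ResidueField O)] [CharP (ResidueField O) 2]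

instance isLocalHom_algebraMap_self : IsLocalHom (algebraMap O O) :=
  inferInstanceAs (IsLocalHom (RingHom.id O))

omit [IsAdicComplete (maximalIdeal O) O] [Finite (ResidueField O)] [CharP (ResidueField O) 2] in
theorem residue_surjective_self : Function.Surjective (residue O ∘ algebraMap O O) := fun y => by
  obtain ⟨x, rfl⟩ := residue_surjective y
  exact ⟨x, rfl⟩

omit [IsAdicComplete (maximalIdeal O) O] [Finite (ResidueField O)] [CharP (ResidueField O) 2] in
theorem toResidue_self (x : O) :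
    toResidue (𝒪 := O) (A := O) inferInstance residue_surjective_self x = residue O x := by
  have := (toResidue (𝒪 := O) (A := O) inferInstance residue_surjective_self).commutes x
  simpa using this

omit [Finite (ResidueField O)] [CharP (ResidueField O) 2] in
/-- The point of a lifting problem, in normal form, is a pair. -/
theorem exists_isPair (P : LiftProblem O) :
    ∃ N : MRep O, Pair.IsPair P.res P.E P.W ∅ isLocalHom_algebraMap_self residue_surjective_self N
      P.alpha ∧ ∀ σ, Matrix.trace (N σ) = P.rho.trace σ := by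
  have : HenselianRing O (maximalIdeal O) := inferInstance
  obtain ⟨b, hb⟩ := P.residual
  obtain ⟨g, N, hg, hnorm, hred⟩ := P.res.exists_normal (hl := isLocalHom_algebraMap_self)
    (hs := residue_surjective_self) (matrixRep P.rho b) ⟨1, fun σ => by
      rw [Units.val_one, one_mul, mul_one, ← hb σ, mapRep_apply]
      exact Matrix.ext fun i j => toResidue_self _⟩
  have hNc : IsCont N := by
    have hN : ∀ σ, N σ = (g : Matrix (Fin 2) (Fin 2) O) * matrixRep P.rho b σ *
        (g⁻¹ : (Matrix (Fin 2) (Fin 2) O)ˣ) := fun σ => by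
      rw [hg, mul_assoc, Units.mul_inv, mul_one]
    intro n
    obtain ⟨L, hL, h1⟩ := isCont_matrixRep P.rho b n
    refine ⟨L, hL, fun σ hσ i j => ?_⟩
    have h2 : N σ - 1 = (g : Matrix (Fin 2) (Fin 2) O) * (matrixRep P.rho b σ - 1) *
        (g⁻¹ : (Matrix (Fin 2) (Fin 2) O)ˣ) := by
      rw [hN, mul_sub, sub_mul, mul_one, Units.mul_inv]
    rw [h2, Matrix.mul_apply]
    refine Ideal.sum_mem _ fun l _ => Ideal.mul_mem_right _ _ ?_
    rw [Matrix.mul_apply]
    exact Ideal.sum_mem _ fun m _ => Ideal.mul_mem_left _ _ (h1 σ hσ m l)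
  have heq : P.rho.IsEquiv (toAdic N hNc) := by
    rw [isEquiv_iff_exists_GL b (toAdicBasis N hNc), matrixRep_toAdic]
    exact ⟨g, hg⟩
  refine ⟨N, ⟨⟨hnorm, hred, hNc, TSide.pairCond_congr heq P.cond⟩, ?_, ?_⟩,
    fun σ => (trace_eq_of_isEquiv_toAdic P.rho heq σ).symm⟩
  · rw [toResidue_self, P.alpha_residue]
  · exact (Pair.isOrdinary_toAdic_iff hNc P.alpha).mp ((Pair.isOrdinary_congr heq P.alpha).mp
        P.ordinary)

/-- **`LiftingTwo` from the final step.** -/
theorem liftingTwo_of (hfinal : FinalStep) : LiftingTwo := by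
  intro O _ _ _ _ _ _ _ hz P
  have hC : Pair.IsInertialSet (∅ : Set (GQ × GQ)) := fun x hx => absurd hx (Set.notMem_empty x)
  have h : Pair.IsResidualPair P.res P.E P.W ∅ := Pair.isResidualPair P.E P.W hC P.res P.dihedral
    (fun q hq => absurd hq (by rw [P.aux_empty]; exact Finset.notMem_empty q)) P.cont
  obtain ⟨U⟩ := Pair.nonempty_universal h
  obtain ⟨X, S', hX, hWX, hS, hXS, hocc⟩ := hfinal O hz P.E P.res P.W P.S P.aux_empty P.ℓ₀_mod
      P.dihedral
    P.cont P.modular P.doubling P.W_spec P.mem_S h U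
  obtain ⟨N, hN, htr⟩ := exists_isPair P
  obtain ⟨θ, ⟨-, hθ, -⟩, -⟩ := Pair.existsUnique_map U residue_surjective_self hN
  refine ⟨X, S', hX, hWX, hS, hXS, hocc θ P.a fun ℓ hℓ hℓS A hA φ hφ => ?_⟩
  rw [← P.attached.2 ℓ hℓ (fun h' => hℓS (hS h')) A hA φ hφ, ← htr φ, ← hθ]
  simp [Matrix.trace, Fin.sum_univ_two]

end Fermat.Agent.TwoAdic.TopDown

end
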