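import Fermat.Agent.TwoAdic.Route.FinalSetting
import Fermat.Agent.TwoAdic.Final.Extend

/-!
# The parts of the final step

The ring of pairs at the base stage as a Hecke image, the criterion at the squares on it, and the
change of coefficient ring at a point.
-/

set_option autoImplicit false

noncomputable section

open IsLocalRing GaloisRep Fermat.Agent.DefRing Fermat.Agent.Deform
open Fermat.Agent.HeckeModule Fermat.Agent.HeckeJ0 Fermat.Agent.LevelRaising

namespace Fermat.Agent.TwoAdic.TopDown

open C0 (HeckeImage)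

attribute [local instance] ALSetup.isPrime Module.quotientAnnihilator

variable {O : Type} [CommRing O] [IsDomain O] [IsDiscreteValuationRing O]
  [IsAdicComplete (maximalIdeal O) O] [Finite (ResidueField O)] [CharP (ResidueField O) 2]

/-- The ring of pairs without auxiliary primes is the Hecke image of the signed part at the base
level, with the unit root as the operator at `2`. -/
structure IsBaseRing {E : LiftData} {res : NormalData O} {C : Set (GQ × GQ)}
    {h0 : Pair.IsResidualPair res E ∅ C} (T : ALSetup O) {V : Finset ℕ} (hV : V ⊆ T.W)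
    (hχ : T.χ = 1) (hlow : T.LowerVanish V) (U : (Pair.pairFunctor h0).UniversalPoint)
    (S₀ : Finset ℕ)
    (α : Module.End (HeckePoly O) (CohLoc (awayMonoid T.m) (oneRep O O (T.level V))))
    (φ : U.R →ₐ[O] HeckeImage O (baseSigned hV hχ hlow)) : Prop where
  alpha_bij : Function.Bijective α
  alpha_root : ∀ x, α (α x) =
    (MvPolynomial.X (@sqPrime 2 ⟨Nat.prime_two⟩) : HeckePoly O) • α x - ((2 : ℕ) : O) • x
  bij : Function.Bijective φ
  ci : IsFiniteCI O (HeckeImage O (baseSigned hV hχ hlow))
  isLocal : IsLocalRing (HeckeImage O (baseSigned hV hχ hlow))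
  basis : Nonempty (Module.Basis (Fin 2) (HeckeImage O (baseSigned hV hχ hlow))
    (baseSigned hV hχ hlow))
  root_unit : IsUnit (φ (Pair.uRoot U))
  root_smul : ∀ x : baseSigned hV hχ hlow,
    ((φ (Pair.uRoot U) • x : baseSigned hV hχ hlow) :
      CohLoc (awayMonoid T.m) (oneRep O O (T.level V))) = α x
  trace : ∀ (ℓ : ℕ) (hℓ : ℓ.Prime), ℓ ∉ T.S → ℓ ∉ S₀ →
    ∀ P : ValuationSubring (AlgebraicClosure ℚ), P.LiesOverPrime ℓ →
      ∀ σ : GQ, P.IsFrobeniusAt σ ℓ →
        φ (Matrix.trace (Pair.uRep U σ)) =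
          Ideal.Quotient.mk _ (MvPolynomial.X (⟨ℓ, hℓ⟩ : Nat.Primes))

/-- **The base package**: a base setup whose signed part at the base level gives the ring of pairs
without auxiliary primes. -/
def BasePackage : Prop :=
  ∀ (O : Type) [CommRing O] [IsDomain O] [IsDiscreteValuationRing O]
    [IsAdicComplete (maximalIdeal O) O] [Finite (ResidueField O)] [CharP (ResidueField O) 2]
    [CharZero O],
    (∃ z : ResidueField O, z * z + z + 1 = 0) →
    ∀ (E : LiftData) (res : NormalData O) (Sm : Finset ℕ), E.aux = ∅ → E.ℓ₀ % 4 = 3 →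
      IsDihedralResidual E.D res.rbar → IsCont res.rbar → IsResiduallyModular E.D res.rbar Sm →
      HasDoubling E.D res.rbar Sm → (∀ l : ℕ, l.Prime → (l = 2 ∨ l ∣ E.D) → l ∈ Sm) →
      ∀ K : Pair.KummerPair,
        ∃ (A : Finset ℕ) (hA : ∀ q ∈ A, q.Prime ∧ q ≠ 2 ∧ ¬ q ∣ E.D) (R : Finset ℕ) (t : ℕ → O)
          (T : ALSetup O) (H : IsBaseSetting (E.withAux A hA) res Sm R t T)
          (hlow : T.LowerVanish (baseV E)) (h0 : Pair.IsResidualPair res E ∅ {(K.s, K.t)})
          (U : (Pair.pairFunctor h0).UniversalPoint)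
          (α : Module.End (HeckePoly O)
            (CohLoc (awayMonoid T.m) (oneRep O O (T.level (baseV E)))))
          (φ : U.R →ₐ[O] HeckeImage O (baseSigned H.baseV_subset H.χ_eq hlow)),
          IsBaseRing T H.baseV_subset H.χ_eq hlow U (baseBad (E.withAux A hA) Sm R) α φ

/-- **The step at the squares**: over a coefficient ring at which the base ring has a point, the
points of the ring of pairs free at `W` occur. -/
def SquareStep : Prop :=
  ∀ (O : Type) [CommRing O] [IsDomain O] [IsDiscreteValuationRing O]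
    [IsAdicComplete (maximalIdeal O) O] [Finite (ResidueField O)] [CharP (ResidueField O) 2]
    [CharZero O],
    (∃ z : ResidueField O, z * z + z + 1 = 0) →
    ∀ (E : LiftData) (res : NormalData O) (Sm W : Finset ℕ), E.aux = ∅ →
      (∀ w ∈ W, w.Prime ∧ w ≠ 2 ∧ ¬ w ∣ E.D ∧ w ∈ Sm) →
      ∀ (K : Pair.KummerPair) (A : Finset ℕ) (hA : ∀ q ∈ A, q.Prime ∧ q ≠ 2 ∧ ¬ q ∣ E.D)
        (R : Finset ℕ) (t : ℕ → O) (T : ALSetup O)
        (H : IsBaseSetting (E.withAux A hA) res Sm R t T) (hlow : T.LowerVanish (baseV E))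
        (h0 : Pair.IsResidualPair res E ∅ {(K.s, K.t)})
        (U₀ : (Pair.pairFunctor h0).UniversalPoint)
        (α : Module.End (HeckePoly O) (CohLoc (awayMonoid T.m) (oneRep O O (T.level (baseV E)))))
        (φ : U₀.R →ₐ[O] HeckeImage O (baseSigned H.baseV_subset H.χ_eq hlow)),
        IsBaseRing T H.baseV_subset H.χ_eq hlow U₀ (baseBad (E.withAux A hA) Sm R) α φ →
        Nonempty (U₀.R →ₐ[O] O) →
        ∀ (h : Pair.IsResidualPair res E W ∅) (U : (Pair.pairFunctor h).UniversalPoint)
          (θ : U.R →ₐ[O] O) (a : ℕ → O),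
          (∀ ℓ : ℕ, ℓ.Prime → ℓ ∉ baseBad (E.withAux A hA) Sm R →
            ∀ P : ValuationSubring (AlgebraicClosure ℚ), P.LiesOverPrime ℓ →
              ∀ σ : GQ, P.IsFrobeniusAt σ ℓ → θ (Matrix.trace (Pair.uRep U σ)) = a ℓ) →
          Engine.Occurs (FractionRing O) (2 * E.D * prodOf R * ∏ w ∈ W, w * w) 1
            (baseBad (E.withAux A hA) Sm R) (fun ℓ => algebraMap O (FractionRing O) (a ℓ))

/-- **A point over an extension** of the ring of pairs gives a point of the extended ring. -/
def PointExtend : Prop :=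
  ∀ (O : Type) [CommRing O] [IsDomain O] [IsDiscreteValuationRing O]
    [IsAdicComplete (maximalIdeal O) O] [Finite (ResidueField O)] [CharP (ResidueField O) 2]
    (O' : Type) [CommRing O'] [IsDomain O'] [IsDiscreteValuationRing O']
    [IsAdicComplete (maximalIdeal O') O'] [Finite (ResidueField O')] [CharP (ResidueField O') 2]
    [CharZero O'] [Algebra O O'] [Module.Finite O O'] [IsLocalHom (algebraMap O O')]
    (D : NormalData O) (E : LiftData) (C : Set (GQ × GQ)) (h0 : Pair.IsResidualPair D E ∅ C)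
    (U : (Pair.pairFunctor h0).UniversalPoint)
    (h0' : Pair.IsResidualPair (D.extend (algebraMap O O')) E ∅ C)
    (U' : (Pair.pairFunctor h0').UniversalPoint),
    (U.R →ₐ[O] O') → Nonempty (U'.R →ₐ[O'] O')

end Fermat.Agent.TwoAdic.TopDown

end
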