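import Fermat.Agent.TwoAdic.Route.FinalTop
import Fermat.Agent.TwoAdic.Route.FinalInputs
import Fermat.Agent.TwoAdic.Base.Action
import Fermat.Agent.TwoAdic.Base.SignedIsoBase
import Fermat.Agent.TwoAdic.TopKeyed

/-!
# The base package

Auxiliary primes, core primes, the base setup, the modules at every stage, and the stage without
auxiliary primes as the base ring.
-/

set_option autoImplicit false

noncomputable section

open IsLocalRing GaloisRep Fermat.Agent.DefRing Fermat.Agent.Deform
open Fermat.Agent.HeckeModule Fermat.Agent.HeckeJ0 Fermat.Agent.LevelRaising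

namespace Fermat.Agent.TwoAdic.TopDown

open C0 (HeckeImage)
open Pair Descend

attribute [local instance] ALSetup.isPrime Module.quotientAnnihilator

variable {O : Type} [CommRing O] [IsDomain O] [IsDiscreteValuationRing O]
  [IsAdicComplete (maximalIdeal O) O] [Finite (ResidueField O)] [CharP (ResidueField O) 2]
  [CharZero O]

omit [CharZero O] in
/-- Auxiliary and core primes and the base setup. -/
theorem exists_baseSetting (hz : ∃ z : ResidueField O, z * z + z + 1 = 0) (E : LiftData)
    (res : NormalData O) (Sm : Finset ℕ) (haux : E.aux = ∅) (hℓ₀ : E.ℓ₀ % 4 = 3)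
    (hdih : IsDihedralResidual E.D res.rbar) (hcont : IsCont res.rbar)
    (hmod : IsResiduallyModular E.D res.rbar Sm) (hdbl : HasDoubling E.D res.rbar Sm)
    (hSm : ∀ l : ℕ, l.Prime → (l = 2 ∨ l ∣ E.D) → l ∈ Sm) (K : KummerPair) :
    ∃ (A : Finset ℕ) (hA : ∀ q ∈ A, q.Prime ∧ q ≠ 2 ∧ ¬ q ∣ E.D) (R : Finset ℕ) (t : ℕ → O)
      (T : ALSetup O), IsBaseSetting (E.withAux A hA) res Sm R t T ∧
      ∀ f : ℕ → ℕ, (∀ i ∈ (E.withAux A hA).D.primeFactors.erase (E.withAux A hA).ℓ₀,
          HasPattern res (f i) (E.withAux A hA).D.primeFactors (twPattern (E.withAux A hA) i)) →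
        ∀ Q, Q = ((E.withAux A hA).D.primeFactors.erase (E.withAux A hA).ℓ₀).image f →
        ∀ (h : IsResidualPair res (E.withAux A hA) Q {(K.s, K.t)})
          (U : (pairFunctor h).UniversalPoint),
          ∃ φ : MvPowerSeries
              (Fin (((E.withAux A hA).D.primeFactors.erase (E.withAux A hA).ℓ₀).card + 1)) O
              →ₐ[O] U.R,
            Function.Surjective φ ∧
            φ (MvPowerSeries.X
              (Fin.last ((E.withAux A hA).D.primeFactors.erase (E.withAux A hA).ℓ₀).card)) =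
              uRoot U - 1 ∧
            (xIdeal O ((E.withAux A hA).D.primeFactors.erase (E.withAux A hA).ℓ₀).card).map φ =
              entryIdeal U ∧
            (uRoot U - 1) ^ 2 ∈ entryIdeal U := by
  classical
  obtain ⟨z, hz0⟩ := hz
  obtain ⟨o, rfl⟩ := residue_surjective z
  obtain ⟨A, hA, -, hX, hT, hkey⟩ := exists_aux_topKey (D := res) (E := E) hdih hcont
    (fun q hq => absurd hq (by rw [haux]; exact Finset.notMem_empty q)) Sm
  have hAS : ∀ q ∈ A, q ∉ Sm := fun q hq =>
    hX q hq (by rw [haux]; exact Finset.notMem_empty q)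
  obtain ⟨R, hR, hset⟩ := exists_baseSetup (E.withAux A hA) res Sm Sm hdih hcont hmod hℓ₀
  obtain ⟨T, hcore, hM, hW, hχ, hc, hS, hm⟩ := hset (Sm.erase 2 ∪ A)
    (Finset.union_subset (fun x hx => Finset.mem_union_left _ (Finset.mem_erase.mpr
      ⟨fun e => by
        have h2 := Nat.dvd_of_mem_primeFactors hx
        have h8 := (E.withAux A hA).mod_eight
        rw [e] at h2
        omega, hSm x (Nat.prime_of_mem_primeFactors hx) (Or.inr (Nat.dvd_of_mem_primeFactors hx))⟩))
      Finset.subset_union_right)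
    (Finset.disjoint_left.mpr fun x hx hxR => by
      rcases Finset.mem_union.mp hx with hx | hx
      · exact (hR.fresh x hxR).1 (Finset.mem_of_mem_erase hx)
      · exact (hR.fresh x hxR).2.2 hx)
    (fun _ => o)
  refine ⟨A, hA, R, fun _ => o, T, ?_, hkey K _ rfl⟩
  exact
    { hz := ⟨residue O o, hz0⟩
      dihedral := hdih
      cont := hcont
      modular := hmod
      doubling := hdbl
      ℓ₀_mod := hℓ₀
      mem_Sm := hSm
      aux_fresh := hAS
      aux_trace := hT
      corePrimes := hR
      root := fun _ _ => hz0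
      core_eq := hcore
      M_eq := hM
      W_eq := hW
      χ_eq := hχ
      c_eq := hc
      S_eq := hS
      mem_iff := hm }

/-- The stage without auxiliary primes as the base ring. -/
theorem exists_baseRing_of_stage [Fact (Nat.Prime 2)] {E E₀ E₁ : LiftData} {res : NormalData O}
    {Sm R : Finset ℕ} {t : ℕ → O} {T : ALSetup O} (H : IsBaseSetting E₁ res Sm R t T)
    {K : KummerPair} (hE : E₀ = E) {V : Finset ℕ} (hVeq : V = baseV E₁) (hV : V ⊆ T.W)
    (h : IsResidualPair res E₀ ∅ {(K.s, K.t)}) (U : (pairFunctor h).UniversalPoint)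
    [Module U.R (T.NewQuot O hV V)] [IsScalarTower O U.R (T.NewQuot O hV V)]
    (hlow : T.LowerVanish (baseV E₁))
    (htr : HasTraces U hV V (baseBad E₁ Sm R)) (hroot : HasRoot U hV V H.two_notMem)
    (hci : IsFiniteCI O U.R) (β : Module.Basis (Fin 2) U.R (T.NewQuot O hV V)) :
    ∃ (h0 : IsResidualPair res E ∅ {(K.s, K.t)}) (U₀ : (pairFunctor h0).UniversalPoint)
      (α : Module.End (HeckePoly O) (CohLoc (awayMonoid T.m) (oneRep O O (T.level (baseV E₁)))))
      (φ : U₀.R →ₐ[O] HeckeImage O (baseSigned H.baseV_subset H.χ_eq hlow)),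
      IsBaseRing T H.baseV_subset H.χ_eq hlow U₀ (baseBad E₁ Sm R) α φ := by
  subst hE hVeq
  have hspan : Submodule.span (ResidueField O) (Set.range res.rbar) = ⊤ :=
    Final.span_range_eq_top_of_dihedral H.dihedral H.D_pos
  obtain ⟨α, hαb, hαroot⟩ := exists_alpha H.baseV_subset H.χ_eq H.two_notMem H.two_mem
  obtain ⟨φ, hφ, hfci, hloc, hb, hu, hsm, htr'⟩ := Base.exists_iso_baseSigned T H.baseV_subset
    H.χ_eq hlow H.finite_S U hspan (baseBad E₁ Sm R) H.two_notMem htr hroot hci β α hαb hαroot
  exact ⟨h, U, α, φ, hαb, hαroot, hφ, hfci, hloc, hb, hu, hsm, htr'⟩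

/-- **The base package.** -/
theorem basePackage : BasePackage := by
  intro O _ _ _ _ _ _ _ hz E res Sm haux hℓ₀ hdih hcont hmod hdbl hSm K
  classical
  have : Fact (Nat.Prime 2) := ⟨Nat.prime_two⟩
  obtain ⟨A, hA, R, t, T, H, hkey⟩ :=
    exists_baseSetting hz E res Sm haux hℓ₀ hdih hcont hmod hdbl hSm K
  have hspan : Submodule.span (ResidueField O) (Set.range res.rbar) = ⊤ :=
    Final.span_range_eq_top_of_dihedral H.dihedral H.D_pos
  have hres : ∀ S : Stage (E.withAux A hA), IsResidualPair res S.data ∅ {(K.s, K.t)} := fun S =>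
    Pair.isResidualPair S.data ∅ (isInertialSet_kummer K) res H.dihedral
      (fun q hq => H.aux_trace q (S.2 hq)) H.cont
  have hU : ∀ S : Stage (E.withAux A hA), Nonempty (pairFunctor (hres S)).UniversalPoint :=
    fun S => Pair.nonempty_universal (hres S)
  let U := fun S => (hU S).some
  obtain ⟨_, _, htr, hroot⟩ := Base.exists_baseModules hspan H.dihedral H.cont
    (C := {(K.s, K.t)}) (fun x hx => ⟨K, Set.mem_singleton_iff.mp hx⟩) H.modular H.corePrimes T
    H.core_eq H.M_eq H.χ_eq H.c_eq H.subset_W H.mem_iff H.cube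
    (baseBad (E.withAux A hA) Sm R) (fun x hx => by
      simp only [Finset.mem_union, Finset.mem_singleton] at hx ⊢; tauto)
    H.S_subset_bad H.two_notMem H.primeFactors_level_subset hres U
  let S0 : Stage (E.withAux A hA) := ⟨∅, Finset.empty_subset _⟩
  obtain ⟨hci, ⟨β⟩⟩ := H.ci_and_basis K hkey hres U htr hroot S0
  have hE : S0.data = E := by
    obtain ⟨D, l0, aux, sgn, _, _, _, _, _, _⟩ := E
    obtain rfl : aux = ∅ := haux
    rfl
  obtain ⟨h0, U₀, α, φ, hB⟩ := exists_baseRing_of_stage H hE (Finset.union_empty _)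
    (stage_subset (E.withAux A hA) T (baseV (E.withAux A hA)) H.subset_W S0) (hres S0) (U S0)
    H.isBase.lowerVanish (htr S0) (hroot S0) hci β
  exact ⟨A, hA, R, t, T, H, H.isBase.lowerVanish, h0, U₀, α, φ, hB⟩

end Fermat.Agent.TwoAdic.TopDown

end
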