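import Fermat.Agent.TwoAdic.Route.FinalSquareStep
import Fermat.Agent.TwoAdic.Final.Span
import Fermat.Agent.TwoAdic.Final.Sign
import Fermat.Agent.TwoAdic.Final.Vanish
import Fermat.Agent.TwoAdic.Final.UZero

/-!
# The level of the squares in a base setting

At level `2 N ∏ w²`, `N` the base level and `w` the further primes `W`: the signed part, exactness,
and the hypotheses of the points of its Hecke ring (`squareConditions`).
-/

set_option autoImplicit false
-- the section variables are kept so that the statements share one signature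
set_option linter.unusedSectionVars false

noncomputable section

open IsLocalRing GaloisRep Fermat.Agent.DefRing Fermat.Agent.Deform
open Fermat.Agent.HeckeModule Fermat.Agent.HeckeJ0 Fermat.Agent.LevelRaising

namespace Fermat.Agent.TwoAdic.TopDown

open TwoAdic.C0 (HeckeImage)

attribute [local instance] ALSetup.isPrime Module.quotientAnnihilator

variable {O : Type} [CommRing O] [IsDomain O] [IsDiscreteValuationRing O]
  [IsAdicComplete (maximalIdeal O) O] [Finite (ResidueField O)] [CharP (ResidueField O) 2]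

/-- Half of the level of the squares. -/
abbrev finM (E : LiftData) (W : Finset ℕ) (T : ALSetup O) : ℕ := T.level (baseV E) * sqPow W

/-- The primes omitted at the level of the squares. -/
abbrev finS (W : Finset ℕ) (T : ALSetup O) : Set ℕ := T.S \ ↑W

/-- The prime at the level of the squares. -/
abbrev finIdeal (W : Finset ℕ) (T : ALSetup O) : Ideal (AwayPoly O (finS W T)) :=
  relaxIdeal T.m (finS W T) fun _ => 0

namespace IsBaseSetting

variable {E : LiftData} {res : NormalData O} {Sm R W A : Finset ℕ} {t : ℕ → O} {T : ALSetup O}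
  {hA : ∀ q ∈ A, q.Prime ∧ q ≠ 2 ∧ ¬ q ∣ E.D}
  (H : IsBaseSetting (E.withAux A hA) res Sm R t T)
  (hW : ∀ w ∈ W, w.Prime ∧ w ≠ 2 ∧ ¬ w ∣ E.D ∧ w ∈ Sm)
include H hW

/-- The level is `D ∏ R ∏ e²`. -/
theorem finM_eq : finM E W T = E.D * (prodOf R * sqPow W) := by
  have h : prodOf E.D.primeFactors = E.D := Nat.prod_primeFactors_of_squarefree E.squarefree
  have h0 : E.ℓ₀ ∈ E.D.primeFactors :=
    Nat.mem_primeFactors.mpr ⟨E.prime_ℓ₀, E.dvd_ℓ₀, H.D_pos.ne'⟩
  have h1 : E.ℓ₀ * prodOf (baseV E) = E.D := (Finset.mul_prod_erase _ id h0).trans h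
  calc finM E W T = E.ℓ₀ * prodOf (baseV E) * (prodOf R * sqPow W) := by
        rw [finM, ALSetup.level, H.core_eq]; show E.ℓ₀ * _ * _ * _ = _; ring
    _ = _ := by rw [h1]

theorem prime_R {q : ℕ} (hq : q ∈ R) : q.Prime := H.corePrimes.prime q hq

theorem dvd_prodOf_R {q : ℕ} (hq : q.Prime) (h : q ∣ prodOf R) : q ∈ R := by
  obtain ⟨a, ha, hqa⟩ := ((Nat.prime_iff.mp hq).dvd_finsetProd_iff _).mp h
  exact (Nat.prime_dvd_prime_iff_eq hq ((H.prime_R hW) ha)).mp hqa ▸ ha

theorem dvd_sqPow {q : ℕ} (hq : q.Prime) (h : q ∣ sqPow W) : q ∈ W := by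
  obtain ⟨a, ha, hqa⟩ := ((Nat.prime_iff.mp hq).dvd_finsetProd_iff _).mp h
  rcases hq.dvd_mul.mp hqa with hqa | hqa <;>
    exact (Nat.prime_dvd_prime_iff_eq hq (hW a ha).1).mp hqa ▸ ha

theorem dvd_finM {q : ℕ} (hq : q.Prime) (h : q ∣ finM E W T) : q ∣ E.D ∨ q ∈ R ∨ q ∈ W := by
  rw [(H.finM_eq hW)] at h
  exact (hq.dvd_mul.mp h).imp id fun h => (hq.dvd_mul.mp h).imp ((H.dvd_prodOf_R hW) hq)
      ((H.dvd_sqPow hW) hq)

theorem R_not_dvd {q : ℕ} (hq : q ∈ R) : q ≠ 2 ∧ ¬ q ∣ E.D ∧ q ∉ W ∧ q ∉ T.S := by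
  obtain ⟨h1, h2, h3⟩ := H.corePrimes.fresh q hq
  refine ⟨fun h => H.two_notMem_R (h ▸ hq), fun h => h2 (h.mul_left 2),
    fun h => h1 (hW q h).2.2.2, fun h => ?_⟩
  rw [H.S_eq, Finset.mem_coe, Finset.mem_union, Finset.mem_erase] at h
  exact h.elim (fun h => h1 h.2) h3

theorem finM_ne_zero : finM E W T ≠ 0 :=
  mul_ne_zero (T.level_ne_zero H.baseV_subset) (sqPow_ne_zero fun e he => (hW e he).1)

theorem two_notDvd_finM : ¬ 2 ∣ finM E W T := fun h =>
  ((H.dvd_finM hW) Nat.prime_two h).elim H.two_notDvd_D fun h =>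
    h.elim H.two_notMem_R fun h => (hW 2 h).2.1 rfl

/-- A prime of `D` exactly divides the level. -/
theorem dvd_D_exact {q : ℕ} (hq : q.Prime) (hqD : q ∣ E.D) :
    q ∣ finM E W T ∧ ¬ q * q ∣ finM E W T := by
  rw [(H.finM_eq hW)]
  refine ⟨hqD.mul_right _, fun h => hq.ne_one (Nat.isUnit_iff.mp (E.squarefree q ?_))⟩
  refine (Nat.Coprime.mul_left ?_ ?_).dvd_of_dvd_mul_right h <;>
    refine hq.coprime_iff_not_dvd.mpr fun h => ?_ <;>
    rcases hq.dvd_mul.mp h with h | h
  · exact ((H.R_not_dvd hW) ((H.dvd_prodOf_R hW) hq h)).2.1 hqD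
  · exact (hW q ((H.dvd_sqPow hW) hq h)).2.2.1 hqD
  · exact ((H.R_not_dvd hW) ((H.dvd_prodOf_R hW) hq h)).2.1 hqD
  · exact (hW q ((H.dvd_sqPow hW) hq h)).2.2.1 hqD

/-- A core prime exactly divides the level. -/
theorem core_exact {q : ℕ} (hq : q ∈ R) : ¬ q * q ∣ finM E W T := fun h => by
  have hp := (H.prime_R hW) hq
  rw [(H.finM_eq hW), show prodOf R = q * prodOf (R.erase q) from
      (Finset.mul_prod_erase R id hq).symm,
    show E.D * (q * prodOf (R.erase q) * sqPow W) =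
      q * (E.D * (prodOf (R.erase q) * sqPow W)) by ring,
    Nat.mul_dvd_mul_iff_left hp.pos] at h
  rcases hp.dvd_mul.mp h with h | h
  · exact ((H.R_not_dvd hW) hq).2.1 h
  rcases hp.dvd_mul.mp h with h | h
  · obtain ⟨a, ha, hqa⟩ := ((Nat.prime_iff.mp hp).dvd_finsetProd_iff _).mp h
    exact Finset.ne_of_mem_erase ha
      ((Nat.prime_dvd_prime_iff_eq hp ((H.prime_R hW) (Finset.mem_of_mem_erase ha))).mp hqa).symm
  · exact ((H.R_not_dvd hW) hq).2.2.1 ((H.dvd_sqPow hW) hp h)

theorem finS_subset : finS W T ⊆ ↑(((baseBad (E.withAux A hA) Sm R).erase 2)) := fun _ hx =>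
  Finset.mem_coe.mpr (Finset.mem_erase.mpr
    ⟨fun h => H.two_notMem (h ▸ hx.1), Finset.mem_coe.mp (H.S_subset_bad hx.1)⟩)

theorem baseV_mem_finS : ∀ e ∈ baseV E, e ∈ finS W T := fun e he =>
  ⟨T.mem_S e (H.baseV_subset he), fun h => (hW e (Finset.mem_coe.mp h)).2.2.1
    (Nat.dvd_of_mem_primeFactors (Finset.mem_of_mem_erase he))⟩

theorem isALPrimes_fin : IsALPrimes (2 * finM E W T) (baseV E) := fun e he => by
  obtain ⟨hp, hd, -⟩ := Nat.mem_primeFactors.mp (Finset.mem_of_mem_erase he)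
  have he2 : e ≠ 2 := fun h => H.two_notDvd_D (h ▸ hd)
  obtain ⟨h1, h2⟩ := (H.dvd_D_exact hW) hp hd
  exact ⟨hp, h1.mul_left 2,
    fun h => h2 ((Nat.Coprime.mul_left ((Nat.coprime_primes hp Nat.prime_two).mpr he2)
      ((Nat.coprime_primes hp Nat.prime_two).mpr he2)).dvd_of_dvd_mul_left h)⟩

/-- The generators of the prime of the squares at the primes of `S`. -/
theorem awayX_mem_finIdeal {e : ℕ} (hp : e.Prime) (heS : e ∈ T.S) (h : e ∉ finS W T) :
    awayX O hp h ∈ finIdeal W T := by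
  rw [finIdeal, relaxIdeal, Ideal.mem_comap, awayX, relaxHom, MvPolynomial.aeval_X,
    dif_pos (show e ∈ T.S from heS), map_zero]
  exact Ideal.zero_mem _

/-- Elements at the other indices are read in the base prime. -/
theorem sub_C_mem_finIdeal (l : AwayIndex (finS W T)) (hl : ((l : Nat.Primes) : ℕ) ∉ T.S) (o : O)
    (h : MvPolynomial.X (⟨l.1, hl⟩ : AwayIndex T.S) - MvPolynomial.C o ∈ T.m) :
    MvPolynomial.X l - MvPolynomial.C o ∈ finIdeal W T := by
  rw [finIdeal, relaxIdeal, Ideal.mem_comap, map_sub, ← MvPolynomial.algebraMap_eq, AlgHom.commutes,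
    MvPolynomial.algebraMap_eq, relaxHom, MvPolynomial.aeval_X, dif_neg hl]
  exact h

theorem elliptic_base (f : ∀ {n : ℕ}, ZMod n → ZMod n)
    (hf : ∀ {a b : ℕ} (h : a ∣ b) (x : ZMod b),
      ZMod.castHom h (ZMod a) (f x) = f (ZMod.castHom h (ZMod a) x))
    (hc : ∀ x : ZMod T.core, f x ≠ 0) : ∀ x : ZMod (T.level (baseV E)), f x ≠ 0 := fun x hx => by
  have := congrArg (ZMod.castHom (dvd_mul_right T.core (prodOf (baseV E))) (ZMod T.core)) hx
  rw [hf, map_zero] at this
  exact hc _ this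

/-- The localisation at the level of the squares is exact. -/
theorem exactHyp_fin : ExactHyp (awayMonoid (finIdeal W T)) (1 : (ZMod (2 * finM E W T))ˣ →* O) :=
    by
  obtain ⟨I⟩ := H.nonempty_ihara (M := 2 * T.level (baseV E) * sqPow W)
    (mul_ne_zero (mul_ne_zero two_ne_zero (T.level_ne_zero H.baseV_subset))
      (sqPow_ne_zero fun e he => (hW e he).1)) 2
  refine exactHyp_of_dvd (E := W) T.m Set.sdiff_subset I
    ((H.elliptic_base hW) (fun t => t ^ 2 + 1) (fun _ _ => by simp only [map_add, map_pow, map_one])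
      T.elliptic₄)
    ((H.elliptic_base hW) (fun t => t ^ 2 + t + 1) (fun _ _ => by simp only
        [map_add, map_pow, map_one])
      T.elliptic₃)
    (dvd_mul_of_dvd_right (dvd_mul_right _ _) 2) (dvd_of_eq (mul_assoc _ _ _).symm) _ rfl

theorem free_fin : Module.Finite O (CohLoc (awayMonoid (finIdeal W T))
    (oneRep O O (2 * finM E W T))) ∧
    Module.Free O (CohLoc (awayMonoid (finIdeal W T)) (oneRep O O (2 * finM E W T))) :=
  haveI : NeZero (2 * finM E W T) := ⟨mul_ne_zero two_ne_zero (H.finM_ne_zero hW)⟩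
  free_cohChar_of_complete _ (1 : (ZMod (2 * finM E W T))ˣ →* O) (le_relaxIdeal _ T.m T.le)
    (H.exactHyp_fin hW)

variable [CharZero O]

/-- Nothing is left of a level prime to a prime of `D`. -/
theorem subsingleton_lower {q : ℕ} (hq : q.Prime) (hqD : q ∣ E.D) {N : ℕ}
    (hN : 2 * finM E W T = q * N) :
    ¬ q ∣ N ∧ Subsingleton (CohLoc (awayMonoid (finIdeal W T)) (oneRep O O N)) := by
  classical
  have : Fact (Nat.Prime 2) := ⟨Nat.prime_two⟩
  have hq2 : q ≠ 2 := fun h => H.two_notDvd_D (h ▸ hqD)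
  have hqN : ¬ q ∣ N := fun h => ((H.dvd_D_exact hW) hq hqD).2
    ((Nat.Coprime.mul_left ((Nat.coprime_primes hq Nat.prime_two).mpr hq2)
      ((Nat.coprime_primes hq Nat.prime_two).mpr hq2)).dvd_of_dvd_mul_left
        (hN ▸ Nat.mul_dvd_mul_left q h))
  have : NeZero N := ⟨fun h => mul_ne_zero two_ne_zero (H.finM_ne_zero hW)
      (by rw [hN, h, mul_zero])⟩
  refine ⟨hqN, Final.subsingleton_cohLoc_of_ramified H.dihedral H.cont H.D_pos
    (H.finite_S.subset Set.sdiff_subset) _
    (fun o ho => le_relaxIdeal _ T.m T.le (Ideal.mem_map_of_mem _ ho))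
        (baseBad (E.withAux A hA) Sm R)
    (fun l hl P hP σ hσ o ho => ?_) hq hq2 hqN ?_⟩
  · have hlS : ((l : Nat.Primes) : ℕ) ∉ T.S := fun h => hl (Finset.mem_coe.mp (H.S_subset_bad h))
    exact (H.sub_C_mem_finIdeal hW) l hlS o (H.trace_mem ⟨l.1, hlS⟩ hl P hP σ hσ o ho)
  · obtain ⟨P, hP⟩ := Fermat.Agent.Frobenius.exists_liesOverPrime (AlgebraicClosure ℚ) hq
    obtain ⟨τ₀, hτ₀⟩ := TameInertia.exists_tameGenerator Nat.prime_two hq hq2.symm hP
    exact ⟨P, hP, τ₀, hτ₀.1, (Selmer.inertia_image H.dihedral E.squarefree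
      (Nat.odd_iff.mpr (show E.D % 2 = 1 by have := E.mod_eight; omega)) hq hqD hP hτ₀).1.2⟩

theorem c_mul_c {e : ℕ} : T.c e * T.c e = 1 := by
  rw [H.c_eq, show ((E.withAux A hA).sgn e : O) = (E.sgn e : O) from rfl]
  rcases E.sgn_spec e with h | h <;> simp [h]

/-- `U_e` on a class fixed by the involution at `e`. -/
theorem X_smul_of_fixed {e : ℕ} (hp : e.Prime) (he : e ∈ baseV E)
    {y : CohLoc (awayMonoid (finIdeal W T)) (oneRep O O (2 * finM E W T))}
    (hy : alOneLoc O (H.isALPrimes_fin hW) T.c (isAway_awayMonoid _) (H.baseV_mem_finS hW) e y = y)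
        :
    (MvPolynomial.X (⟨e, hp⟩ : Nat.Primes) : HeckePoly O) • y = -(T.c e) • y := by
  have : Fact e.Prime := ⟨hp⟩
  have hd : e ∣ E.D := Nat.dvd_of_mem_primeFactors (Finset.mem_of_mem_erase he)
  obtain ⟨N, hN⟩ := ((H.dvd_D_exact hW) hp hd).1.mul_left 2
  obtain ⟨hN1, hlow⟩ := (H.subsingleton_lower hW) hp hd hN
  have h := congrArg (T.c e • ·)
    (X_smul_eq_neg_alOneLoc (finIdeal W T) (H.isALPrimes_fin hW) (H.baseV_mem_finS hW) he hN hN1
        hlow T.c y)
  simp only [smul_smul, (H.c_mul_c hW), one_smul, hy, smul_neg] at h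
  rw [h, neg_smul]

/-- The signed part at the level of the squares. -/
def finSigned : Submodule (HeckePoly O)
    (CohLoc (awayMonoid (finIdeal W T)) (oneRep O O (2 * finM E W T))) where
  carrier := {y | ∀ e ∈ baseV E,
    alOneLoc O (H.isALPrimes_fin hW) T.c (isAway_awayMonoid _) (H.baseV_mem_finS hW) e y = y}
  add_mem' hx hy e he := by rw [map_add, hx e he, hy e he]
  zero_mem' e _ := map_zero _
  smul_mem' P y hy := by
    induction P using MvPolynomial.induction_on generalizing y with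
    | C a =>
      intro e he
      rw [← MvPolynomial.algebraMap_eq, algebraMap_smul, map_smul, hy e he]
    | add P Q hP hQ => intro e he; rw [add_smul, map_add, hP y hy e he, hQ y hy e he]
    | mul_X P l hP =>
      rw [mul_smul]
      refine hP _ fun e he => ?_
      by_cases hle : (l : ℕ) = e
      · have hp : e.Prime := hle ▸ l.2
        rw [show l = ⟨e, hp⟩ from Subtype.ext hle, (H.X_smul_of_fixed hW) hp he (hy e he), map_smul,
          hy e he]
      · rw [alOneLoc_X_smul _ _ _ _ he hle, hy e he]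

/-- The conditions at the level of the squares. -/
theorem finalHyp (haux : E.aux = ∅) :
    Final.FinalHyp res E W (finM E W T) (((baseBad (E.withAux A hA) Sm R).erase 2)) (finIdeal W T)
        where
  aux := haux
  dihedral := H.dihedral
  cont := H.cont
  odd := (H.two_notDvd_finM hW)
  dvd_D := fun _ hq hqD => (H.dvd_D_exact hW) hq hqD
  core := fun q hq hqM hqD hqW => by
    rcases (H.dvd_finM hW) hq hqM with h | h | h
    · exact absurd h hqD
    · exact ⟨(H.core_exact hW) h, fun P hP φ hφ => H.corePrimes.trace q h P hP φ hφ⟩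
    · exact absurd h hqW
  two_notMem := Finset.notMem_erase 2 _
  mem := fun q hq hqM => by
    refine Finset.mem_erase.mpr ⟨fun h => (H.two_notDvd_finM hW) (h ▸ hqM), ?_⟩
    simp only [Finset.mem_union, Finset.mem_singleton]
    rcases (H.dvd_finM hW) hq hqM with h | h | h
    · exact Or.inl (Or.inl (Or.inl (H.mem_Sm q hq (Or.inr h))))
    · exact Or.inl (Or.inr h)
    · exact Or.inl (Or.inl (Or.inl (hW q h).2.2.2))
  subset := (H.finS_subset hW)
  trace := fun l hl2 P hP φ hφ o ho => by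
    have hl : ((l : Nat.Primes) : ℕ) ∉ baseBad (E.withAux A hA) Sm R := fun h =>
      l.2 (Finset.mem_coe.mpr (Finset.mem_erase.mpr ⟨hl2, h⟩))
    have hlS : ((l : Nat.Primes) : ℕ) ∉ T.S := fun h => hl (Finset.mem_coe.mp (H.S_subset_bad h))
    rw [Ideal.mem_comap, map_sub, restrictAway, MvPolynomial.rename_X, MvPolynomial.rename_C]
    exact (H.sub_C_mem_finIdeal hW) _ hlS o (H.trace_mem ⟨l.1, hlS⟩ hl P hP φ hφ o ho)
  two := fun _ => by
    rw [Ideal.mem_comap, map_sub, restrictAway, MvPolynomial.rename_X, MvPolynomial.rename_C]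
    exact (H.sub_C_mem_finIdeal hW) _ H.two_notMem 1 H.two_mem

/-- The operators at the primes of the level of the squares. -/
theorem genHyp :
    Final.GenHyp E W (finM E W T) (finIdeal W T) (H.finSigned hW) where
  sgn := fun q hq hqD hq0 y hy => by
    have he : q ∈ baseV E :=
      Finset.mem_erase.mpr ⟨hq0, Nat.mem_primeFactors.mpr ⟨hq, hqD, H.D_pos.ne'⟩⟩
    rw [(H.X_smul_of_fixed hW) hq he (hy q he), show (E.sgn q : O) = -T.c q from H.sgn_eq q]
  ell := fun y _ => by
    have : Fact E.ℓ₀.Prime := ⟨E.prime_ℓ₀⟩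
    obtain ⟨N, hN⟩ := ((H.dvd_D_exact hW) E.prime_ℓ₀ E.dvd_ℓ₀).1.mul_left 2
    obtain ⟨hN1, hlow⟩ := (H.subsingleton_lower hW) E.prime_ℓ₀ E.dvd_ℓ₀ hN
    refine X_smul_X_smul_eq_self (finIdeal W T) hN hN1 ⟨H.Sm_mem_S ?_ ?_, fun h => ?_⟩ hlow y
    · exact H.mem_Sm _ E.prime_ℓ₀ (Or.inr E.dvd_ℓ₀)
    · exact fun h => H.two_notDvd_D (h ▸ E.dvd_ℓ₀)
    · exact (hW _ (Finset.mem_coe.mp h)).2.2.1 E.dvd_ℓ₀
  square := fun q hq _ hqW y _ => by
    have : Fact q.Prime := ⟨hq⟩
    obtain ⟨-, hq2, hqD, hqSm⟩ := hW q hqW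
    have hqS : q ∈ T.S := H.Sm_mem_S hqSm hq2
    have hqF : q ∉ finS W T := fun h => h.2 (Finset.mem_coe.mpr hqW)
    have key : ∀ {L M₀ : ℕ} [NeZero M₀], L = q * (q * M₀) → ¬ q ∣ M₀ →
        ∀ z : CohLoc (awayMonoid (finIdeal W T)) (oneRep O O L),
          (MvPolynomial.X (⟨q, hq⟩ : Nat.Primes) : HeckePoly O) • z = 0 := by
      intro L M₀ _ hL hqM z
      subst hL
      exact Final.X_smul_eq_zero_of_awayX_mem hqM (Final.isUnit_natCast_of_odd
        (by rw [Nat.cast_two]; exact T.two) (hq.odd_of_ne_two hq2)) hqF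
        ((H.awayX_mem_finIdeal hW) hq hqS hqF) z
    have : NeZero (2 * T.level (baseV E) * sqPow (W.erase q)) :=
      ⟨mul_ne_zero (mul_ne_zero two_ne_zero (T.level_ne_zero H.baseV_subset))
        (sqPow_ne_zero fun e he => (hW e (Finset.mem_of_mem_erase he)).1)⟩
    refine key (M₀ := 2 * T.level (baseV E) * sqPow (W.erase q)) ?_ (fun h => ?_) y
    · rw [finM, show sqPow W = q * q * sqPow (W.erase q) from
        (Finset.mul_prod_erase W (fun e => e * e) hqW).symm]
      ring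
    · rcases hq.dvd_mul.mp h with h | h
      · rcases hq.dvd_mul.mp h with h | h
        · exact hq2 ((Nat.prime_dvd_prime_iff_eq hq Nat.prime_two).mp h)
        · rcases hq.dvd_mul.mp h with h | h
          · rw [H.core_eq] at h
            rcases hq.dvd_mul.mp h with h | h
            · exact hqD (h.trans E.dvd_ℓ₀)
            · exact ((H.R_not_dvd hW) ((H.dvd_prodOf_R hW) hq h)).2.2.1 hqW
          · obtain ⟨a, ha, hqa⟩ := ((Nat.prime_iff.mp hq).dvd_finsetProd_iff _).mp h
            exact hqD (hqa.trans (Nat.dvd_of_mem_primeFactors (Finset.mem_of_mem_erase ha)))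
      · obtain ⟨a, ha, hqa⟩ := ((Nat.prime_iff.mp hq).dvd_finsetProd_iff _).mp h
        refine Finset.ne_of_mem_erase ha ?_
        rcases hq.dvd_mul.mp hqa with hqa | hqa <;>
          exact ((Nat.prime_dvd_prime_iff_eq hq
            (hW a (Finset.mem_of_mem_erase ha)).1).mp hqa).symm
  core := fun q hq hqM hqD hqW => by
    rcases (H.dvd_finM hW) hq hqM with h | h | h
    · exact absurd h hqD
    · have hqS := ((H.R_not_dvd hW) h).2.2.2
      refine ⟨fun h' => hqS h'.1, t q, H.root q h,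
        (H.sub_C_mem_finIdeal hW) ⟨⟨q, hq⟩, fun h' => hqS h'.1⟩ hqS (t q) ?_⟩
      rw [H.mem_iff, baseEigen, if_pos h]
    · exact absurd h hqW

theorem free_finSigned : Module.Finite O (H.finSigned hW) ∧ Module.Free O (H.finSigned hW) := by
  obtain ⟨_, _⟩ := (H.free_fin hW)
  have h : Function.Injective ((H.finSigned hW).subtype.restrictScalars O) := Subtype.val_injective
  have : Module.Finite O (H.finSigned hW) := Module.Finite.of_injective _ h
  have : Module.IsTorsionFree O (H.finSigned hW) :=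
    Function.Injective.moduleIsTorsionFree _ h fun c x => map_smul _ c x
  exact ⟨inferInstance, Module.free_of_finite_type_torsion_free'⟩

end IsBaseSetting

/-- **The conditions at the level of the squares hold.** -/
theorem squareConditions : SquareConditions := by
  intro O _ _ _ _ _ _ _ E res Sm W A R t T hA H haux hW _
  obtain ⟨hf, hfr⟩ := H.free_fin hW
  obtain ⟨hf', hfr'⟩ := H.free_finSigned hW
  exact ⟨H.isALPrimes_fin hW, H.baseV_mem_finS hW, H.finSigned hW, fun _ => Iff.rfl, hf', hfr', hf,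
    hfr, H.exactHyp_fin hW, H.finalHyp hW haux, H.genHyp hW⟩

end Fermat.Agent.TwoAdic.TopDown

end
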