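import Fermat.Agent.TwoAdic.Route.FinalSquare

/-!
# `SquareStep` from the hypotheses at the final level and the values at `W`
-/

set_option autoImplicit false

noncomputable section

open IsLocalRing GaloisRep Fermat.Agent.DefRing Fermat.Agent.Deform
open Fermat.Agent.HeckeModule Fermat.Agent.HeckeJ0 Fermat.Agent.LevelRaising

namespace Fermat.Agent.TwoAdic.TopDown

open C0 (HeckeImage)

attribute [local instance] ALSetup.isPrime Module.quotientAnnihilator

/-- The conditions at the level of the squares. -/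
def SquareConditions : Prop :=
  ∀ (O : Type) [CommRing O] [IsDomain O] [IsDiscreteValuationRing O]
    [IsAdicComplete (maximalIdeal O) O] [Finite (ResidueField O)] [CharP (ResidueField O) 2]
    [CharZero O] (E : LiftData) (res : NormalData O) (Sm W A R : Finset ℕ) (t : ℕ → O)
    (T : ALSetup O) (hA : ∀ q ∈ A, q.Prime ∧ q ≠ 2 ∧ ¬ q ∣ E.D),
    IsBaseSetting (E.withAux A hA) res Sm R t T → E.aux = ∅ →
    (∀ w ∈ W, w.Prime ∧ w ≠ 2 ∧ ¬ w ∣ E.D ∧ w ∈ Sm) →
    ∀ [(relaxIdeal T.m (T.S \ (↑W : Set ℕ)) fun _ => 0).IsPrime],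
    ∃ (hW' : IsALPrimes (2 * (T.level (baseV E) * sqPow W)) (baseV E))
      (hWS' : ∀ e ∈ baseV E, e ∈ T.S \ (↑W : Set ℕ))
      (C' : Submodule (HeckePoly O)
        (CohLoc (awayMonoid (relaxIdeal T.m (T.S \ (↑W : Set ℕ)) fun _ => 0))
          (oneRep O O (2 * (T.level (baseV E) * sqPow W))))),
      (∀ y, y ∈ C' ↔ ∀ e ∈ baseV E,
        alOneLoc O hW' T.c (isAway_awayMonoid _) hWS' e y = y) ∧
      Module.Finite O C' ∧ Module.Free O C' ∧
      Module.Finite O (CohLoc (awayMonoid (relaxIdeal T.m (T.S \ (↑W : Set ℕ)) fun _ => 0))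
        (oneRep O O (2 * (T.level (baseV E) * sqPow W)))) ∧
      Module.Free O (CohLoc (awayMonoid (relaxIdeal T.m (T.S \ (↑W : Set ℕ)) fun _ => 0))
        (oneRep O O (2 * (T.level (baseV E) * sqPow W)))) ∧
      ExactHyp (awayMonoid (relaxIdeal T.m (T.S \ (↑W : Set ℕ)) fun _ => 0))
        (1 : (ZMod (2 * (T.level (baseV E) * sqPow W)))ˣ →* O) ∧
      Final.FinalHyp res E W (T.level (baseV E) * sqPow W)
        ((baseBad (E.withAux A hA) Sm R).erase 2)
        (relaxIdeal T.m (T.S \ (↑W : Set ℕ)) fun _ => 0) ∧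
      Final.GenHyp E W (T.level (baseV E) * sqPow W)
        (relaxIdeal T.m (T.S \ (↑W : Set ℕ)) fun _ => 0) C'

/-- At every point of the reduced base ring the trace of Frobenius at a prime off the level is the
value of the operator. -/
def ThetaTrace : Prop :=
  ∀ (O : Type) [CommRing O] [IsDomain O] [IsDiscreteValuationRing O]
    [IsAdicComplete (maximalIdeal O) O] [Finite (ResidueField O)] [CharP (ResidueField O) 2]
    [CharZero O] (E : LiftData) (res : NormalData O) (Sm A R : Finset ℕ) (t : ℕ → O)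
    (T : ALSetup O) (hA : ∀ q ∈ A, q.Prime ∧ q ≠ 2 ∧ ¬ q ∣ E.D)
    (H : IsBaseSetting (E.withAux A hA) res Sm R t T) (hlow : T.LowerVanish (baseV E))
    (C : Set (GQ × GQ)) (h0 : Pair.IsResidualPair res E ∅ C)
    (U₀ : (Pair.pairFunctor h0).UniversalPoint)
    (α : Module.End (HeckePoly O) (CohLoc (awayMonoid T.m) (oneRep O O (T.level (baseV E)))))
    (φ : U₀.R →ₐ[O] HeckeImage O (baseSigned H.baseV_subset H.χ_eq hlow)),
    IsBaseRing T H.baseV_subset H.χ_eq hlow U₀ (baseBad (E.withAux A hA) Sm R) α φ →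
    IsReduced (HeckeImage O (baseSigned H.baseV_subset H.χ_eq hlow)) →
      ∀ (θT : HeckeImage O (baseSigned H.baseV_subset H.χ_eq hlow) →ₐ[O] O) (w : ℕ)
        (hw : w.Prime), w ≠ 2 → ¬ w ∣ T.level (baseV E) →
        ∀ P : ValuationSubring (AlgebraicClosure ℚ), P.LiesOverPrime w →
          ∀ σ : GQ, P.IsFrobeniusAt σ w →
            θT (φ (Matrix.trace (Pair.uRep U₀ σ))) =
              θT (Ideal.Quotient.mk _ (MvPolynomial.X (⟨w, hw⟩ : Nat.Primes)))

/-- **The step at the squares** from the conditions at the final level and the values at `W`. -/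
theorem squareStep_of (hcond : SquareConditions) (htheta : ThetaTrace) : SquareStep := by
  intro O _ _ _ _ _ _ _ hz E res Sm W haux hW K A hA R t T H hlow h0 U₀ α φ hB hpt h U θ a hθ
  have : (relaxIdeal T.m (T.S \ (↑W : Set ℕ)) fun _ => (0 : O)).IsPrime :=
    inferInstance
  obtain ⟨hW', hWS', C', hC', _, _, _, _, hE, hH, hG⟩ :=
    hcond O E res Sm W A R t T hA H haux hW
  exact occurs_of_square H U₀ hB haux hW hW' hWS' C' hC' hE hH hG
    (fun hred => htheta O E res Sm A R t T hA H hlow _ h0 U₀ α φ hB hred) hpt.some U θ a hθ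

end Fermat.Agent.TwoAdic.TopDown

end
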