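import Fermat.Agent.TwoAdic.Route.FinalSquareStep
import Fermat.Agent.TwoAdic.Final.Span

/-!
# Points of the base ring at every prime away from the base level

A point of the Hecke image of the base signed part is an eigen class for all operators, so at every
prime away from the level the trace of the pair of the point at a Frobenius element is the value of
the operator, also at the primes where the base ring does not prescribe it.
-/

set_option autoImplicit false

noncomputable section

open IsLocalRing GaloisRep Fermat.Agent.DefRing Fermat.Agent.Deform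
open Fermat.Agent.HeckeModule Fermat.Agent.HeckeJ0 Fermat.Agent.LevelRaising

namespace Fermat.Agent.TwoAdic.TopDown

open C0 (HeckeImage)
open Fermat.Agent.EigenSystems Engine.TRep

attribute [local instance] ALSetup.isPrime Module.quotientAnnihilator

variable {O : Type} [CommRing O] [IsDomain O] [IsDiscreteValuationRing O]
  [IsAdicComplete (maximalIdeal O) O] [Finite (ResidueField O)] [CharP (ResidueField O) 2]
  [CharZero O]

/-- **Traces at the primes away from the base level.** -/
theorem theta_eq_trace {E : LiftData} {res : NormalData O} {Sm R : Finset ℕ} {t : ℕ → O}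
    {T : ALSetup O} {A : Finset ℕ} {hA : ∀ q ∈ A, q.Prime ∧ q ≠ 2 ∧ ¬ q ∣ E.D}
    (H : IsBaseSetting (E.withAux A hA) res Sm R t T) (hlow : T.LowerVanish (baseV E))
    {C : Set (GQ × GQ)} {h0 : Pair.IsResidualPair res E ∅ C}
    {U₀ : (Pair.pairFunctor h0).UniversalPoint}
    {α : Module.End (HeckePoly O) (CohLoc (awayMonoid T.m) (oneRep O O (T.level (baseV E))))}
    {φ : U₀.R →ₐ[O] HeckeImage O (baseSigned H.baseV_subset H.χ_eq hlow)}
    (hB : IsBaseRing T H.baseV_subset H.χ_eq hlow U₀ (baseBad (E.withAux A hA) Sm R) α φ)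
    [IsReduced (HeckeImage O (baseSigned H.baseV_subset H.χ_eq hlow))]
    (θT : HeckeImage O (baseSigned H.baseV_subset H.χ_eq hlow) →ₐ[O] O)
    {w : ℕ} (hw : w.Prime) (hw2 : w ≠ 2) (hwV : ¬ w ∣ T.level (baseV E))
    {P : ValuationSubring (AlgebraicClosure ℚ)} (hP : P.LiesOverPrime w) {σ : GQ}
    (hσ : P.IsFrobeniusAt σ w) :
    θT (φ (Matrix.trace (Pair.uRep U₀ σ))) =
      θT (Ideal.Quotient.mk _ (MvPolynomial.X (⟨w, hw⟩ : Nat.Primes))) := by
  classical
  have : Fact (Nat.Prime 2) := ⟨Nat.prime_two⟩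
  have : NeZero (T.level (baseV E)) := ⟨T.level_ne_zero H.baseV_subset⟩
  have h2' : ((2 : ℕ) : O) ∈ maximalIdeal O := by
    rw [← residue_eq_zero_iff, map_natCast]; exact CharP.cast_eq_zero _ 2
  -- the representation of the point
  let f : U₀.R →ₐ[O] O := θT.comp φ
  have hf : IsLocalHom (f : U₀.R →+* O) := Final.isLocalHom_of_finite_residue f
  have hU := (Pair.isPair_universal U₀).isDef
  obtain ⟨hc, -⟩ := hU.exists_cont
  let ρ : GaloisRepAdic O := toAdic (mapRep (f : U₀.R →+* O) (Pair.uRep U₀)) (hc.map _ hf)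
  have htrρ : ∀ τ, ρ.trace τ = f (Matrix.trace (Pair.uRep U₀ τ)) := fun τ =>
    (TSide.trace_toAdic_eq _ _ τ).trans (Engine.trace_mapRep (f : U₀.R →+* O) (Pair.uRep U₀) τ)
  let a : Nat.Primes → O := fun l => θT (Ideal.Quotient.mk _ (MvPolynomial.X l))
  set S : Finset ℕ := baseBad (E.withAux A hA) Sm R with hSdef
  have h2S : 2 ∈ S := Finset.mem_union_right _ (Finset.mem_singleton_self 2)
  have hfrob : ∀ (ℓ : ℕ) (hℓ : ℓ.Prime), ℓ ∉ S →
      ∀ B : ValuationSubring (AlgebraicClosure ℚ), B.LiesOverPrime ℓ →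
        ∀ τ : GQ, B.IsFrobeniusAt τ ℓ → ρ.trace τ = a ⟨ℓ, hℓ⟩ := fun ℓ hℓ hℓS B hB' τ hτ => by
    rw [htrρ]
    exact congrArg θT (hB.trace ℓ hℓ (fun h => hℓS (Finset.mem_coe.mp (H.S_subset_bad h))) hℓS
      B hB' τ hτ)
  have hS : ∀ ℓ : ℕ, ℓ.Prime → ℓ ∣ T.level (baseV E) * 2 → ℓ ∈ S := fun ℓ hℓ h => by
    rcases hℓ.dvd_mul.mp h with h | h
    · exact H.primeFactors_level_subset (Nat.mem_primeFactors.mpr
        ⟨hℓ, h.trans (T.level_dvd H.baseV_subset), T.level_ne_zero subset_rfl⟩)
    · rwa [(Nat.prime_dvd_prime_iff_eq hℓ Nat.prime_two).mp h]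
  -- an Eisenstein prime
  obtain ⟨r, hr, hrS, hr1, hrtr⟩ :=
    exists_orderThree_one_mod H.dihedral H.cont H.D_pos (T.level (baseV E)) S
  have := Fact.mk hr
  have hne : a ⟨r, hr⟩ ≠ (r : O) + 1 := fun h => by
    obtain ⟨B, τ, hB', hτ⟩ := Fermat.Agent.Frobenius.exists_liesOverPrime_and_isFrobeniusAt_qbar hr
    have h1 := congrArg (residue O) ((hfrob r hr hrS B hB' τ hτ).trans h)
    have h3 : residue O (f (Matrix.trace (Pair.uRep U₀ τ))) = (res.rbar τ).trace := by
      have e : ∀ c : ResidueField O, ResidueField.map (algebraMap O O) c = c := fun c => by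
        obtain ⟨o, rfl⟩ := residue_surjective c
        rw [ResidueField.map_residue, Algebra.algebraMap_self_apply]
      rw [Final.residue_map_eq U₀.residue_surjective f hf, e]
      exact (AddMonoidHom.map_trace (toResidue U₀.instIsLocalHom U₀.residue_surjective :
        U₀.R →+* ResidueField O).toAddMonoidHom _).trans
          (congrArg Matrix.trace (DFunLike.congr_fun hU.reduces τ))
    rw [htrρ, h3, hrtr B hB' τ hτ, map_add, map_natCast, map_one] at h1
    obtain ⟨k, hk⟩ := hr.odd_of_ne_two fun h2 => hrS (h2 ▸ h2S)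
    rw [hk] at h1
    push_cast at h1
    rw [CharTwo.two_eq_zero (R := ResidueField O), zero_mul, zero_add] at h1
    exact one_ne_zero (α := ResidueField O) (by linear_combination -h1)
  -- the eigen class of the point
  have : Module.Finite O (HeckeImage O (baseSigned H.baseV_subset H.χ_eq hlow)) := hB.ci.1
  obtain ⟨y, hy0, hy⟩ := Scalar.exists_eigen_of_point
    (T := HeckeImage O (baseSigned H.baseV_subset H.χ_eq hlow))
    (M := baseSigned H.baseV_subset H.χ_eq hlow) (fun x hx => by
      obtain ⟨p, rfl⟩ := Ideal.Quotient.mk_surjective x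
      exact Ideal.Quotient.eq_zero_iff_mem.mpr (Module.mem_annihilator.mpr fun m => hx m)) θT
  obtain ⟨c, hc0, hcl⟩ := occurs_of_eigen_cohLoc
    (ρ := oneRep O O (T.level (baseV E))) scalarRep_one (S := ∅)
    (lam := fun ℓ => if hℓ : ℓ.Prime then a ⟨ℓ, hℓ⟩ else 0)
    y.1
    (fun h => hy0 (Subtype.ext h)) (fun l _ _ => by
      have h := congrArg Subtype.val (hy (Ideal.Quotient.mk _ (MvPolynomial.X l)))
      rw [dif_pos l.2]
      exact h)
  let K := FractionRing O
  have : CharZero K := charZero_of_injective_algebraMap (IsFractionRing.injective O K)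
  have e : scalarRep (1 : (ZMod (T.level (baseV E)))ˣ →* K) K = trivRep (T.level (baseV E)) K K :=
    MonoidHom.ext fun u => LinearMap.ext fun x => by
      rw [scalarRep_apply, MonoidHom.one_apply, one_smul]; rfl
  have key := Final.trace_eq_of_class (a := a) h2' hfrob (L := T.level (baseV E)) hS hr1 hrS hne
    (c := castCoh e c) (fun h => hc0 ((castCoh e).injective (h.trans (map_zero _).symm)))
    (fun l hl => by
      have : Fact (l : ℕ).Prime := ⟨l.2⟩
      show heckeOp _ (l : ℕ) (castCoh e c) = _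
      rw [← castCoh_heckeOp e (l : ℕ), hcl (l : ℕ) (Finset.notMem_empty _)
        (fun h => hl (h.mul_right 2)), map_smul]
      simp only [dif_pos l.2]
      rfl)
    hw (fun h => (hw.dvd_mul.mp h).elim hwV fun h' =>
      hw2 ((Nat.prime_dvd_prime_iff_eq hw Nat.prime_two).mp h')) hP hσ
  exact (htrρ σ).symm.trans key

/-- **`ThetaTrace`.** -/
theorem thetaTrace : ThetaTrace := by
  intro O _ _ _ _ _ _ _ E res Sm A R t T hA H hlow C h0 U₀ α φ hB hred θT w hw hw2 hwV P hP σ hσ
  exact theta_eq_trace H hlow hB θT hw hw2 hwV hP hσ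

end Fermat.Agent.TwoAdic.TopDown

end
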