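import Fermat.Agent.TwoAdic.Route.FinalAssembly
import Fermat.Agent.TwoAdic.Route.FinalPackage
import Fermat.Agent.TwoAdic.Route.FinalSquareStep
import Fermat.Agent.TwoAdic.Route.FinalPoints
import Fermat.Agent.TwoAdic.Route.FinalTheta
import Fermat.Agent.TwoAdic.Route.FinalExtend

/-!
# The final step of the two-adic lifting
-/

set_option autoImplicit false

namespace Fermat.Agent.TwoAdic.TopDown

/-- **`FinalStep` holds.** -/
theorem finalStep : FinalStep :=
  finalStep_of basePackage (squareStep_of squareConditions thetaTrace) pointExtend

end Fermat.Agent.TwoAdic.TopDown
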