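import Fermat.Agent.TwoAdic.Route.BaseSetup
import Fermat.Agent.TwoAdic.C0.RaiseHom
import Fermat.Agent.TwoAdic.C0.DoublingAway

/-!
# The doubling at the base setup

The doubling of level `D` raised through the auxiliary core primes: all the hypotheses on `Φ` of
`ALSetup.pow_four_le_card_of_doubling_away` for the setups of `exists_baseSetup`.
-/

set_option autoImplicit false

noncomputable section

open IsLocalRing GaloisRep Fermat.Agent.DefRing
open Fermat.Agent.HeckeModule Fermat.Agent.HeckeJ0 Fermat.Agent.LevelRaising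
open scoped DualNumber

namespace Fermat.Agent.TwoAdic.TopDown

attribute [local instance] ALSetup.isPrime

/-- Dual numbers over the prime field to dual numbers over `k`. -/
def dualCast (k : Type) [CommRing k] [CharP k 2] : (ZMod 2)[ε] →+* k[ε] where
  toFun x := TrivSqZeroExt.inl (ZMod.castHom dvd_rfl k x.fst)
    + TrivSqZeroExt.inr (ZMod.castHom dvd_rfl k x.snd)
  map_one' := by refine TrivSqZeroExt.ext ?_ ?_ <;> simp
  map_mul' x y := by
    refine TrivSqZeroExt.ext ?_ ?_ <;>
      simp only [TrivSqZeroExt.fst_add, TrivSqZeroExt.snd_add, TrivSqZeroExt.fst_mul,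
        TrivSqZeroExt.snd_mul, TrivSqZeroExt.fst_inl, TrivSqZeroExt.snd_inl,
        TrivSqZeroExt.fst_inr, TrivSqZeroExt.snd_inr, map_add, map_mul, smul_eq_mul,
        MulOpposite.smul_eq_mul_unop, MulOpposite.unop_op, add_zero, zero_add]
  map_zero' := by refine TrivSqZeroExt.ext ?_ ?_ <;> simp
  map_add' x y := by
    refine TrivSqZeroExt.ext ?_ ?_ <;> simp

variable {O : Type} [CommRing O] [IsLocalRing O]

/-- A prime given by residual values on the variables is the kernel of the evaluation. -/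
theorem mem_iff_aeval_eq_zero {S : Set ℕ} (m : Ideal (AwayPoly O S)) [hmp : m.IsPrime]
    (hle : (maximalIdeal O).map (algebraMap O (AwayPoly O S)) ≤ m)
    (e : AwayIndex S → ResidueField O)
    (hm : ∀ (l : AwayIndex S) (o : O), MvPolynomial.X l - MvPolynomial.C o ∈ m ↔ e l = residue O o)
    (a : AwayPoly O S) : a ∈ m ↔ MvPolynomial.aeval e a = 0 := by
  have hC : ∀ o : O, (MvPolynomial.C o : AwayPoly O S) ∈ m ↔ residue O o = 0 := fun o => by
    refine ⟨fun h => ?_, fun h => hle (Ideal.mem_map_of_mem _ ((residue_eq_zero_iff o).mp h))⟩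
    rw [residue_eq_zero_iff]
    by_contra hn
    exact hmp.ne_top (Ideal.eq_top_of_isUnit_mem _ h
      ((notMem_maximalIdeal.mp hn).map MvPolynomial.C))
  have key : ∀ p : AwayPoly O S, ∃ o : O, p - MvPolynomial.C o ∈ m ∧
      MvPolynomial.aeval e p = residue O o := by
    intro p
    induction p using MvPolynomial.induction_on with
    | C o => exact ⟨o, by rw [sub_self]; exact m.zero_mem, MvPolynomial.aeval_C _ _⟩
    | add p q hp hq =>
      obtain ⟨o, h1, h2⟩ := hp
      obtain ⟨o', h1', h2'⟩ := hq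
      refine ⟨o + o', ?_, by rw [map_add, map_add, h2, h2']⟩
      rw [map_add, add_sub_add_comm]
      exact m.add_mem h1 h1'
    | mul_X p l hp =>
      obtain ⟨o, h1, h2⟩ := hp
      obtain ⟨o', ho'⟩ := residue_surjective (e l)
      refine ⟨o * o', ?_, by rw [map_mul, map_mul, h2, MvPolynomial.aeval_X, ho']⟩
      have h3 : p * MvPolynomial.X l - MvPolynomial.C (o * o')
          = (p - MvPolynomial.C o) * MvPolynomial.X l
            + MvPolynomial.C o * (MvPolynomial.X l - MvPolynomial.C o') := by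
        rw [map_mul]; ring
      rw [h3]
      exact m.add_mem (m.mul_mem_right _ h1) (m.mul_mem_left _ ((hm l o').mpr ho'.symm))
  obtain ⟨o, h1, h2⟩ := key a
  rw [h2, ← hC o]
  refine ⟨fun h => ?_, fun h => ?_⟩
  · simpa using m.sub_mem h h1
  · simpa using m.add_mem h1 h

variable [CharP (ResidueField O) 2]

/-- **The doubling at the base setup.** -/
theorem exists_basePhi {E : LiftData} {r : MRep (ResidueField O)} {Sm R X : Finset ℕ}
    (hR : CorePrimes E r R X) (hdbl : HasDoubling E.D r Sm) (hmod : IsResiduallyModular E.D r Sm)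
    (hRSm : Disjoint R Sm) (T : ALSetup O) {Sx : Finset ℕ} {t : ℕ → O}
    (hcore : T.core = E.ℓ₀ * prodOf R) (hS : T.S = ↑Sx) (hD : E.D.primeFactors ⊆ Sx)
    (hSm : ∀ l ∈ Sm, l ≠ 2 → l ∈ Sx)
    (ht : ∀ q ∈ R, residue O (t q) * residue O (t q) + residue O (t q) + 1 = 0)
    (hm : ∀ (l : AwayIndex T.S) (o : O), MvPolynomial.X l - MvPolynomial.C o ∈ T.m ↔
      baseEigen r R t ((l : Nat.Primes) : ℕ) = residue O o)
    (hS₂ : T.S ⊆ ↑(insert 2 Sx)) :
    ∃ Φ : HeckePoly ℤ →+* (ResidueField O)[ε],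
      C0.KillsCoh (T.level (E.D.primeFactors.erase E.ℓ₀)) Φ ∧
      (∀ a ∈ awayMonoid T.m, IsUnit (C0.extendHom (ALSetup.resDual (O := O)) Φ a)) ∧
      (∀ a, restrictAway O hS₂ a ∈ T.m →
        C0.extendHom (ALSetup.resDual (O := O)) Φ (awayIncl O ↑(insert 2 Sx) a) = 0) ∧
      (∀ l : Nat.Primes, (l : ℕ) ∈ E.D.primeFactors.erase E.ℓ₀ → Φ (MvPolynomial.X l) = 1) ∧
      ∀ l : Nat.Primes, (l : ℕ) = 2 → Φ (MvPolynomial.X l) = 1 + ε := by
  classical
  set k := ResidueField O
  obtain ⟨ψ, hψ, hψ2, hψU, hψT⟩ := hdbl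
  have hD0 : E.D ≠ 0 := by have := E.mod_eight; omega
  have h20 : (2 : k) = 0 := CharTwo.two_eq_zero
  -- residual values of the operators away from `2 D`
  have hval : ∀ l : Nat.Primes, (l : ℕ) ∉ Sm → (l : ℕ) ≠ 2 → ¬ (l : ℕ) ∣ E.D →
      dualCast k (ψ (MvPolynomial.X l)) = TrivSqZeroExt.inl (residualTrace r l) := by
    intro l hl h2 hd
    obtain ⟨m, hm', htr⟩ := hψT l hl h2 hd
    obtain ⟨P, φ, hP, hφ⟩ := Frobenius.exists_liesOverPrime_and_isFrobeniusAt_qbar l.2
    rw [residualTrace_eq hmod l.2 hl hP hφ, htr P hP φ hφ, hm']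
    refine TrivSqZeroExt.ext ?_ ?_ <;> simp [dualCast]
  -- the raised homomorphisms
  have key : ∀ F ⊆ R, ∃ Φ : HeckePoly ℤ →+* k[ε], C0.KillsCoh (prodOf F * E.D) Φ ∧
      (∀ l : Nat.Primes, (l : ℕ) ∈ F → Φ (MvPolynomial.X l) = TrivSqZeroExt.inl (residue O (t l))) ∧
      ∀ l : Nat.Primes, (l : ℕ) ∉ F → Φ (MvPolynomial.X l) = dualCast k (ψ (MvPolynomial.X l)) := by
    intro F
    induction F using Finset.induction_on with
    | empty =>
      refine fun _ => ⟨(dualCast k).comp ψ, ?_, fun l hl => absurd hl (Finset.notMem_empty _),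
        fun l _ => rfl⟩
      rw [show prodOf (∅ : Finset ℕ) * E.D = E.D by simp [prodOf]]
      exact fun P hP => by rw [RingHom.comp_apply, hψ P hP, map_zero]
    | insert q F hq ih =>
      intro hF
      obtain ⟨Φ, hΦ, hΦin, hΦout⟩ := ih ((Finset.subset_insert q F).trans hF)
      have hqR : q ∈ R := hF (Finset.mem_insert_self q F)
      have hqp : q.Prime := hR.prime q hqR
      have : Fact q.Prime := ⟨hqp⟩
      obtain ⟨-, hqD, -⟩ := hR.fresh q hqR
      have hFp : ∀ x ∈ F, x.Prime := fun x hx => hR.prime x (hF (Finset.mem_insert_of_mem hx))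
      have hqN : ¬ q ∣ prodOf F * E.D := fun h => by
        rcases hqp.dvd_mul.mp h with h | h
        · obtain ⟨x, hx, hqx⟩ := ((Nat.prime_iff.mp hqp).dvd_finsetProd_iff _).mp h
          exact hq ((Nat.prime_dvd_prime_iff_eq hqp (hFp x hx)).mp hqx ▸ hx)
        · exact hqD (h.mul_left 2)
      have : NeZero (prodOf F * E.D) :=
        ⟨mul_ne_zero (Finset.prod_ne_zero_iff.mpr fun x hx => (hFp x hx).ne_zero) hD0⟩
      have hq2 : q ≠ 2 := fun h => by have := hR.mod_four q hqR; omega
      have hXq : Φ (MvPolynomial.X (⟨q, hqp⟩ : Nat.Primes)) = 1 := by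
        refine (hΦout (⟨q, hqp⟩ : Nat.Primes) hq).trans ((hval (⟨q, hqp⟩ : Nat.Primes)
          (Finset.disjoint_left.mp hRSm hqR) hq2 fun h => hqD (h.mul_left 2)).trans ?_)
        obtain ⟨P, φ, hP, hφ⟩ := Frobenius.exists_liesOverPrime_and_isFrobeniusAt_qbar hqp
        show TrivSqZeroExt.inl (residualTrace r q) = 1
        rw [residualTrace_eq hmod hqp (Finset.disjoint_left.mp hRSm hqR) hP hφ,
          hR.trace q hqR P hP φ hφ, TrivSqZeroExt.inl_one]
      have hqk : (q : k) = 1 := by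
        rw [CharP.cast_eq_mod k 2 q, Nat.odd_iff.mp (hqp.odd_of_ne_two hq2), Nat.cast_one]
      have hqB : (q : k[ε]) = 1 := by
        rw [← map_natCast (TrivSqZeroExt.inlHom k k), hqk, map_one]
      refine ⟨C0.raiseHom q Φ (TrivSqZeroExt.inl (residue O (t q))), ?_, fun l hl => ?_,
        fun l hl => ?_⟩
      · rw [show prodOf (insert q F) * E.D = q * (prodOf F * E.D) by
          rw [prodOf, prodOf, Finset.prod_insert hq, id_eq, mul_assoc]]
        refine C0.killsCoh_raiseHom hqN Φ hΦ _ (TrivSqZeroExt.inl (1 - residue O (t q)))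
          ?_ ?_ ?_
        · rw [hXq, ← TrivSqZeroExt.inl_add, add_sub_cancel, TrivSqZeroExt.inl_one]
        · rw [hqB, ← TrivSqZeroExt.inl_mul, ← TrivSqZeroExt.inl_one]
          congr 1
          linear_combination -ht q hqR + residue O (t q) * h20
        · rw [hqB, hXq]
          have h2 : (2 : k[ε]) = 0 := by
            rw [← map_ofNat (TrivSqZeroExt.inlHom k k) 2, h20, map_zero]
          have : ((1 + 1) ^ 2 - 1 ^ 2 : k[ε]) = 1 := by linear_combination h2
          rw [this]
          exact isUnit_one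
      · by_cases hlq : (l : ℕ) = q
        · obtain rfl : l = ⟨q, hqp⟩ := Subtype.ext hlq
          exact C0.raiseHom_X_self _ _
        · rw [C0.raiseHom_X_of_ne _ _ hlq,
            hΦin l ((Finset.mem_insert.mp hl).resolve_left hlq)]
      · rw [Finset.mem_insert, not_or] at hl
        rw [C0.raiseHom_X_of_ne _ _ hl.1, hΦout l hl.2]
  obtain ⟨Φ, hΦ, hΦin, hΦout⟩ := key R subset_rfl
  have hlevel : T.level (E.D.primeFactors.erase E.ℓ₀) = prodOf R * E.D := by
    have hmem : E.ℓ₀ ∈ E.D.primeFactors :=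
      Nat.mem_primeFactors.mpr ⟨E.prime_ℓ₀, E.dvd_ℓ₀, hD0⟩
    have h := Finset.mul_prod_erase _ id hmem
    rw [show (∏ x ∈ E.D.primeFactors, id x) = E.D from
      Nat.prod_primeFactors_of_squarefree E.squarefree] at h
    show T.core * prodOf _ = _
    rw [hcore, prodOf, mul_assoc, mul_left_comm]
    exact congrArg _ h
  -- values at the primes outside `S`
  have hX : ∀ l : Nat.Primes, (l : ℕ) ∉ Sx → (l : ℕ) ≠ 2 →
      Φ (MvPolynomial.X l) = TrivSqZeroExt.inl (baseEigen r R t l) := by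
    intro l hl h2
    by_cases hlR : (l : ℕ) ∈ R
    · rw [hΦin l hlR, baseEigen, if_pos hlR]
    · rw [hΦout l hlR, baseEigen, if_neg hlR, residualEigen_of_ne r h2,
        hval l (fun h => hl (hSm _ h h2)) h2
          fun h => hl (hD (Nat.mem_primeFactors.mpr ⟨l.2, h, hD0⟩))]
  have hX2 : ∀ l : Nat.Primes, (l : ℕ) = 2 → Φ (MvPolynomial.X l) = 1 + ε := fun l h => by
    have hlR : (l : ℕ) ∉ R := fun h' => by have := hR.mod_four _ h'; omega
    rw [hΦout l hlR, hψ2 l h]
    refine TrivSqZeroExt.ext ?_ ?_ <;> simp [dualCast]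
  have hfst : ∀ a : AwayPoly O T.S,
      (C0.extendHom (ALSetup.resDual (O := O)) Φ (awayIncl O T.S a)).fst =
        MvPolynomial.aeval (fun l : AwayIndex T.S => baseEigen r R t ((l : Nat.Primes) : ℕ)) a := by
    intro a
    induction a using MvPolynomial.induction_on with
    | C o => simp [C0.extendHom, awayIncl, ALSetup.resDual]
    | add p q hp hq => simp only [map_add, TrivSqZeroExt.fst_add, hp, hq]
    | mul_X p l hp =>
      rw [map_mul, map_mul, map_mul, TrivSqZeroExt.fst_mul, hp, awayIncl_X, C0.extendHom,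
        MvPolynomial.eval₂Hom_X', MvPolynomial.aeval_X]
      congr 1
      have hl : ((l : Nat.Primes) : ℕ) ∉ Sx := fun h => l.2 ((Set.ext_iff.mp hS _).mpr
          (Finset.mem_coe.mpr h))
      by_cases h2 : ((l : Nat.Primes) : ℕ) = 2
      · rw [hX2 _ h2, baseEigen, if_neg fun h => ?_, residualEigen, if_pos h2]
        · simp
        · have := hR.mod_four _ h; omega
      · rw [hX _ hl h2, TrivSqZeroExt.fst_inl]
  have hΦ' : ∀ N, N = prodOf R * E.D → C0.KillsCoh N Φ := by rintro _ rfl; exact hΦ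
  refine ⟨Φ, hΦ' _ hlevel, ?_, fun a ha => ?_, fun l hl => ?_, hX2⟩
  · rintro _ ⟨a, ha, rfl⟩
    rw [TrivSqZeroExt.isUnit_iff_isUnit_fst]
    refine (Ne.isUnit fun h0 => ha ?_)
    exact (mem_iff_aeval_eq_zero T.m T.le _ hm a).mpr ((hfst a).symm.trans h0)
  · have hinl : ∀ b : AwayPoly O (↑(insert 2 Sx) : Set ℕ), ∃ c : k,
        C0.extendHom (ALSetup.resDual (O := O)) Φ (awayIncl O _ b) = TrivSqZeroExt.inl c := by
      intro b
      induction b using MvPolynomial.induction_on with
      | C o => exact ⟨residue O o, by simp [C0.extendHom, awayIncl, ALSetup.resDual]⟩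
      | add p q hp hq =>
        obtain ⟨c, hc⟩ := hp
        obtain ⟨c', hc'⟩ := hq
        exact ⟨c + c', by rw [map_add, map_add, hc, hc', TrivSqZeroExt.inl_add]⟩
      | mul_X p l hp =>
        obtain ⟨c, hc⟩ := hp
        have hl : ((l : Nat.Primes) : ℕ) ∉ insert 2 Sx := fun h => l.2 (Finset.mem_coe.mpr h)
        rw [Finset.mem_insert, not_or] at hl
        refine ⟨c * baseEigen r R t ((l : Nat.Primes) : ℕ), ?_⟩
        rw [map_mul, map_mul, hc, awayIncl_X, C0.extendHom, MvPolynomial.eval₂Hom_X',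
          hX _ hl.2 hl.1, TrivSqZeroExt.inl_mul]
    obtain ⟨c, hc⟩ := hinl a
    have h1 := hfst (restrictAway O hS₂ a)
    rw [awayIncl_restrictAway, hc, TrivSqZeroExt.fst_inl,
      (mem_iff_aeval_eq_zero T.m T.le _ hm _).mp ha] at h1
    rw [hc, h1, TrivSqZeroExt.inl_zero]
  · have hlD := Finset.mem_of_mem_erase hl
    have hlR : (l : ℕ) ∉ R := fun h => (hR.fresh _ h).2.1
      ((Nat.dvd_of_mem_primeFactors hlD).mul_left 2)
    rw [hΦout l hlR, hψU l (Nat.dvd_of_mem_primeFactors hlD), map_one]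

end Fermat.Agent.TwoAdic.TopDown

end
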