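import Mathlib.RingTheory.WittVector.Complete
import Mathlib.RingTheory.WittVector.DiscreteValuationRing
import Mathlib.FieldTheory.Finite.GaloisField
import Mathlib.FieldTheory.Perfect
import Mathlib.RingTheory.LocalRing.ResidueField.Basic

/-!
# The coefficient ring `W(𝔽₄)`

A complete discrete valuation ring of characteristic zero with residue field of characteristic two
containing a primitive cube root of unity.
-/

set_option autoImplicit false

noncomputable section

open IsLocalRing WittVector

namespace Fermat.Agent.TwoAdic.TopDown

/-- The field with four elements. -/
abbrev FieldFour : Type := GaloisField 2 2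

/-- The Witt vectors of the field with four elements. -/
abbrev WittFour : Type := WittVector 2 FieldFour

instance isAdicComplete_wittFour : IsAdicComplete (maximalIdeal WittFour) WittFour := by
  rw [(WittVector.irreducible 2 (k := FieldFour)).maximalIdeal_eq]
  exact WittVector.isAdicCompleteIdealSpanP

/-- The residue field is the field with four elements. -/
def residueFieldFour : ResidueField WittFour ≃+* FieldFour :=
  (Ideal.quotEquivOfEq ((WittVector.irreducible 2 (k := FieldFour)).maximalIdeal_eq)).trans
    WittVector.quotientPEquiv

instance finite_residueField_wittFour : Finite (ResidueField WittFour) :=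
  Finite.of_equiv FieldFour residueFieldFour.symm.toEquiv

instance charP_residueField_wittFour : CharP (ResidueField WittFour) 2 :=
  charP_of_injective_ringHom (f := residueFieldFour.symm.toRingHom) residueFieldFour.symm.injective
      2

instance charZero_wittFour : CharZero WittFour := by
  refine charZero_of_inj_zero fun n hn => ?_
  by_contra h0
  obtain ⟨v, m, hm, rfl⟩ := Nat.exists_eq_pow_mul_and_not_dvd h0 2 (by norm_num)
  rw [Nat.cast_mul, Nat.cast_pow, mul_eq_zero] at hn
  rcases hn with hn | hn
  · exact WittVector.p_nonzero 2 FieldFour (pow_eq_zero_iff'.mp hn).1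
  · have := congrArg (WittVector.constantCoeff (p := 2) (R := FieldFour)) hn
    rw [map_natCast, map_zero, CharP.cast_eq_zero_iff FieldFour 2] at this
    exact hm this

open scoped Classical in
theorem exists_cube_root : ∃ z : ResidueField WittFour, z * z + z + 1 = 0 := by
  have := Fintype.ofFinite FieldFour
  have h4 : Fintype.card FieldFour = 4 := by
    rw [← Nat.card_eq_fintype_card, GaloisField.card 2 2 two_ne_zero]; norm_num
  obtain ⟨y, hy⟩ : ∃ y : FieldFour, y ∉ ({0, 1} : Finset FieldFour) := by
    by_contra! h
    have := Finset.card_le_card (show (Finset.univ : Finset FieldFour) ⊆ {0, 1} from fun x _ => h x)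
    rw [Finset.card_univ, h4] at this
    exact absurd (this.trans (Finset.card_insert_le _ _)) (by simp)
  simp only [Finset.mem_insert, Finset.mem_singleton, not_or] at hy
  refine ⟨residueFieldFour.symm y, residueFieldFour.injective ?_⟩
  simp only [map_add, map_mul, map_one, map_zero, RingEquiv.apply_symm_apply]
  have h := FiniteField.pow_card_sub_one_eq_one y hy.1
  rw [h4] at h
  have h3 : (y - 1) * (y * y + y + 1) = 0 := by linear_combination h
  exact (mul_eq_zero.mp h3).resolve_left (sub_ne_zero.mpr hy.2)

end Fermat.Agent.TwoAdic.TopDown

end
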