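import Fermat.Agent.TwoAdic.Route.Inputs
import Fermat.Agent.TwoAdic.Doubling.Hom
import Fermat.Agent.TwoAdic.C0.FormsHom
import Fermat.Agent.DihedralGlue.CFTInput

/-!
# Doubling at the level of the residual representation

`HasDoubling D r S`: a homomorphism to `𝔽₂[ε]` killing the cohomology of level `D`, residual away
from `2`, with `U_ℓ ↦ 1` and `T₂ ↦ 1 + ε`.  It exists for the switched curves.
-/

set_option autoImplicit false

noncomputable section

open scoped DualNumber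

namespace Fermat.Agent.TwoAdic.TopDown

open Fermat.Agent.DefRing Fermat.Agent.HeckeModule

section Curve

open NumberField IsDedekindDomain Module Polynomial Fermat.Agent.CFT Fermat.Agent.Dihedral
open Fermat.Agent.DihedralGlue
open scoped nonZeroDivisors

/-- Two squarefree numbers whose product is a square are equal. -/
theorem eq_of_squarefree_of_isSquare {a b : ℕ} (ha : Squarefree a) (hb : Squarefree b)
    (h : IsSquare (a * b)) : a = b := by
  obtain ⟨c, hc⟩ := h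
  have ha0 := ha.ne_zero
  have hb0 := hb.ne_zero
  refine Nat.eq_of_factorization_eq ha0 hb0 fun p => ?_
  have h1 := ha.natFactorization_le_one p
  have h2 := hb.natFactorization_le_one p
  have hc0 : c ≠ 0 := fun h => mul_ne_zero ha0 hb0 (by rw [hc, h, mul_zero])
  have h3 := congrArg (fun n : ℕ => n.factorization p) hc
  simp only [Nat.factorization_mul ha0 hb0, Nat.factorization_mul hc0 hc0, Finsupp.add_apply] at h3
  omega

/-- **The doubling of a switched curve.** -/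
theorem exists_doubling_of_curve (W : WeierstrassCurve ℤ) (hW : W.IsSemistableModel)
    (hneg : W.Δ < 0) (hΔ : ∃ (k : ℕ) (r : ℤ), 0 < k ∧ W.Δ = 4 ^ k * r ∧ r % 8 = 5)
    (hcub : ∀ x : ℚ, x ^ 3 + (-27 * (W.c₄ : ℚ)) * x + (-54 * (W.c₆ : ℚ)) ≠ 0) {D : ℕ}
    (hsq : Squarefree D) (hD8 : D % 8 = 3) (hsquare : IsSquare (-W.Δ * D)) :
    ∃ ψ : HeckePoly ℤ →+* (ZMod 2)[ε], C0.KillsCoh D ψ ∧
      (∀ l : Nat.Primes, (l : ℕ) = 2 → ψ (MvPolynomial.X l) = 1 + ε) ∧
      (∀ l : Nat.Primes, (l : ℕ) ∣ D → ψ (MvPolynomial.X l) = 1) ∧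
      ∀ l : Nat.Primes, W.IsGoodPrimeFor l →
        (l : ℕ) ≠ 2 → ¬ (l : ℕ) ∣ D →
          ψ (MvPolynomial.X l) = TrivSqZeroExt.inl (W.apOfModel l : ZMod 2) := by
  obtain ⟨k, r, hk, hr, hr8⟩ := hΔ
  obtain ⟨D', m, hsq', hD8', hrD, hm⟩ := exists_squarefree_part hneg hr hr8
  obtain rfl : D' = D := by
    refine eq_of_squarefree_of_isSquare hsq' hsq ?_
    obtain ⟨s, hs⟩ := hsquare
    have h0 : ((2 ^ k * m : ℕ) : ℤ) ^ 2 * ((D' * D : ℕ) : ℤ) = s * s := by
      rw [← hs, hr, hrD, show (4 : ℤ) ^ k = 2 ^ k * 2 ^ k by rw [← mul_pow]; norm_num]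
      push_cast
      ring
    have h1 : (2 ^ k * m) ^ 2 * (D' * D) = s.natAbs * s.natAbs := by
      have := congrArg Int.natAbs h0
      rwa [Int.natAbs_mul, Int.natAbs_pow, Int.natAbs_natCast, Int.natAbs_natCast,
        Int.natAbs_mul] at this
    have h2 : 2 ^ k * m ∣ s.natAbs := by
      rw [← Nat.pow_dvd_pow_iff two_ne_zero, sq s.natAbs, ← h1]
      exact dvd_mul_right _ _
    obtain ⟨t, ht⟩ := h2
    refine ⟨t, Nat.eq_of_mul_eq_mul_left
      (show 0 < (2 ^ k * m) ^ 2 by positivity) (h1.trans ?_)⟩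
    rw [ht]; ring
  have hDΔ : (D' : ℤ) ∣ W.Δ := ⟨-(4 ^ k * (m : ℤ) ^ 2), by rw [hr, hrD]; ring⟩
  have h2Δ : (2 : ℤ) ∣ W.Δ := hr ▸ (dvd_pow (by norm_num) hk.ne').mul_right r
  -- the field `ℚ(√-D)`
  have : Fact (Irreducible (X ^ 2 - C (-(D' : ℚ)))) := ⟨X_pow_sub_C_irreducible_of_prime
    Nat.prime_two fun b hb => by
      have : (0 : ℚ) < D' := by exact_mod_cast (show 0 < D' by omega)
      nlinarith [sq_nonneg b]⟩
  let K := AdjoinRoot (X ^ 2 - C (-(D' : ℚ)))
  have hmon : (X ^ 2 - C (-(D' : ℚ))).Monic := monic_X_pow_sub_C _ two_ne_zero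
  have : CharZero K := charZero_of_injective_algebraMap (algebraMap ℚ K).injective
  have : FiniteDimensional ℚ K := (AdjoinRoot.powerBasis' hmon).finite
  have : NumberField K := { }
  set θ : K := AdjoinRoot.root (X ^ 2 - C (-(D' : ℚ))) with hθdef
  have hθ : θ ^ 2 = -(D' : K) := by
    have h := AdjoinRoot.eval₂_root (X ^ 2 - C (-(D' : ℚ)))
    rw [eval₂_sub, eval₂_pow, eval₂_X, eval₂_C, sub_eq_zero] at h
    rw [hθdef, h, map_neg, map_natCast]
  have hdeg : finrank ℚ K = 2 := by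
    rw [(AdjoinRoot.powerBasis' hmon).finrank, AdjoinRoot.powerBasis'_dim, natDegree_X_pow_sub_C]
  have : IsTotallyComplex K := isTotallyComplex_of_sq (by omega) hθ
  have : IsImagQuadratic K := ⟨hdeg, inferInstance⟩
  have hdisc := discr_eq_neg hD8 hsq' hθ
  have hroot := twoCubic_ne_zero_of_short W hcub
  have hs : (16 * 2 ^ k * (m : K) * θ) ^ 2 = ((256 * W.Δ : ℤ) : K) :=
    sq_scaled_root hr hrD hθ
  have := isGalois_cubicField W K hroot
  obtain ⟨χ, hχsurj, hχ⟩ := classCharInput K (CubicField W K)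
    (finrank_cubicField W K hroot hneg.ne hs)
    fun w => ramificationIdx_eq_one hroot hneg.ne h2Δ hW hs w
  have hχ1 : χ ≠ 1 := by
    rintro rfl
    obtain ⟨C, hC⟩ := hχsurj (Multiplicative.ofAdd 1)
    simp only [MonoidHom.one_apply] at hC
    exact absurd hC (by decide)
  have hN : (discr K).natAbs = D' := by rw [hdisc]; simp
  rw [← hN]
  have : NeZero (discr K).natAbs := ⟨by rw [hN]; exact hsq'.ne_zero⟩
  obtain ⟨ψ, -, hψ2, hψT, hψU⟩ := Doubling.exists_doublingHom χ (two_inert hD8 hsq' hθ) hχ1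
  have hX : ∀ l : Nat.Primes, (ψ.comp (C0.formsHom (discr K).natAbs)) (MvPolynomial.X l) =
      ψ (C0.formsGen (discr K).natAbs l) := fun l => by
    rw [RingHom.comp_apply, C0.formsHom, MvPolynomial.eval₂Hom_X']
  have hT : ∀ (l : Nat.Primes) (h : ¬ (l : ℕ) ∣ (discr K).natAbs),
      C0.formsGen (discr K).natAbs l = CuspForm.heckeAlgebra.T l.2 h (Set.notMem_empty _) :=
    fun l h => Subtype.ext (by
      show EigenRep.formsOp _ l = _
      rw [EigenRep.formsOp, dif_neg h, CuspForm.heckeAlgebra.coe_T])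
  have hU : ∀ (l : Nat.Primes) (h : (l : ℕ) ∣ (discr K).natAbs),
      C0.formsGen (discr K).natAbs l = CuspForm.heckeAlgebra.U l.2 h (Set.notMem_empty _) :=
    fun l h => Subtype.ext (by
      show EigenRep.formsOp _ l = _
      rw [EigenRep.formsOp, dif_pos h, CuspForm.heckeAlgebra.coe_U])
  refine ⟨_, C0.killsCoh_formsHom ψ, fun l hl => ?_, fun l hl => ?_, fun l hg h2 hd => ?_⟩
  · have key : ∀ (p : ℕ) (hp : p.Prime) (h : ¬ p ∣ (discr K).natAbs), p = 2 →
        ψ (CuspForm.heckeAlgebra.T hp h (Set.notMem_empty _)) = 1 + ε := by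
      rintro _ _ h rfl; exact hψ2 h
    rw [hX, hT l (fun h => by rw [hN, hl] at h; omega)]
    exact key _ _ _ hl
  · rw [hX, hU _ hl]
    exact hψU _ _ _
  · rw [hX, hT _ hd, hψT _ _ hd h2]
    congr 1
    have hd' : ¬ ((l : ℕ) : ℤ) ∣ discr K := fun h => hd (Int.natCast_dvd.mp h)
    rw [traceTwo, if_neg (not_or.2 ⟨h2, hd'⟩)]
    have hiff := exists_prime_char_ne_one_iff hroot hneg.ne hs χ hχ l.2 h2 hg
    by_cases hno : ∃ r : ZMod l, twoCubic W r = 0
    · rw [if_neg fun h => hiff.1 h hno, Int.cast_zero, eq_comm,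
        ZMod.intCast_eq_zero_iff_even, ← Int.not_odd_iff_even]
      exact fun h => (odd_apOfModel_iff W l.2 h2 hg).1 h hno
    · rw [if_pos (hiff.2 hno), Int.cast_one, eq_comm, ZMod.intCast_eq_one_iff_odd]
      exact (odd_apOfModel_iff W l.2 h2 hg).2 hno

end Curve

end Fermat.Agent.TwoAdic.TopDown

end
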