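import Fermat.Agent.TwoAdic.Route.Residual
import Fermat.Agent.EigenSystems.ModularModel

/-!
# `SwitchModular` from the two-adic lifting theorem

The squares at the further primes are removed one by one (`SquareLevelIsOld`); the eigen system of
the curve's point is not Eisenstein, hence comes from a normalised eigenform.
-/

set_option autoImplicit false

noncomputable section

open IsLocalRing GaloisRep Fermat.Agent.DefRing

namespace Fermat.Agent.TwoAdic.TopDown

variable {O : Type} [CommRing O] [IsDomain O] [IsDiscreteValuationRing O]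
  [IsAdicComplete (maximalIdeal O) O] [Finite (ResidueField O)] [CharP (ResidueField O) 2]
  [CharZero O]

omit [IsAdicComplete (maximalIdeal O) O] [Finite (ResidueField O)] [CharP (ResidueField O) 2] in
omit [CharZero O] in
theorem attached_mono (P : LiftProblem O) {S : Finset ℕ} (h : P.S ⊆ S) :
    Engine.IsAttachedSystem O 2 P.rho S P.a :=
  ⟨P.attached.1, fun ℓ hℓ hℓS => P.attached.2 ℓ hℓ fun h' => hℓS (h h')⟩

omit [CharZero O] in
theorem dvd_prod_primes {s : Finset ℕ} (hs : ∀ q ∈ s, q.Prime) {r : ℕ} (hr : r.Prime)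
    (h : r ∣ ∏ q ∈ s, q) : r ∈ s := by
  obtain ⟨q, hq, hd⟩ := (hr.prime.dvd_finsetProd_iff _).mp h
  exact ((Nat.prime_dvd_prime_iff_eq hr (hs q hq)).mp hd) ▸ hq

omit [CharZero O] in
theorem squarefree_prod_primes {s : Finset ℕ} (hs : ∀ q ∈ s, q.Prime) :
    Squarefree (∏ q ∈ s, q) := by
  classical
  induction s using Finset.induction_on with
  | empty => simp
  | insert q s hq ih =>
    have hs' : ∀ r ∈ s, r.Prime := fun r hr => hs r (Finset.mem_insert_of_mem hr)
    rw [Finset.prod_insert hq, Nat.squarefree_mul_iff]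
    exact ⟨(Nat.Prime.coprime_iff_not_dvd (hs q (Finset.mem_insert_self q s))).mpr fun h =>
      hq (dvd_prod_primes hs' (hs q (Finset.mem_insert_self q s)) h),
      (hs q (Finset.mem_insert_self q s)).squarefree, ih hs'⟩

/-- Squares at the primes of `W` leave the level one by one. -/
theorem occurs_of_squares (hsq : SquareInput) (P : LiftProblem O) {S : Finset ℕ} (hS : P.S ⊆ S)
    (V : Finset ℕ) (hV : V ⊆ P.W) :
    ∀ M : ℕ, 0 < M → (∀ v ∈ V, ¬ v ∣ M) → (∀ r : ℕ, r.Prime → r ∣ M → r ∈ S) →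
      Engine.Occurs (FractionRing O) (M * ∏ v ∈ V, v * v) 1 S
        (fun ℓ => algebraMap O (FractionRing O) (P.a ℓ)) →
      Engine.Occurs (FractionRing O) (M * ∏ v ∈ V, v) 1 S
        (fun ℓ => algebraMap O (FractionRing O) (P.a ℓ)) := by
  classical
  induction V using Finset.induction_on with
  | empty => intro M _ _ _ h; rw [Finset.prod_empty] at h ⊢; exact h
  | insert w V hwV ih =>
    intro M hM hdis hMS h
    have hV' : V ⊆ P.W := (Finset.subset_insert w V).trans hV
    have hwW : w ∈ P.W := hV (Finset.mem_insert_self w V)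
    obtain ⟨hw, hw2, -⟩ := P.W_spec w hwW
    have hVp : ∀ v ∈ V, v.Prime := fun v hv => (P.W_spec v (hV' hv)).1
    have hmem : ∀ r ∈ P.W, r ∈ S := fun r hr =>
      hS (P.mem_S r (P.W_spec r hr).1 (Or.inr (Or.inr hr)))
    have hsq2 : ∀ r : ℕ, r.Prime → r ∣ ∏ v ∈ V, v * v → r ∈ V := fun r hr hd => by
      rw [Finset.prod_mul_distrib] at hd
      exact dvd_prod_primes hVp hr ((hr.dvd_mul.mp hd).elim id id)
    have hM' : ∀ r : ℕ, r.Prime → r ∣ M * ∏ v ∈ V, v * v → r ∈ S := fun r hr hd =>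
      (hr.dvd_mul.mp hd).elim (hMS r hr) fun h' => hmem r (hV' (hsq2 r hr h'))
    have hwM' : ¬ w ∣ M * ∏ v ∈ V, v * v := fun hd => (hw.dvd_mul.mp hd).elim
      (hdis w (Finset.mem_insert_self w V)) fun h' => hwV (hsq2 w hw h')
    have h1 := hsq O (M * ∏ v ∈ V, v * v) w Nat.prime_two hw hw2 hwM'
      (Nat.mul_pos hM (Finset.prod_pos fun v hv => Nat.mul_pos (hVp v hv).pos (hVp v hv).pos))
      S P.a P.rho (hmem w hwW) (hS (P.mem_S 2 Nat.prime_two (Or.inl rfl))) hM'
      (by
        rw [Finset.prod_insert hwV, show M * (w * w * ∏ v ∈ V, v * v) =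
          M * (∏ v ∈ V, v * v) * w * w by ring] at h
        exact h)
      (attached_mono P hS) P.no_line (P.fixed w hwW)
    rw [show M * (∏ v ∈ V, v * v) * w = M * w * ∏ v ∈ V, v * v by ring] at h1
    have h2 := ih hV' (M * w) (Nat.mul_pos hM hw.pos)
      (fun v hv hd => ((hVp v hv).dvd_mul.mp hd).elim (hdis v (Finset.mem_insert_of_mem hv))
        fun h' => hwV ((Nat.prime_dvd_prime_iff_eq (hVp v hv) hw).mp h' ▸ hv))
      (fun r hr hd => (hr.dvd_mul.mp hd).elim (hMS r hr) fun h' =>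
        (Nat.prime_dvd_prime_iff_eq hr hw).mp h' ▸ hmem w hwW) h1
    rw [show M * w * ∏ v ∈ V, v = M * (w * ∏ v ∈ V, v) by ring,
      ← Finset.prod_insert (f := fun v : ℕ => v) hwV] at h2
    exact h2

/-- A lifting problem occurs at a squarefree level. -/
theorem exists_occurs_squarefree (hlift : LiftingTwo) (hsq : SquareInput)
    (hz : ∃ z : ResidueField O, z * z + z + 1 = 0) (P : LiftProblem O) :
    ∃ (N : ℕ) (S : Finset ℕ), Squarefree N ∧ P.S ⊆ S ∧
      Engine.Occurs (FractionRing O) N 1 S (fun ℓ => algebraMap O (FractionRing O) (P.a ℓ)) := by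
  obtain ⟨X, S, hX, hWX, hS, hXS, hocc⟩ := hlift O hz P
  have hbase : ∀ r : ℕ, r.Prime → r ∣ P.base X →
      r = 2 ∨ r ∣ P.E.D ∨ r ∣ X := fun r hr hd => by
    unfold LiftProblem.base at hd
    rcases hr.dvd_mul.mp hd with h | h
    · rcases hr.dvd_mul.mp h with h | h
      · exact Or.inl ((Nat.prime_dvd_prime_iff_eq hr Nat.prime_two).mp h)
      · exact Or.inr (Or.inl h)
    · exact Or.inr (Or.inr h)
  have hWp : ∀ w ∈ P.W, w.Prime := fun w hw => (P.W_spec w hw).1
  have hdis : ∀ w ∈ P.W, ¬ w ∣ P.base X := fun w hw hd => by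
    obtain ⟨hp, h2, hD⟩ := P.W_spec w hw
    rcases hbase w hp hd with h | h | h
    · exact h2 h
    · exact hD h
    · exact hWX w hw h
  have hpos : 0 < P.base X := Nat.pos_of_ne_zero hX.ne_zero
  have hbS : ∀ r : ℕ, r.Prime → r ∣ P.base X → r ∈ S := fun r hr hd => by
    rcases hbase r hr hd with h | h | h
    · exact hS (P.mem_S r hr (Or.inl h))
    · exact hS (P.mem_S r hr (Or.inr (Or.inl h)))
    · exact hXS r hr h
  refine ⟨P.base X * ∏ w ∈ P.W, w, S, ?_, hS,
    occurs_of_squares hsq P hS P.W subset_rfl _ hpos hdis hbS hocc⟩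
  rw [Nat.squarefree_mul_iff]
  refine ⟨Nat.coprime_of_dvd fun r hr h1 h2 => ?_, hX, squarefree_prod_primes hWp⟩
  exact hdis r (dvd_prod_primes hWp hr h2) h1

omit O in
/-- **`SwitchModular`** from the point of the curve, two-adic lifting and the square step. -/
theorem switchModular_of (hcurve : CurvePoint) (hlift : LiftingTwo) (hsq : SquareInput) :
    Fermat.Agent.Route.SwitchModular := by
  intro W' hW hneg hΔ hcub
  obtain ⟨O, _, _, _, _, _, _, _, hz, P, hPa⟩ := hcurve W' hW hneg hΔ hcub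
  obtain ⟨N, S, hN, hS, hocc⟩ := exists_occurs_squarefree hlift hsq hz P
  have : NeZero N := ⟨hN.ne_zero⟩
  refine ⟨N, Nat.pos_of_ne_zero hN.ne_zero, hN, ?_⟩
  have : CharZero (FractionRing O) :=
    charZero_of_injective_algebraMap (FaithfulSMul.algebraMap_injective O (FractionRing O))
  have hne := P.nonEisenstein hN.ne_zero S
  rw [Finset.union_eq_right.mpr hS] at hne
  exact EigenSystems.isModularModelOfLevel_of_occurs hneg.ne hocc hne P.S fun ℓ hℓ hℓS => by
    show algebraMap O (FractionRing O) (P.a ℓ) = _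
    rw [hPa ℓ hℓ hℓS, map_intCast]

end Fermat.Agent.TwoAdic.TopDown

end
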