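import Fermat.Agent.TwoAdic.Route.Lift
import Fermat.Agent.TwoAdic.Route.Coefficients
import Fermat.Agent.TwoAdic.Route.Top
import Fermat.Agent.DihedralGlue.Unconditional
import Fermat.Agent.TwoAdic.Route.Doubling

/-!
# `CurvePoint` from the pair of the curve

`CurvePair`: the two-adic Tate module of a switched curve, as a pair over any coefficient ring.
-/

set_option autoImplicit false

noncomputable section

open IsLocalRing GaloisRep Fermat.Agent.DefRing

namespace Fermat.Agent.TwoAdic.TopDown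

/-- The two-adic pair of a switched curve, over any coefficient ring. -/
def CurvePair : Prop :=
  ∀ W' : WeierstrassCurve ℤ, W'.IsSemistableModel → W'.Δ < 0 →
    (∃ (k : ℕ) (r : ℤ), 0 < k ∧ W'.Δ = 4 ^ k * r ∧ r % 8 = 5) →
    (∀ x : ℚ, x ^ 3 + (-27 * (W'.c₄ : ℚ)) * x + (-54 * (W'.c₆ : ℚ)) ≠ 0) →
    ∀ D : ℕ, Squarefree D → D % 8 = 3 → IsSquare (-W'.Δ * D) → (D : ℤ) ∣ W'.Δ →
    ∀ (O : Type) [CommRing O] [IsDomain O] [IsDiscreteValuationRing O]
      [IsAdicComplete (maximalIdeal O) O] [Finite (ResidueField O)] [CharP (ResidueField O) 2]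
      [CharZero O],
      ∃ (sgn : ℕ → ℤ) (res : NormalData O) (N : MRep O), (∀ q, sgn q = 1 ∨ sgn q = -1) ∧
        IsDihedralResidual D res.rbar ∧ IsCont res.rbar ∧
        (∀ ℓ : ℕ, ℓ.Prime → W'.IsGoodPrimeFor ℓ → ∀ P : ValuationSubring (AlgebraicClosure ℚ),
          P.LiesOverPrime ℓ → ∀ φ : GQ, P.IsFrobeniusAt φ ℓ →
            (res.rbar φ).trace = (W'.apOfModel ℓ : ResidueField O)) ∧
        (∀ ℓ : ℕ, ℓ.Prime → ℓ ≠ 2 → W'.IsGoodPrimeFor ℓ →
          ∀ P : ValuationSubring (AlgebraicClosure ℚ), P.LiesOverPrime ℓ →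
            ∀ φ : GQ, P.IsFrobeniusAt φ ℓ → (N φ).trace = (W'.apOfModel ℓ : O)) ∧
        (∀ w : ℕ, w.Prime → w ≠ 2 → (w : ℤ) ∣ W'.Δ → ¬ w ∣ D →
          ∀ P : ValuationSubring (AlgebraicClosure ℚ), P.LiesOverPrime w →
            ∃ v : Fin 2 → O, v ≠ 0 ∧ ∀ σ ∈ P.inertiaSubgroupIn ℚ, (N σ).mulVec v = v) ∧
        ∀ (E : LiftData) (Q : Finset ℕ), E.D = D → E.aux = ∅ → (∀ q, E.sgn q = sgn q) →
          (∀ q : ℕ, q.Prime → q ≠ 2 → (q : ℤ) ∣ W'.Δ → ¬ q ∣ D → q ∈ Q) →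
          Pair.IsPair res E Q ∅ isLocalHom_algebraMap_self residue_surjective_self N (sgn 2 : O)

/-- `CurvePoint` from the pair of the curve. -/
theorem curvePoint_of (hpair : CurvePair) : CurvePoint := by
  intro W' hW hneg hΔ hcub
  classical
  obtain ⟨D, hsq, hD8, hsquare, hDΔ, -, f, hf, Qi, hQi, h2Qi, hfbad, hfgood⟩ :=
    DihedralGlue.residual_modularity W' hW hneg hΔ hcub (ResidueField WittFour)
  obtain ⟨sgn, res, N, hsgn, hdih, hcont, hres, htr, hfix, hp⟩ :=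
    hpair W' hW hneg hΔ hcub D hsq hD8 hsquare hDΔ WittFour
  obtain ⟨ψ, hψ, hψ2, hψU, hψT⟩ := exists_doubling_of_curve W' hW hneg hΔ hcub hsq hD8 hsquare
  obtain ⟨k, r, hk, hr, -⟩ := hΔ
  have h2Δ : (2 : ℤ) ∣ W'.Δ := hr ▸ (dvd_pow (by norm_num) hk.ne').mul_right r
  have hD0 : D ≠ 0 := by omega
  obtain ⟨ℓ₀, hℓ₀, hℓ₀D, hℓ₀4⟩ := exists_prime_three_mod_four hsq hD8
  let E : LiftData :=
    { D := D, ℓ₀ := ℓ₀, aux := ∅, sgn := sgn, squarefree := hsq, mod_eight := hD8,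
      prime_ℓ₀ := hℓ₀, dvd_ℓ₀ := hℓ₀D,
      aux_spec := fun q hq => absurd hq (Finset.notMem_empty q), sgn_spec := hsgn }
  let S : Finset ℕ := W'.Δ.natAbs.primeFactors
  let W : Finset ℕ := S.filter fun q => q ≠ 2 ∧ ¬ q ∣ D
  have hmemS : ∀ q : ℕ, q.Prime → (q : ℤ) ∣ W'.Δ → q ∈ S := fun q hq hd =>
    Nat.mem_primeFactors.mpr ⟨hq, Int.natCast_dvd.mp hd, Int.natAbs_ne_zero.mpr hneg.ne⟩
  have hgood : ∀ q : ℕ, q.Prime → q ∉ S → W'.IsGoodPrimeFor q := fun q hq hqS hd =>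
    hqS (hmemS q hq hd)
  have hpair' := hp E W rfl rfl (fun _ => rfl) fun q hq hq2 hd hqD =>
    Finset.mem_filter.mpr ⟨hmemS q hq hd, hq2, hqD⟩
  obtain ⟨hc, hcond⟩ := hpair'.isDef.exists_cont
  let P : LiftProblem WittFour :=
    { E := E
      res := res
      W := W
      rho := toAdic N hc
      alpha := (sgn 2 : WittFour)
      a := fun ℓ => (W'.apOfModel ℓ : WittFour)
      S := S
      aux_empty := rfl
      ℓ₀_mod := hℓ₀4
      dihedral := hdih
      cont := hcont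
      modular := ⟨f, hf, Qi, hQi, h2Qi, hfbad, fun ℓ hℓ hℓS => by
        obtain ⟨a, ha, haQ⟩ := hfgood ℓ hℓ (hgood ℓ hℓ hℓS)
        exact ⟨a, W'.apOfModel ℓ, ha, haQ, hres ℓ hℓ (hgood ℓ hℓ hℓS)⟩⟩
      doubling := ⟨ψ, hψ, hψ2, hψU, fun l hlS h2 hd => ⟨W'.apOfModel l,
        hψT l (hgood l l.2 hlS) h2 hd, hres l l.2 (hgood l l.2 hlS)⟩⟩
      W_spec := fun w hw => by
        obtain ⟨hwS, hw2, hwD⟩ := Finset.mem_filter.mp hw
        exact ⟨Nat.prime_of_mem_primeFactors hwS, hw2, hwD⟩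
      fixed := fun w hw A hA => by
        obtain ⟨hwS, hw2, hwD⟩ := Finset.mem_filter.mp hw
        obtain ⟨v, hv, hvf⟩ := hfix w (Nat.prime_of_mem_primeFactors hwS) hw2
          (Int.natCast_dvd.mpr (Nat.dvd_of_mem_primeFactors hwS)) hwD A hA
        refine ⟨v, hv, fun σ hσ => ?_⟩
        show Matrix.toLin' (N σ) v = v
        rw [Matrix.toLin'_apply]
        exact hvf σ hσ
      cond := hcond
      ordinary := (Pair.isOrdinary_toAdic_iff hc _).mpr hpair'.ordinary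
      alpha_residue := (toResidue_self _).symm.trans hpair'.residue_eq
      residual := ⟨toAdicBasis N hc, fun σ => by
        have hrd : mapRep _ N = res.rbar := hpair'.isDef.reduces
        rw [matrixRep_toAdic, ← hrd, mapRep_apply, mapRep_apply]
        exact Matrix.ext fun i j => (toResidue_self _).symm⟩
      attached := ⟨hcond.1, fun ℓ hℓ hℓS A hA φ hφ => by
        have h2 : ℓ ≠ 2 := fun h => hℓS (hmemS ℓ hℓ (h ▸ h2Δ))
        rw [GaloisRepAdic.trace]
        exact (Matrix.trace_toLin'_eq _).trans (htr ℓ hℓ h2 (hgood ℓ hℓ hℓS) A hA φ hφ)⟩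
      mem_S := fun ℓ hℓ h => by
        rcases h with rfl | h | h
        · exact hmemS 2 hℓ h2Δ
        · exact hmemS ℓ hℓ ((Int.natCast_dvd_natCast.mpr h).trans hDΔ)
        · exact (Finset.mem_filter.mp h).1 }
  exact ⟨WittFour, inferInstance, inferInstance, inferInstance, inferInstance, inferInstance,
    inferInstance, inferInstance, exists_cube_root, P, fun ℓ _ _ => rfl⟩

/-- **`SwitchModular`** from the pair of the curve, the final step and the square step. -/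
theorem switchModular_of_final (hpair : CurvePair) (hfinal : FinalStep) (hsq : SquareInput) :
    Fermat.Agent.Route.SwitchModular :=
  switchModular_of (curvePoint_of hpair) (liftingTwo_of hfinal) hsq

end Fermat.Agent.TwoAdic.TopDown

end
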