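import Fermat.Agent.TwoAdic.Route.BaseSetup
import Fermat.Agent.TwoAdic.Geometry.CubeSocle
import Fermat.Agent.TwoAdic.Selmer.Scalar

/-!
# Auxiliary primes and trace conditions of the base setup

For a prime given by the residual eigen system (`baseEigen`): Ihara primes at every level, the
traces at chosen Galois elements, and the condition of the residual cube at a prime whose Frobenius
is a transposition.
-/

set_option autoImplicit false

noncomputable section

open IsLocalRing GaloisRep Fermat.Agent.DefRing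
open Fermat.Agent.HeckeModule Fermat.Agent.HeckeJ0 Fermat.Agent.LevelRaising

namespace Fermat.Agent.TwoAdic.TopDown

local notation "Ω" => AlgebraicClosure ℚ

variable {O : Type} [CommRing O] [IsLocalRing O] [CharP (ResidueField O) 2] {D : ℕ}
  {r : MRep (ResidueField O)} {Sm R : Finset ℕ} {t : ℕ → O}

section Ihara

variable {S : Set ℕ} {m : Ideal (AwayPoly O S)}

omit [IsLocalRing O] [CharP (ResidueField O) 2] in
/-- An element `C a` with `a` a unit is not in a prime. -/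
theorem C_notMem_of_isUnit [m.IsPrime] {a : O} (ha : IsUnit a) :
    (MvPolynomial.C a : AwayPoly O S) ∉ m := fun h =>
  Ideal.IsPrime.ne_top ‹_› (Ideal.eq_top_of_isUnit_mem _ h (ha.map _))

/-- **Ihara primes at every level**, from the residual eigen system. -/
theorem exists_iharaPrimes_base [m.IsPrime] (hS : S.Finite) (hdih : IsDihedralResidual D r)
    (hD : 0 < D) (hcont : IsCont r) (hmod : IsResiduallyModular D r Sm)
    (hm : ∀ (l : AwayIndex S) (o : O), MvPolynomial.X l - MvPolynomial.C o ∈ m ↔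
      baseEigen r R t ((l : Nat.Primes) : ℕ) = residue O o)
    {M : ℕ} (hM : M ≠ 0) (q : ℕ) : Nonempty (IharaPrimes (awayMonoid m) M q 2) := by
  classical
  obtain ⟨ℓ, hℓ, hbad, h1, A, hA, φ, hφ, htr⟩ := exists_prime_one_mod hdih hD hcont hM
    (hS.toFinset ∪ Sm ∪ R ∪ {2, q} ∪ Finset.range (M + 1))
  simp only [Finset.mem_union, Finset.mem_insert, Finset.mem_singleton, Finset.mem_range,
    Set.Finite.mem_toFinset, not_or] at hbad
  obtain ⟨⟨⟨⟨hℓS, hℓm⟩, hℓR⟩, hℓ2, hℓq⟩, hℓM⟩ := hbad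
  have : Fact ℓ.Prime := ⟨hℓ⟩
  have hX : awayX O hℓ hℓS - MvPolynomial.C (1 : O) ∈ m := by
    rw [awayX, hm ⟨⟨ℓ, hℓ⟩, hℓS⟩, baseEigen, if_neg hℓR, residualEigen_of_ne r hℓ2,
      residualTrace_eq hmod hℓ hℓm hA hφ, htr, map_one]
  have hl1 : ((ℓ : O) + 1) ∈ maximalIdeal O := by
    obtain ⟨j, hj⟩ := (hℓ.odd_of_ne_two hℓ2)
    rw [← residue_eq_zero_iff, map_add, map_natCast, map_one, hj]
    push_cast
    linear_combination ((j : ResidueField O) + 1) * (CharTwo.two_eq_zero (R := ResidueField O))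
  refine ⟨{ ℓ := ℓ, r := ℓ, lt := by omega, ne_p := hℓ2, ne_q := hℓq, ne_two := hℓ2,
            r_eq := h1, ihara_mem := ?_, eisen_mem := eisen_mem_awayMonoid hℓS fun h => ?_ }⟩
  · refine ⟨awayX O hℓ hℓS ^ 2 - MvPolynomial.C (((ℓ : O) + 1) ^ 2), fun h => ?_, ?_⟩
    · refine C_notMem_of_isUnit (m := m) (isUnit_one_sub_self_of_mem_nonunits (((ℓ : O) + 1) ^ 2)
        (Ideal.pow_mem_of_mem _ hl1 2 two_pos)) ?_
      have h2 := Ideal.sub_mem _ h (Ideal.mul_mem_right (awayX O hℓ hℓS + MvPolynomial.C 1) _ hX)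
      convert h2 using 1
      simp only [map_sub, map_pow, map_one]
      ring
    · show awayIncl O _ _ = _
      rw [map_sub, map_pow, awayX, awayIncl_X, ← MvPolynomial.algebraMap_eq, AlgHom.commutes]
      rfl
  · refine C_notMem_of_isUnit (m := m) (isUnit_one_sub_self_of_mem_nonunits _ hl1) ?_
    convert Ideal.sub_mem _ h hX using 1
    simp only [map_sub, map_add, map_one, map_natCast]
    ring

end Ihara

section Trace

variable (T : ALSetup O)

/-- The traces of the base setup at a Galois element which is nowhere a Frobenius element of `2`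
or of the core primes outside `S`. -/
theorem traceAt_base (hcont : IsCont r) (hmod : IsResiduallyModular D r Sm)
    (hm : ∀ (l : AwayIndex T.S) (o : O), MvPolynomial.X l - MvPolynomial.C o ∈ T.m ↔
      baseEigen r R t ((l : Nat.Primes) : ℕ) = residue O o)
    (hSm : ∀ ℓ ∈ Sm, ℓ.Prime → ℓ ≠ 2 → ℓ ∈ T.S) {σ : GQ} {c : O}
    (htr : (r σ).trace = residue O c) {p : ℕ} (hp : p.Prime) {ζ : Ω}
    (hζ : IsPrimitiveRoot ζ p) (hne : ∀ e ∈ insert 2 R, e ≠ p ∧ σ ζ ≠ ζ ^ e) :
    T.TraceAt σ c := by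
  classical
  obtain ⟨L, hL, hL1⟩ := Selmer.exists_level hcont
  let Z : IntermediateField ℚ Ω := IntermediateField.adjoin ℚ {ζ}
  have : FiniteDimensional ℚ Z := IntermediateField.adjoin.finiteDimensional
    ((hζ.isIntegral hp.pos).tower_top)
  refine ⟨L ⊔ Z, inferInstance, fun l hl hS B hB φ hφ hagree => ?_⟩
  have hlR : l ∉ insert 2 R := fun he => by
    obtain ⟨hep, hσ⟩ := hne l he
    refine hσ ?_
    rw [← hagree ζ (le_sup_right (α := IntermediateField ℚ Ω)
      (IntermediateField.mem_adjoin_simple_self ℚ ζ))]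
    exact TameInertia.frobenius_root_of_unity hl hB hφ
      (fun h => hep ((Nat.prime_dvd_prime_iff_eq hl hp).mp h)) hζ.pow_eq_one
  rw [Finset.mem_insert, not_or] at hlR
  rw [awayX, hm ⟨⟨l, hl⟩, hS⟩, baseEigen, if_neg hlR.2, residualEigen_of_ne r hlR.1,
    residualTrace_eq hmod hl (fun h => hS (hSm l h hl hlR.1)) hB hφ]
  rw [← htr]
  refine congrArg Matrix.trace ?_
  have h1 := hL1 (σ⁻¹ * φ) ((IntermediateField.mem_fixingSubgroup_iff L _).mpr fun x hx => by
    rw [AlgEquiv.mul_apply, hagree x (le_sup_left (α := IntermediateField ℚ Ω) hx)]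
    exact σ.symm_apply_apply x)
  show r φ = r σ
  rw [← mul_one (r σ), ← h1, ← map_mul, mul_inv_cancel_left]

/-- **The trace condition of the residual cube** at a prime with transposition Frobenius. -/
theorem exists_traceAt_cube (hdih : IsDihedralResidual D r) (hD : 0 < D) (hcont : IsCont r)
    (hmod : IsResiduallyModular D r Sm)
    (hm : ∀ (l : AwayIndex T.S) (o : O), MvPolynomial.X l - MvPolynomial.C o ∈ T.m ↔
      baseEigen r R t ((l : Nat.Primes) : ℕ) = residue O o)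
    (hSm : ∀ ℓ ∈ Sm, ℓ.Prime → ℓ ≠ 2 → ℓ ∈ T.S) (hR : ∀ e ∈ R, 2 ≤ e) {a : ℕ} (ha : a.Prime)
    {P : ValuationSubring Ω} (hP : P.LiesOverPrime a) {φ : GQ} (hφ : P.IsFrobeniusAt φ a)
    (htr : (r φ).trace = 0) (hne1 : r φ ≠ 1) :
    ∃ g : GQ, T.TraceAt φ⁻¹ 0 ∧ T.TraceAt g 1 ∧ T.TraceAt (g * φ⁻¹) 0 := by
  classical
  obtain ⟨p, hbig, hp⟩ := Nat.exists_infinite_primes ((∑ e ∈ insert 2 R, a * e) + a + 2)
  have : NeZero p := ⟨hp.ne_zero⟩
  obtain ⟨ζ, hζ⟩ := HasEnoughRootsOfUnity.exists_primitiveRoot Ω p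
  obtain ⟨ℓ, hℓ, hℓp, h1, A, hA, g, hg, hgtr⟩ := exists_prime_one_mod hdih hD hcont hp.ne_zero {p}
  have hgζ : g ζ = ζ := by
    rw [TameInertia.frobenius_root_of_unity hℓ hA hg (fun h => hℓp (Finset.mem_singleton.mpr
      ((Nat.prime_dvd_prime_iff_eq hℓ hp).mp h))) hζ.pow_eq_one]
    conv_rhs => rw [← pow_one ζ]
    rw [(hζ.isOfFinOrder hp.ne_zero).pow_eq_pow_iff_modEq, ← hζ.eq_orderOf,
      ← ZMod.natCast_eq_natCast_iff, h1, Nat.cast_one]
  have hφζ : φ ζ = ζ ^ a := TameInertia.frobenius_root_of_unity ha hP hφ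
    (fun h => by have := (Nat.prime_dvd_prime_iff_eq ha hp).mp h; omega) hζ.pow_eq_one
  have hle : ∀ e ∈ insert 2 R, 2 ≤ e ∧ a * e < p ∧ e < p := fun e he => by
    have h2 : 2 ≤ e := (Finset.mem_insert.mp he).elim (fun h => h.ge) (hR e)
    have := Finset.single_le_sum (f := fun e => a * e) (fun _ _ => Nat.zero_le _) he
    have := Nat.le_mul_of_pos_left e ha.pos
    exact ⟨h2, by omega, by omega⟩
  have hinv : ∀ e ∈ insert 2 R, φ⁻¹ ζ ≠ ζ ^ e := fun e he h => by
    obtain ⟨h2, hae, -⟩ := hle e he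
    have h' : ζ ^ 1 = ζ ^ (a * e) := by
      rw [pow_one, pow_mul, ← hφζ, ← map_pow, ← h]
      exact (φ.apply_symm_apply ζ).symm
    have := hζ.pow_inj hp.one_lt hae h'
    have := Nat.mul_le_mul ha.one_lt.le h2
    omega
  have hg' : ¬ Selmer.IsTransp r g := fun h => by
    have := h.1; rw [hgtr] at this; exact one_ne_zero this
  have hφT : Selmer.IsTransp r φ⁻¹ := by
    have e : r φ⁻¹ = r φ := by
      calc r φ⁻¹ = r φ * r φ * r φ⁻¹ := by rw [Selmer.transp_sq hdih ⟨htr, hne1⟩, one_mul]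
        _ = r φ := by rw [mul_assoc, Selmer.r_mul_inv, mul_one]
    exact ⟨by rw [e]; exact htr, by rw [e]; exact hne1⟩
  refine ⟨g, traceAt_base T hcont hmod hm hSm (by rw [hφT.1, map_zero]) hp hζ fun e he =>
      ⟨(hle e he).2.2.ne, hinv e he⟩,
    traceAt_base T hcont hmod hm hSm (by rw [hgtr, map_one]) hp hζ fun e he => ?_,
    traceAt_base T hcont hmod hm hSm ?_ hp hζ fun e he => ?_⟩
  · refine ⟨(hle e he).2.2.ne, fun h => ?_⟩
    have := hζ.pow_inj hp.one_lt (hle e he).2.2 (by rw [pow_one, ← h, hgζ])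
    have := (hle e he).1
    omega
  · rw [map_zero]
    exact ((Selmer.transp_mul_iff hdih g φ⁻¹).mpr (by tauto)).1
  · refine ⟨(hle e he).2.2.ne, fun h => hinv e he ?_⟩
    obtain ⟨i, -, hi⟩ := hζ.eq_pow_of_pow_eq_one
      (show φ⁻¹ ζ ^ p = 1 by rw [← map_pow, hζ.pow_eq_one, map_one])
    rwa [AlgEquiv.mul_apply, ← hi, map_pow, hgζ, hi] at h

omit [CharP (ResidueField O) 2] in
/-- Frobenius elements with transposition image exist at the primes dividing `D`. -/
theorem exists_frobenius_transp {k : Type} [Field k] [CharP k 2] {r : MRep k}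
    (hdih : IsDihedralResidual D r) (hD : Squarefree D) (hodd : Odd D) {a : ℕ} (ha : a.Prime)
    (haD : a ∣ D) {P : ValuationSubring Ω} (hP : P.LiesOverPrime a) :
    ∃ φ : GQ, P.IsFrobeniusAt φ a ∧ (r φ).trace = 0 ∧ r φ ≠ 1 := by
  obtain ⟨τ, hτ⟩ := TameInertia.exists_tameGenerator (p := 2) Nat.prime_two ha
    (fun h => (Nat.not_even_iff_odd.mpr hodd) (even_iff_two_dvd.mpr (h ▸ haD))) hP
  obtain ⟨hT, -, hdec⟩ := Selmer.inertia_image hdih hD hodd ha haD hP hτ
  obtain ⟨φ, hφ⟩ := Frobenius.exists_isFrobeniusAt_qbar ha hP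
  rcases hdec φ hφ.mem_decompositionSubgroup with h | h
  · refine ⟨φ * τ, Selmer.frobenius_mul_inertia hφ hτ.1, ?_, ?_⟩ <;> rw [map_mul, h, one_mul]
    exacts [hT.1, hT.2]
  · exact ⟨φ, hφ, by rw [h]; exact hT.1, by rw [h]; exact hT.2⟩

end Trace

end Fermat.Agent.TwoAdic.TopDown

end
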