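import Fermat.Agent.TwoAdic.Route.FinalInputs
import Fermat.Agent.TwoAdic.TSide.PairProducer

/-!
# The final step from its parts

The base package gives a finite free ring of pairs, hence a point over a finite extension; over that
extension the step at the squares applies to the point, and occurrence descends.
-/

set_option autoImplicit false

noncomputable section

open IsLocalRing GaloisRep Fermat.Agent.DefRing Fermat.Agent.Deform
open Fermat.Agent.HeckeModule Fermat.Agent.HeckeJ0 Fermat.Agent.LevelRaising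

namespace Fermat.Agent.TwoAdic.TopDown

open C0 (HeckeImage)

attribute [local instance] ALSetup.isPrime Module.quotientAnnihilator

/-- The doubling passes to larger residue fields. -/
theorem HasDoubling.extend {k k' : Type} [Field k] [Field k'] (φ : k →+* k') {D : ℕ} {r : MRep k}
    {S : Finset ℕ} (h : HasDoubling D r S) : HasDoubling D (mapRep φ r) S := by
  obtain ⟨ψ, h1, h2, h3, h4⟩ := h
  refine ⟨ψ, h1, h2, h3, fun l hl hl2 hlD => ?_⟩
  obtain ⟨m, hm, htr⟩ := h4 l hl hl2 hlD
  exact ⟨m, hm, fun P hP σ hσ => by rw [trace_mapRep, htr P hP σ hσ, map_intCast]⟩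

/-- Clearing the nilpotents keeps torsion-freeness. -/
theorem smul_eq_zero_quotient_nilradical {O C : Type} [CommRing O] [IsDomain O] [CommRing C]
    [Algebra O C] [Module.IsTorsionFree O C] (o : O) (x : C ⧸ nilradical C) (ho : o ≠ 0)
    (hx : algebraMap O (C ⧸ nilradical C) o * x = 0) : x = 0 := by
  obtain ⟨y, rfl⟩ := Ideal.Quotient.mk_surjective x
  rw [show algebraMap O (C ⧸ nilradical C) o = Ideal.Quotient.mk _ (algebraMap O C o) from rfl,
    ← map_mul, Ideal.Quotient.eq_zero_iff_mem, mem_nilradical] at hx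
  obtain ⟨n, hn⟩ := hx
  refine Ideal.Quotient.eq_zero_iff_mem.mpr (mem_nilradical.mpr ⟨n, ?_⟩)
  rw [mul_pow, ← map_pow, ← Algebra.smul_def] at hn
  exact (smul_eq_zero.mp hn).resolve_left (pow_ne_zero n ho)

/-- A point of a finite free local algebra in a finite extension. -/
theorem exists_point_of_finiteCI {O : Type} [CommRing O] [IsDomain O] [IsDiscreteValuationRing O]
    [IsAdicComplete (maximalIdeal O) O] [Finite (ResidueField O)] [CharP (ResidueField O) 2]
    [CharZero O] (hz : ∃ z : ResidueField O, z * z + z + 1 = 0) (C : Type) [CommRing C]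
    [Algebra O C] [Module.Finite O C] [Module.Free O C] [Nontrivial C] :
    ∃ (O' : Type) (_ : CommRing O') (_ : IsDomain O') (_ : IsDiscreteValuationRing O')
      (_ : IsAdicComplete (maximalIdeal O') O') (_ : Finite (ResidueField O'))
      (_ : CharP (ResidueField O') 2) (_ : CharZero O')
      (_ : Algebra O O') (_ : Module.Finite O O') (_ : IsLocalHom (algebraMap O O')),
      Function.Injective (algebraMap O O') ∧
        (∃ z : ResidueField O', z * z + z + 1 = 0) ∧ Nonempty (C →ₐ[O] O') := by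
  have : Nontrivial (C ⧸ nilradical C) := Ideal.Quotient.nontrivial_iff.mpr fun h => by
    have h1 : (1 : C) ∈ nilradical C := h ▸ Submodule.mem_top
    exact not_isNilpotent_one (mem_nilradical.mp h1)
  have : IsReduced (C ⧸ nilradical C) :=
    (Ideal.isRadical_iff_quotient_reduced _).mp (Ideal.radical_isRadical _)
  obtain ⟨O', i1, i2, i3, i4, i5, i6, i7, i8, i9, i10, hinj, hz', ⟨θ⟩⟩ :=
    Final.exists_point_extension O hz (C ⧸ nilradical C)
      (fun o x ho hx => smul_eq_zero_quotient_nilradical o x ho hx)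
  exact ⟨O', i1, i2, i3, i4, i5, i6, i7, i8, i9, i10, hinj, hz',
    ⟨θ.comp (Ideal.Quotient.mkₐ O _)⟩⟩

/-- **The final step** from the base package, the step at the squares and the change of
coefficient ring at a point. -/
theorem finalStep_of (hbase : BasePackage) (hsq : SquareStep) (hext : PointExtend) : FinalStep := by
  intro O _ _ _ _ _ _ _ hz E res W S haux hℓ₀ hdih hcont hmod hdbl hW hS h U
  classical
  have : Fact (Nat.Prime 2) := ⟨Nat.prime_two⟩
  obtain ⟨A2, hA2⟩ := Frobenius.exists_liesOverPrime (AlgebraicClosure ℚ) Nat.prime_two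
  obtain ⟨K⟩ := Pair.nonempty_kummerPair hA2
  have hSm : ∀ l : ℕ, l.Prime → (l = 2 ∨ l ∣ E.D) → l ∈ S := fun l hl h' =>
    hS l hl (h'.elim Or.inl fun hd => Or.inr (Or.inl hd))
  obtain ⟨A, hA, R, t, T, H, hlow, h0, U₀, α, φ, hB⟩ :=
    hbase O hz E res S haux hℓ₀ hdih hcont hmod hdbl hSm K
  obtain ⟨hfin, hfree, -⟩ := hB.ci
  have := hB.isLocal
  have := hfin
  have := hfree
  obtain ⟨O', _, _, _, _, _, _, _, _, _, _, hinj, hz', ⟨θ'⟩⟩ :=
    exists_point_of_finiteCI hz (HeckeImage O (baseSigned H.baseV_subset H.χ_eq hlow))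
  set f := algebraMap O O'
  set φ' := ResidueField.map f
  obtain ⟨A', hA', R', t', T', H', hlow', h0', U₀', α', φ₁, hB'⟩ :=
    hbase O' hz' E (res.extend f) S haux hℓ₀ (hdih.extend φ') (hcont.map φ' inferInstance)
      (hmod.extend φ') (hdbl.extend φ') hSm K
  have hpt := hext O O' res E _ h0 U₀ h0' U₀' (θ'.comp φ)
  refine ⟨prodOf R', baseBad (E.withAux A' hA') S R', ?_, ?_, ?_, ?_, fun θ a hθ => ?_⟩
  · have hDR : ∀ q ∈ R', ¬ q ∣ 2 * E.D := fun q hq => (H'.corePrimes.fresh q hq).2.1
    have hp : Squarefree (prodOf R') := TSide.squarefree_prodOf H'.corePrimes.prime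
    refine Nat.squarefree_mul_iff.mpr ⟨?_, ?_, hp⟩
    · exact Nat.Coprime.prod_right fun q hq => ((H'.corePrimes.prime q hq).coprime_iff_not_dvd.mpr
        (hDR q hq)).symm
    · refine Nat.squarefree_mul_iff.mpr ⟨?_, Nat.prime_two.squarefree, E.squarefree⟩
      exact Nat.prime_two.coprime_iff_not_dvd.mpr fun h2 => by have := E.mod_eight; omega
  · intro w hw hd
    obtain ⟨q, hq, hwq⟩ := ((Nat.prime_iff.mp (hW w hw).1).dvd_finsetProd_iff _).mp hd
    obtain rfl := (Nat.prime_dvd_prime_iff_eq (hW w hw).1 (H'.corePrimes.prime q hq)).mp hwq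
    exact (H'.corePrimes.fresh _ hq).1 (hS _ (hW _ hw).1 (Or.inr (Or.inr hw)))
  · exact fun x hx => Finset.mem_union_left _ (Finset.mem_union_left _ (Finset.mem_union_left _ hx))
  · intro ℓ hℓ hd
    obtain ⟨q, hq, hlq⟩ := ((Nat.prime_iff.mp hℓ).dvd_finsetProd_iff _).mp hd
    obtain rfl := (Nat.prime_dvd_prime_iff_eq hℓ (H'.corePrimes.prime q hq)).mp hlq
    exact Finset.mem_union_left _ (Finset.mem_union_right _ hq)
  · have hC : Pair.IsInertialSet (∅ : Set (GQ × GQ)) := fun x hx =>
      absurd hx (Set.notMem_empty x)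
    have h' : Pair.IsResidualPair (res.extend f) E W ∅ := Final.isResidualPair_extend f hC hdih
      (fun q hq => absurd hq (by rw [haux]; exact Finset.notMem_empty q)) hcont
    obtain ⟨U'⟩ := Pair.nonempty_universal h'
    obtain ⟨θ'', -, hθ''⟩ := Final.exists_point_extend f U U' θ
    have hocc := hsq O' hz' E (res.extend f) S W haux
      (fun w hw => ⟨(hW w hw).1, (hW w hw).2.1, (hW w hw).2.2,
        hS w (hW w hw).1 (Or.inr (Or.inr hw))⟩)
      K A' hA' R' t' T' H' hlow' h0' U₀' α' φ₁ hB' hpt h' U' θ'' (fun ℓ => f (a ℓ))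
      (fun ℓ hℓ hℓS P hP σ hσ => by rw [hθ'' σ, hθ ℓ hℓ hℓS P hP σ hσ])
    have : NeZero (2 * E.D * prodOf R' * ∏ w ∈ W, w * w) := ⟨mul_ne_zero (mul_ne_zero
      (mul_ne_zero two_ne_zero fun h0 => by have := E.mod_eight; omega)
      (Finset.prod_ne_zero_iff.mpr fun q hq => (H'.corePrimes.prime q hq).ne_zero))
      (Finset.prod_ne_zero_iff.mpr fun w hw => mul_ne_zero (hW w hw).1.ne_zero (hW w hw).1.ne_zero)⟩
    exact Final.occurs_descend_fractionRing f hinj hocc

end Fermat.Agent.TwoAdic.TopDown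

end
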