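import Mathlib

/-!
# Torsion-free quotients of reduced integral algebras are reduced
-/

set_option autoImplicit false

namespace Fermat.Agent.TwoAdic.TopDown

/-- A torsion-free image of a reduced algebra, integral over a domain, is reduced. -/
theorem isReduced_of_surjective_integral {O A B : Type} [CommRing O] [IsDomain O] [CommRing A]
    [Algebra O A] [Algebra.IsIntegral O A] [IsReduced A] [CommRing B] [Algebra O B]
    [Module.IsTorsionFree O B] (f : A →ₐ[O] B) (hf : Function.Surjective f) : IsReduced B := by
  refine (isReduced_iff_pow_one_lt 2 one_lt_two).mpr fun b hb => ?_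
  obtain ⟨a, rfl⟩ := hf b
  obtain ⟨p, hp, hpa⟩ := Algebra.IsIntegral.isIntegral (R := O) a
  obtain ⟨q, hpq, hq⟩ := Polynomial.exists_eq_pow_rootMultiplicity_mul_and_not_dvd p hp.ne_zero 0
  rw [Polynomial.C_0, sub_zero] at hpq hq
  rw [Polynomial.X_dvd_iff] at hq
  set k := Polynomial.rootMultiplicity 0 p
  have h0 : a ^ k * Polynomial.aeval a q = 0 := by
    have : Polynomial.aeval a p = 0 := hpa
    rwa [hpq, map_mul, map_pow, Polynomial.aeval_X] at this
  have h1 : a * Polynomial.aeval a q = 0 := by
    refine IsReduced.eq_zero _ ⟨k + 1, ?_⟩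
    linear_combination (Polynomial.aeval a q ^ k * a) * h0
  have h2 := congrArg f h1
  rw [map_mul, map_zero, ← Polynomial.aeval_algHom_apply, ← Polynomial.X_mul_divX_add q, map_add,
    map_mul, Polynomial.aeval_X, Polynomial.aeval_C, mul_add, ← mul_assoc, ← pow_two, hb, zero_mul,
    zero_add, mul_comm, ← Algebra.smul_def] at h2
  exact (smul_eq_zero.mp h2).resolve_left hq

end Fermat.Agent.TwoAdic.TopDown
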