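import Fermat.Agent.TwoAdic.Route.BasePrimes
import Fermat.Agent.TwoAdic.Route.Lift
import Fermat.Agent.TwoAdic.TopKeyed
import Fermat.Agent.TwoAdic.Descend.Assembled
import Fermat.Agent.TwoAdic.C0.Transfer
import Fermat.Agent.TwoAdic.Scalar.FinalSetup

/-!
# The setting of the final step

The base setups used in the final step, the stages of the descent on them, and the shapes of the
facts about them that the final step combines.
-/

set_option autoImplicit false
-- the section variables are kept so that the statements share one signature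
set_option linter.unusedSectionVars false

noncomputable section

open IsLocalRing GaloisRep Fermat.Agent.DefRing Fermat.Agent.Deform
open Fermat.Agent.HeckeModule Fermat.Agent.HeckeJ0 Fermat.Agent.LevelRaising

namespace Fermat.Agent.TwoAdic.TopDown

attribute [local instance] ALSetup.isPrime Module.quotientAnnihilator

variable {O : Type} [CommRing O] [IsDomain O] [IsDiscreteValuationRing O]
  [IsAdicComplete (maximalIdeal O) O] [Finite (ResidueField O)] [CharP (ResidueField O) 2]

/-- The signed primes at the end of the descent. -/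
abbrev baseV (E : LiftData) : Finset ℕ := E.D.primeFactors.erase E.ℓ₀

/-- The primes at which nothing is asked of the traces. -/
abbrev baseBad (E : LiftData) (Sm R : Finset ℕ) : Finset ℕ := Sm ∪ E.aux ∪ R ∪ {2}

/-- A setup of the final step: core `ℓ₀ ∏ R`, involutions at `(D ∖ ℓ₀) ∪ aux`, the residual eigen
system. -/
structure IsBaseSetting (E : LiftData) (res : NormalData O) (Sm R : Finset ℕ) (t : ℕ → O)
    (T : ALSetup O) : Prop where
  hz : ∃ z : ResidueField O, z * z + z + 1 = 0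
  dihedral : IsDihedralResidual E.D res.rbar
  cont : IsCont res.rbar
  modular : IsResiduallyModular E.D res.rbar Sm
  doubling : HasDoubling E.D res.rbar Sm
  ℓ₀_mod : E.ℓ₀ % 4 = 3
  mem_Sm : ∀ l : ℕ, l.Prime → (l = 2 ∨ l ∣ E.D) → l ∈ Sm
  aux_fresh : ∀ q ∈ E.aux, q ∉ Sm
  aux_trace : ∀ q ∈ E.aux, ∀ P : ValuationSubring (AlgebraicClosure ℚ), P.LiesOverPrime q →
    ∀ φ : GQ, P.IsFrobeniusAt φ q → (res.rbar φ).trace = 0 ∧ res.rbar φ ≠ 1
  corePrimes : CorePrimes E res.rbar R Sm
  root : ∀ q ∈ R, residue O (t q) * residue O (t q) + residue O (t q) + 1 = 0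
  core_eq : T.core = E.ℓ₀ * prodOf R
  M_eq : T.M = 1
  W_eq : T.W = baseV E ∪ E.aux
  χ_eq : T.χ = 1
  c_eq : ∀ e, T.c e = -(E.sgn e : O)
  S_eq : T.S = ↑(Sm.erase 2 ∪ E.aux)
  mem_iff : ∀ (l : AwayIndex T.S) (o : O), MvPolynomial.X l - MvPolynomial.C o ∈ T.m ↔
    baseEigen res.rbar R t ((l : Nat.Primes) : ℕ) = residue O o

namespace IsBaseSetting

variable {E : LiftData} {res : NormalData O} {Sm R : Finset ℕ} {t : ℕ → O} {T : ALSetup O}
  (H : IsBaseSetting E res Sm R t T)
include H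

theorem subset_W : baseV E ∪ E.aux ⊆ T.W := H.W_eq.ge

theorem baseV_subset : baseV E ⊆ T.W := Finset.subset_union_left.trans H.subset_W

theorem finite_S : T.S.Finite := H.S_eq ▸ Finset.finite_toSet _

theorem two_notMem : 2 ∉ T.S := by
  rw [H.S_eq, Finset.mem_coe, Finset.mem_union, Finset.mem_erase]
  exact fun h => h.elim (fun h => h.1 rfl) fun h => (E.aux_spec 2 h).2.1 rfl

theorem two_notMem_R : 2 ∉ R := fun h => absurd (H.corePrimes.mod_four 2 h) (by norm_num)

theorem D_pos : 0 < E.D := by have := E.mod_eight; omega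

theorem two_notDvd_D : ¬ 2 ∣ E.D := by have := E.mod_eight; omega

theorem two_notDvd_core : ¬ 2 ∣ T.core := by
  rw [H.core_eq]
  intro h
  rcases Nat.prime_two.dvd_mul.mp h with h | h
  · exact H.two_notDvd_D (h.trans E.dvd_ℓ₀)
  · obtain ⟨q, hq, h2⟩ := ((Nat.prime_iff.mp Nat.prime_two).dvd_finsetProd_iff _).mp h
    exact H.two_notMem_R
      ((Nat.prime_dvd_prime_iff_eq Nat.prime_two (H.corePrimes.prime q hq)).mp h2 ▸ hq)

theorem Sm_mem_S {l : ℕ} (hl : l ∈ Sm) (hl2 : l ≠ 2) : l ∈ T.S := by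
  rw [H.S_eq, Finset.mem_coe, Finset.mem_union, Finset.mem_erase]
  exact Or.inl ⟨hl2, hl⟩

theorem S_subset_bad : T.S ⊆ ↑(baseBad E Sm R) := by
  intro x hx
  rw [H.S_eq, Finset.mem_coe, Finset.mem_union, Finset.mem_erase] at hx
  simp only [Finset.mem_coe, Finset.mem_union, Finset.mem_singleton]
  tauto

theorem primeFactors_level_subset : (T.level T.W).primeFactors ⊆ baseBad E Sm R := by
  intro x hx
  obtain ⟨hxp, hxd, -⟩ := Nat.mem_primeFactors.mp hx
  simp only [Finset.mem_union, Finset.mem_singleton]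
  rcases hxp.dvd_mul.mp hxd with h | h
  · rw [H.core_eq] at h
    rcases hxp.dvd_mul.mp h with h | h
    · exact Or.inl (Or.inl (Or.inl (H.mem_Sm x hxp (Or.inr (h.trans E.dvd_ℓ₀)))))
    · obtain ⟨q, hq, hd⟩ := ((Nat.prime_iff.mp hxp).dvd_finsetProd_iff _).mp h
      exact Or.inl (Or.inr ((Nat.prime_dvd_prime_iff_eq hxp (H.corePrimes.prime q hq)).mp hd ▸ hq))
  · obtain ⟨q, hq, hd⟩ := ((Nat.prime_iff.mp hxp).dvd_finsetProd_iff _).mp h
    obtain rfl := (Nat.prime_dvd_prime_iff_eq hxp (T.prime q hq)).mp hd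
    rw [H.W_eq, Finset.mem_union] at hq
    rcases hq with hq | hq
    · exact Or.inl (Or.inl (Or.inl (H.mem_Sm x hxp
        (Or.inr (Nat.dvd_of_mem_primeFactors (Finset.mem_of_mem_erase hq))))))
    · exact Or.inl (Or.inl (Or.inr hq))

theorem trace_mem (l : AwayIndex T.S) (hl : ((l : Nat.Primes) : ℕ) ∉ baseBad E Sm R)
    (P : ValuationSubring (AlgebraicClosure ℚ)) (hP : P.LiesOverPrime ((l : Nat.Primes) : ℕ))
    (φ : GQ) (hφ : P.IsFrobeniusAt φ ((l : Nat.Primes) : ℕ)) (o : O)
    (ho : residue O o = (res.rbar φ).trace) : MvPolynomial.X l - MvPolynomial.C o ∈ T.m :=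
  base_mem H.modular H.mem_iff (baseBad E Sm R) (fun x hx => by
    simp only [Finset.mem_union, Finset.mem_singleton] at hx ⊢; tauto) l hl P hP φ hφ o ho

theorem two_mem :
    MvPolynomial.X (@inIndex 2 ⟨Nat.prime_two⟩ T.S H.two_notMem) - MvPolynomial.C 1 ∈ T.m :=
  base_two_mem H.mem_iff H.two_notMem_R _ rfl 1 (map_one _)

theorem sgn_eq (q : ℕ) : (E.sgn q : O) = -T.c q := by rw [H.c_eq, neg_neg]

theorem nonempty_ihara {M : ℕ} (hM : M ≠ 0) (q : ℕ) :
    Nonempty (IharaPrimes (awayMonoid T.m) M q 2) :=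
  exists_iharaPrimes_base H.finite_S H.dihedral H.D_pos H.cont H.modular H.mem_iff hM q

end IsBaseSetting

/-! ### Shapes of the facts -/

section Shapes

open Descend Pair

variable {E : LiftData} {res : NormalData O} {C : Set (GQ × GQ)} {T : ALSetup O} {V : Finset ℕ}
  {h : IsResidualPair res E ∅ C} (U : (pairFunctor h).UniversalPoint)

/-- Traces of Frobenius elements act as the Hecke operators away from `S₀`. -/
def HasTraces (hV : V ⊆ T.W) (B S₀ : Finset ℕ) [Module U.R (T.NewQuot O hV B)] : Prop :=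
  ∀ (l : ℕ) (hl : l.Prime) (hlS : l ∉ T.S), l ∉ S₀ →
    ∀ A : ValuationSubring (AlgebraicClosure ℚ), A.LiesOverPrime l → ∀ σ : GQ,
      A.IsFrobeniusAt σ l → ∀ y : T.NewQuot O hV B,
        Matrix.trace (uRep U σ) • y = T.newAct O hV B (awayX O hl hlS) y

/-- The unit root is a root of the polynomial of `U₂`. -/
def HasRoot (hV : V ⊆ T.W) (B : Finset ℕ) (h2 : 2 ∉ T.S) [Module U.R (T.NewQuot O hV B)] : Prop :=
  ∀ y : T.NewQuot O hV B,
    T.newAct O hV B (awayX O Nat.prime_two h2) (uRoot U • y) =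
      uRoot U • uRoot U • y + (2 : O) • y

end Shapes

end Fermat.Agent.TwoAdic.TopDown

end
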