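import Fermat.Agent.TwoAdic.Pair.Quotient

/-!
# From the ring free at a set of primes to the ring without free primes

The map of universal rings and the bound on the cotangent spaces at a point, with the set of free
primes written as it is rather than as a union with the empty set.
-/

set_option autoImplicit false

noncomputable section

open IsLocalRing GaloisRep Fermat.Agent.DefRing Fermat.Agent.Deform
open Fermat.Agent.TwoAdic Fermat.Agent.TwoAdic.Pair

namespace Fermat.Agent.TwoAdic.TopDown

variable {O : Type} [CommRing O] [IsDomain O] [IsDiscreteValuationRing O]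
  [IsAdicComplete (maximalIdeal O) O] [Finite (ResidueField O)] [CharP (ResidueField O) 2]
  [CharZero O]

omit [IsAdicComplete (maximalIdeal O) O] [CharZero O] in
/-- The map to the ring without free primes and the bound at a point. -/
theorem exists_square_map {D : NormalData O} {E : LiftData} {W : Finset ℕ} (K : KummerPair)
    {h : IsResidualPair D E W ∅} {h0 : IsResidualPair D E ∅ {(K.s, K.t)}}
    (U : (pairFunctor h).UniversalPoint) (V : (pairFunctor h0).UniversalPoint)
    (hr : IsDihedralResidual E.D D.rbar)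
    (hW : ∀ q ∈ W, q.Prime ∧ q ≠ 2 ∧ ¬ q ∣ E.D ∧ q ∉ E.aux)
    (P : ℕ → ValuationSubring (AlgebraicClosure ℚ)) (φ : ℕ → GQ)
    (hP : ∀ q ∈ W, (P q).LiesOverPrime q) (hφ : ∀ q ∈ W, (P q).IsFrobeniusAt (φ q) q) :
    ∃ f : U.R →ₐ[O] V.R, Function.Surjective f ∧ f (uRoot U) = uRoot V ∧
      (∀ σ, f (Matrix.trace (uRep U σ)) = Matrix.trace (uRep V σ)) ∧
      ∀ η : V.R →ₐ[O] O,
        Module.length U.R (RingHom.ker (η.comp f)).Cotangent ≤
          Module.length V.R (RingHom.ker η).Cotangent +
            (Ring.ord O (η (uRoot V) ^ 2 - 1) +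
              ∑ q ∈ W, Ring.ord O (Scalar.scalarFactor q (η (uRep V (φ q)).trace))) := by
  classical
  have : Fact (Nat.Prime 2) := ⟨Nat.prime_two⟩
  revert h U
  rw [← Finset.empty_union W]
  intro h U
  obtain ⟨f, hf, hfN, hfα, hker⟩ := Pair.exists_map K U V
    (fun q hq => ⟨(hW q hq).1, (hW q hq).2.1, (hW q hq).2.2.1, (hW q hq).2.2.2,
      Finset.notMem_empty q⟩) P hP
  refine ⟨f, hf, hfα, fun σ => ?_, fun η => ?_⟩
  · rw [← hfN, Matrix.trace_fin_two, Matrix.trace_fin_two, map_add]
    rfl
  · simp only [Finset.empty_union]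
    exact (Pair.length_cotangent_le K U V hr
      (fun q hq => ⟨(hW q hq).1, (hW q hq).2.1, (hW q hq).2.2.1, (hW q hq).2.2.2,
        Finset.notMem_empty q⟩) P φ hP hφ f hf hfN hfα hker.le η)

end Fermat.Agent.TwoAdic.TopDown

end
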