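import Fermat.Agent.TwoAdic.Route.FinalInputs
import Fermat.Agent.TwoAdic.Route.FinalReduced
import Fermat.Agent.TwoAdic.Route.FinalSquareMap
import Fermat.Agent.TwoAdic.Final.Span
import Fermat.Agent.TwoAdic.Final.Exit
import Fermat.Agent.TwoAdic.Scalar.Final

/-!
# The step at the squares

The criterion at the squares on the base ring, with the final ring at the level `2 N ∏ w²`: the
points of the ring of pairs free at `W` are points of the final ring, hence occur.
-/

set_option autoImplicit false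

noncomputable section

open IsLocalRing GaloisRep Fermat.Agent.DefRing Fermat.Agent.Deform
open Fermat.Agent.HeckeModule Fermat.Agent.HeckeJ0 Fermat.Agent.LevelRaising

namespace Fermat.Agent.TwoAdic.TopDown

open C0 (HeckeImage)

attribute [local instance] ALSetup.isPrime Module.quotientAnnihilator

variable {O : Type} [CommRing O] [IsDomain O] [IsDiscreteValuationRing O]
  [IsAdicComplete (maximalIdeal O) O] [Finite (ResidueField O)] [CharP (ResidueField O) 2]
  [CharZero O]

omit [IsAdicComplete (maximalIdeal O) O] [CharP (ResidueField O) 2] [CharZero O] in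
/-- A local algebra which is finite over `O` has a finite residue field. -/
theorem finite_residueField_of_moduleFinite (A : Type) [CommRing A] [IsLocalRing A] [Algebra O A]
    [Module.Finite O A] : Finite (ResidueField A) := by
  have : IsLocalHom (algebraMap O A) := by
    refine ⟨fun o ho => ?_⟩
    by_contra hn
    have hint : Algebra.IsIntegral O A := inferInstance
    have hcomap := Ideal.isMaximal_comap_of_isIntegral_of_isMaximal (R := O) (maximalIdeal A)
    have heq := IsLocalRing.eq_maximalIdeal hcomap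
    have : o ∈ (maximalIdeal A).comap (algebraMap O A) := heq ▸ (mem_maximalIdeal o).mpr hn
    exact (mem_maximalIdeal _).mp this ho
  exact Module.finite_of_finite (ResidueField O)

variable {E : LiftData} {res : NormalData O} {Sm W A R : Finset ℕ} {t : ℕ → O} {T : ALSetup O}
  {hA : ∀ q ∈ A, q.Prime ∧ q ≠ 2 ∧ ¬ q ∣ E.D}
  (H : IsBaseSetting (E.withAux A hA) res Sm R t T)

omit [IsAdicComplete (maximalIdeal O) O] [Finite (ResidueField O)] [CharP (ResidueField O) 2]
  [CharZero O] in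
include H in
/-- The base level. -/
theorem IsBaseSetting.level_baseV : T.level (baseV E) = E.D * prodOf R := by
  have hD0 : E.D ≠ 0 := by have := E.mod_eight; omega
  have h := Finset.mul_prod_erase _ id
    (Nat.mem_primeFactors.mpr ⟨E.prime_ℓ₀, E.dvd_ℓ₀, hD0⟩)
  rw [show (∏ x ∈ E.D.primeFactors, id x) = E.D from
    Nat.prod_primeFactors_of_squarefree E.squarefree] at h
  show T.core * prodOf (baseV E) = _
  rw [H.core_eq, mul_right_comm]
  exact congrArg (· * _) h

set_option linter.unusedSectionVars false in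
include H in
/-- The primes of the base level. -/
theorem IsBaseSetting.not_dvd_level {w : ℕ} (hw : w.Prime) (hwD : ¬ w ∣ E.D) (hwS : w ∈ Sm) :
    ¬ w ∣ T.level (baseV E) := fun hd => by
  rw [H.level_baseV] at hd
  rcases hw.dvd_mul.mp hd with hd | hd
  · exact hwD hd
  · obtain ⟨q, hq, hwq⟩ := ((Nat.prime_iff.mp hw).dvd_finsetProd_iff _).mp hd
    obtain rfl := (Nat.prime_dvd_prime_iff_eq hw (H.corePrimes.prime q hq)).mp hwq
    exact (H.corePrimes.fresh _ hq).1 hwS

variable {hlow : T.LowerVanish (baseV E)} {K : Pair.KummerPair}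
  {h0 : Pair.IsResidualPair res E ∅ {(K.s, K.t)}} (U₀ : (Pair.pairFunctor h0).UniversalPoint)
  {α : Module.End (HeckePoly O) (CohLoc (awayMonoid T.m) (oneRep O O (T.level (baseV E))))}
  {φ : U₀.R →ₐ[O] HeckeImage O (baseSigned H.baseV_subset H.χ_eq hlow)}

include H in
/-- **The step at the squares**, given the hypotheses at the final level and the values of the
points of the base ring at the primes of `W`. -/
theorem occurs_of_square
    (hB : IsBaseRing T H.baseV_subset H.χ_eq hlow U₀ (baseBad (E.withAux A hA) Sm R) α φ)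
    (haux : E.aux = ∅) (hW : ∀ w ∈ W, w.Prime ∧ w ≠ 2 ∧ ¬ w ∣ E.D ∧ w ∈ Sm)
    [(relaxIdeal T.m (T.S \ (↑W : Set ℕ)) fun _ => 0).IsPrime]
    (hW' : IsALPrimes (2 * (T.level (baseV E) * sqPow W)) (baseV E))
    (hWS' : ∀ e ∈ baseV E, e ∈ T.S \ (↑W : Set ℕ))
    (C' : Submodule (HeckePoly O) (CohLoc (awayMonoid (relaxIdeal T.m (T.S \ (↑W : Set ℕ)) fun _ =>
        0))
      (oneRep O O (2 * (T.level (baseV E) * sqPow W)))))
    (hC' : ∀ y, y ∈ C' ↔ ∀ e ∈ baseV E,
      alOneLoc O hW' T.c (isAway_awayMonoid _) hWS' e y = y)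
    [Module.Finite O C'] [Module.Free O C']
    [Module.Finite O (CohLoc (awayMonoid (relaxIdeal T.m (T.S \ (↑W : Set ℕ)) fun _ => 0))
      (oneRep O O (2 * (T.level (baseV E) * sqPow W))))]
    [Module.Free O (CohLoc (awayMonoid (relaxIdeal T.m (T.S \ (↑W : Set ℕ)) fun _ => 0))
      (oneRep O O (2 * (T.level (baseV E) * sqPow W))))]
    (hE : ExactHyp (awayMonoid (relaxIdeal T.m (T.S \ (↑W : Set ℕ)) fun _ => 0))
      (1 : (ZMod (2 * (T.level (baseV E) * sqPow W)))ˣ →* O))
    (hH : Final.FinalHyp res E W (T.level (baseV E) * sqPow W)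
      ((baseBad (E.withAux A hA) Sm R).erase 2)
      (relaxIdeal T.m (T.S \ (↑W : Set ℕ)) fun _ => 0))
    (hG : Final.GenHyp E W (T.level (baseV E) * sqPow W)
      (relaxIdeal T.m (T.S \ (↑W : Set ℕ)) fun _ => 0) C')
    (htheta : IsReduced (HeckeImage O (baseSigned H.baseV_subset H.χ_eq hlow)) →
      ∀ (θT : HeckeImage O (baseSigned H.baseV_subset H.χ_eq hlow) →ₐ[O] O) (w : ℕ)
        (hw : w.Prime), w ≠ 2 → ¬ w ∣ T.level (baseV E) →
        ∀ P : ValuationSubring (AlgebraicClosure ℚ), P.LiesOverPrime w →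
          ∀ σ : GQ, P.IsFrobeniusAt σ w →
            θT (φ (Matrix.trace (Pair.uRep U₀ σ))) =
              θT (Ideal.Quotient.mk _ (MvPolynomial.X (⟨w, hw⟩ : Nat.Primes))))
    (θ₀ : U₀.R →ₐ[O] O)
    {h : Pair.IsResidualPair res E W ∅} (U : (Pair.pairFunctor h).UniversalPoint)
    (θ : U.R →ₐ[O] O) (a : ℕ → O)
    (hθ : ∀ ℓ : ℕ, ℓ.Prime → ℓ ∉ baseBad (E.withAux A hA) Sm R →
      ∀ P : ValuationSubring (AlgebraicClosure ℚ), P.LiesOverPrime ℓ →
        ∀ σ : GQ, P.IsFrobeniusAt σ ℓ → θ (Matrix.trace (Pair.uRep U σ)) = a ℓ) :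
    Engine.Occurs (FractionRing O) (2 * E.D * prodOf R * ∏ w ∈ W, w * w) 1
      (baseBad (E.withAux A hA) Sm R) (fun ℓ => algebraMap O (FractionRing O) (a ℓ)) := by
  classical
  have : Fact (Nat.Prime 2) := ⟨Nat.prime_two⟩
  have hne : NeZero (T.level (baseV (E.withAux A hA))) := ⟨T.level_ne_zero H.baseV_subset⟩
  have : NeZero (T.level (baseV E)) := hne
  have : NeZero (T.level (baseV E) * sqPow W) :=
    ⟨mul_ne_zero (NeZero.ne _) (sqPow_ne_zero fun e he => (hW e he).1)⟩
  have := hB.isLocal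
  obtain ⟨hfin, hfree, -⟩ := hB.ci
  have := hfin
  have := hfree
  have : IsNoetherianRing (HeckeImage O (baseSigned H.baseV_subset H.χ_eq hlow)) :=
      IsNoetherianRing.of_finite O _
  have : Finite (ResidueField (HeckeImage O (baseSigned H.baseV_subset H.χ_eq hlow))) :=
      finite_residueField_of_moduleFinite (O := O) _
  have hwS : ∀ w ∈ W, w ∈ T.S := fun w hw => H.Sm_mem_S (hW w hw).2.2.2 (hW w hw).2.1
  have hwN : ∀ w ∈ W, ¬ w ∣ (T.level (baseV E)) := fun w hw => H.not_dvd_level (hW w hw).1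
      (hW w hw).2.2.1
    (hW w hw).2.2.2
  obtain ⟨HI⟩ := H.nonempty_ihara
    (M := 2 * (T.level (baseV E)) * sqPow W)
    (by rw [mul_assoc]; exact mul_ne_zero two_ne_zero (NeZero.ne (T.level (baseV E) * sqPow W))) 2
  have D := isSquareData_of_setup H.baseV_subset H.χ_eq H.two_notMem α hB.alpha_bij hB.alpha_root
    H.two_mem H.two_notDvd_core (E := W)
    (fun e he => ⟨(hW e he).1, (hW e he).2.1, hwN e he, hwS e he⟩) HI
  have hL : 2 * (T.level (baseV E) * sqPow W) = 2 * (T.level (baseV E)) * sqPow W :=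
      (mul_assoc _ _ _).symm
  set αT := φ (Pair.uRoot U₀) with hαT
  obtain ⟨s, -, -, ι₀', hs, -, -, -, -, -, hsurj, -⟩ := exists_levelHom D hL rfl (relaxIdeal T.m
      (T.S \ (↑W : Set ℕ)) fun _ => 0) rfl hW' hWS' (baseSigned H.baseV_subset H.χ_eq hlow)
    (mem_baseSigned H.baseV_subset H.χ_eq hlow) C' hC' αT hB.root_smul
  have : Nontrivial C' := by
    by_contra hn
    rw [not_nontrivial_iff_subsingleton] at hn
    have := hn
    refine one_ne_zero (α := HeckeImage O (baseSigned H.baseV_subset H.χ_eq hlow))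
        (heckeImage_eq_zero fun x => ?_)
    obtain ⟨y, rfl⟩ := hsurj x
    rw [one_smul, Subsingleton.elim y 0, map_zero]
  have hCf : ∀ y ∈ C', ∀ e ∈ E.D.primeFactors.erase E.ℓ₀,
      alOneLoc O hW' (fun e => -(E.sgn e : O)) (isAway_awayMonoid
          (relaxIdeal T.m (T.S \ (↑W : Set ℕ)) fun _ => 0)) hWS' e y = y := by
    intro y hy e he
    have hce : T.c = fun e => -(E.sgn e : O) := funext H.c_eq
    have := (hC' y).mp hy e he
    simp only [hce] at this
    exact this
  obtain ⟨φ', hφ's, hφ'r, hφ't, hj⟩ := Final.exists_finalMaps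
      (relaxIdeal T.m (T.S \ (↑W : Set ℕ)) fun _ => 0) hH C' hG hE hW' hWS' hCf H.hz U
  set j := Final.finalToImage (↑((baseBad (E.withAux A hA) Sm R).erase 2) : Set ℕ) C'
  have := Final.finite_finalRing (relaxIdeal T.m (T.S \ (↑W : Set ℕ)) fun _ => 0) C'
      (S₀ := (↑((baseBad (E.withAux A hA) Sm R).erase 2) : Set ℕ))
  have := Final.free_finalRing (relaxIdeal T.m (T.S \ (↑W : Set ℕ)) fun _ => 0) C'
      (S₀ := (↑((baseBad (E.withAux A hA) Sm R).erase 2) : Set ℕ))
  have : IsReduced (Final.FinalRing (↑((baseBad (E.withAux A hA) Sm R).erase 2) : Set ℕ) C') :=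
      Final.isReduced_final (relaxIdeal T.m (T.S \ (↑W : Set ℕ)) fun _ => 0) hH C' hE
  -- Frobenius elements at `W`
  have hfr : ∀ q : ℕ, ∃ (P : ValuationSubring (AlgebraicClosure ℚ)) (σ : GQ),
      q ∈ W → P.LiesOverPrime q ∧ P.IsFrobeniusAt σ q := fun q => by
    by_cases hq : q ∈ W
    · obtain ⟨P, σ, hP, hσ⟩ :=
        Frobenius.exists_liesOverPrime_and_isFrobeniusAt_qbar (hW q hq).1
      exact ⟨P, σ, fun _ => ⟨hP, hσ⟩⟩
    · obtain ⟨P, σ, -, -⟩ := Frobenius.exists_liesOverPrime_and_isFrobeniusAt_qbar Nat.prime_two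
      exact ⟨P, σ, fun h => absurd h hq⟩
  choose P Fr hPF using hfr
  obtain ⟨r, hr, hrα, hrtr, hlen⟩ := exists_square_map K U U₀ H.dihedral
    (fun q hq => ⟨(hW q hq).1, (hW q hq).2.1, (hW q hq).2.2.1,
      by rw [haux]; exact Finset.notMem_empty q⟩) P Fr (fun q hq => (hPF q hq).1)
    (fun q hq => (hPF q hq).2)
  have hspan : Submodule.span (ResidueField O) (Set.range res.rbar) = ⊤ :=
    Final.span_range_eq_top_of_dihedral H.dihedral H.D_pos
  -- the criterion's square
  have hcomm : (s.comp j).comp φ' = φ.comp r := by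
    refine Final.algHom_ext_of_traces U hspan _ _ (baseBad (E.withAux A hA) Sm R) ?_
      fun l hl hlZ Q hQ σ hσ => ?_
    · show s (j (φ' (Pair.uRoot U))) = φ (r (Pair.uRoot U))
      rw [hφ'r, Final.finalToImage_mk_X, hs, stepImage, if_pos rfl, hrα]
    · show s (j (φ' _)) = φ (r _)
      have hl2 : l ≠ 2 := fun h => hlZ (by simp [baseBad, h])
      have hlS : l ∉ T.S := fun h => hlZ (Finset.mem_coe.mp (H.S_subset_bad h))
      have hlW : l ∉ W := fun h => hlS (hwS l h)
      have hl0 : l ∉ (↑((baseBad (E.withAux A hA) Sm R).erase 2) : Set ℕ) := fun h =>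
        hlZ (Finset.mem_of_mem_erase (Finset.mem_coe.mp h))
      rw [hφ't ⟨⟨l, hl⟩, hl0⟩ hl2 Q hQ σ hσ, Final.finalToImage_mk_X, hs, stepImage, if_neg hl2,
        if_neg hlW, hrtr, hB.trace l hl hlS hlZ Q hQ σ hσ]
      rfl
  -- the base ring is reduced
  have := Final.isReduced_image (relaxIdeal T.m (T.S \ (↑W : Set ℕ)) fun _ => 0) hH C' hG hE
  have : Module.Finite O (HeckeImage O C') :=
    Module.Finite.of_injective (Algebra.lsmul O O C' : HeckeImage O C' →ₐ[O] Module.End O
        C').toLinearMap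
      ((injective_iff_map_eq_zero (Algebra.lsmul O O C' : HeckeImage O C' →ₐ[O] Module.End O
          C')).mpr
        fun t ht => heckeImage_eq_zero fun x => LinearMap.congr_fun ht x)
  have : IsReduced (HeckeImage O (baseSigned H.baseV_subset H.χ_eq hlow)) :=
      isReduced_of_surjective_integral s fun x => by
    obtain ⟨y, rfl⟩ := hB.bij.2 x
    obtain ⟨z, rfl⟩ := hr y
    exact ⟨j (φ' z), DFunLike.congr_fun hcomm z⟩
  set e := AlgEquiv.ofBijective φ hB.bij with he
  set θT : HeckeImage O (baseSigned H.baseV_subset H.χ_eq hlow) →ₐ[O] O := θ₀.comp e.symm.toAlgHom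
      with hθT
  have hθφ : θT.comp φ = θ₀ := AlgHom.ext fun x => congrArg θ₀ (e.symm_apply_apply x)
  obtain ⟨b⟩ := hB.basis
  obtain ⟨hbij, -, -⟩ := bijective_of_squares D hL rfl (relaxIdeal T.m (T.S \ (↑W : Set ℕ)) fun _ =>
      0) rfl hW' hWS' (baseSigned H.baseV_subset H.χ_eq hlow)
    (mem_baseSigned H.baseV_subset H.χ_eq hlow) C' hC' αT hB.root_smul hB.ci φ hB.bij φ' hφ's r hr
    j hj s hs hcomm θT (Scalar.congIdeal_ne_bot θT) (hB.root_unit.map θT) b (by
      rw [hθφ]
      refine (hlen θ₀).trans (le_of_eq ?_)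
      congr 1
      congr 1
      · rw [← hθφ]
        rfl
      · refine Finset.sum_congr rfl fun q hq => ?_
        rw [thetaAt, dif_pos (hW q hq).1, ← htheta inferInstance θT q (hW q hq).1 (hW q hq).2.1
          (hwN q hq) (P q) (hPF q hq).1 (Fr q) (hPF q hq).2, ← hθφ]
        rfl)
  set e' := AlgEquiv.ofBijective φ' hbij
  set θ'' : Final.FinalRing (↑((baseBad (E.withAux A hA) Sm R).erase 2) : Set ℕ) C' →ₐ[O] O :=
      θ.comp e'.symm.toAlgHom
  have hθ'' : ∀ x, θ'' (φ' x) = θ x := fun x => congrArg θ (e'.symm_apply_apply x)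
  have : NeZero (2 * (T.level (baseV E) * sqPow W)) := ⟨mul_ne_zero two_ne_zero
      (NeZero.ne (T.level (baseV E) * sqPow W))⟩
  have hocc : Engine.Occurs (FractionRing O) (2 * (T.level (baseV E) * sqPow W)) 1
      (baseBad (E.withAux A hA) Sm R)
      (fun ℓ => algebraMap O (FractionRing O) (a ℓ)) := by
    refine Final.occurs_of_point (relaxIdeal T.m (T.S \ (↑W : Set ℕ)) fun _ => 0) C' oneRep_eq_one
        θ'' (fun l hlS _ => ?_) (fun l _ hlS _ h =>
      hlS (Finset.mem_of_mem_erase (Finset.mem_coe.mp h)))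
    have hl2 : ((l : Nat.Primes) : ℕ) ≠ 2 := fun h => hlS (by simp [baseBad, h])
    obtain ⟨Q, σ, hQ, hσ⟩ := Frobenius.exists_liesOverPrime_and_isFrobeniusAt_qbar l.1.2
    rw [← hφ't l hl2 Q hQ σ hσ, hθ'', hθ _ l.1.2 hlS Q hQ σ hσ]
  have hlev : 2 * (T.level (baseV E) * sqPow W) = 2 * E.D * prodOf R * ∏ w ∈ W, w * w := by
    rw [H.level_baseV, sqPow]
    ring
  rw [← hlev]
  exact hocc

end Fermat.Agent.TwoAdic.TopDown

end
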