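import Fermat.Agent.TwoAdic.Route.FinalSetting
import Fermat.Agent.TwoAdic.Route.BaseDoubling
import Fermat.Agent.TwoAdic.Base.CountDoubling
import Fermat.Agent.TwoAdic.Base.Nontrivial
import Fermat.Agent.TwoAdic.C0.BaseGenerators
import Fermat.Agent.TwoAdic.Geometry.CubeBase
import Fermat.Agent.TwoAdic.Geometry.DescentAssembly
import Fermat.Agent.TwoAdic.TopGenBase
import Fermat.Agent.TwoAdic.Final.Gen
import Fermat.Agent.TwoAdic.TSide.TopPlug

/-!
# The top stage and the descent of a final setting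

At a final setting with its ring of pairs acting on every stage, the top stage is free of rank two
over a complete intersection, and so is every stage below it.
-/

set_option autoImplicit false
-- the section variables are kept so that the statements share one signature
set_option linter.unusedSectionVars false

noncomputable section

open IsLocalRing GaloisRep Fermat.Agent.DefRing Fermat.Agent.Deform
open Fermat.Agent.HeckeModule Fermat.Agent.HeckeJ0 Fermat.Agent.LevelRaising
open scoped DualNumber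

namespace Fermat.Agent.TwoAdic.TopDown

open Pair Descend

attribute [local instance] ALSetup.isPrime Module.quotientAnnihilator

variable {O : Type} [CommRing O] [IsDomain O] [IsDiscreteValuationRing O]
  [IsAdicComplete (maximalIdeal O) O] [Finite (ResidueField O)] [CharP (ResidueField O) 2]
  [CharZero O] {E : LiftData} {res : NormalData O} {Sm R : Finset ℕ} {t : ℕ → O} {T : ALSetup O}

/-- The cube of a final setting. -/
theorem IsBaseSetting.cube (H : IsBaseSetting E res Sm R t T) :
    T.CubeInjective H.subset_W (baseV E ∪ E.aux) := by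
  classical
  have hfr : ∀ q : ℕ, ∃ (P : ValuationSubring (AlgebraicClosure ℚ)) (σ : GQ),
      q ∈ E.aux → P.LiesOverPrime q ∧ P.IsFrobeniusAt σ q := fun q => by
    by_cases hq : q ∈ E.aux
    · obtain ⟨P, σ, hP, hσ⟩ :=
        Frobenius.exists_liesOverPrime_and_isFrobeniusAt_qbar (E.aux_spec q hq).1
      exact ⟨P, σ, fun _ => ⟨hP, hσ⟩⟩
    · obtain ⟨P, σ, -, -⟩ := Frobenius.exists_liesOverPrime_and_isFrobeniusAt_qbar Nat.prime_two
      exact ⟨P, σ, fun h => absurd h hq⟩
  choose P φ hPF using hfr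
  refine cubeInjective_base_union T H.χ_eq H.finite_S H.subset_W
    (fun h2 => (E.aux_spec 2 h2).2.1 rfl) H.dihedral E.squarefree
    (Nat.odd_iff.mpr (by have := E.mod_eight; omega))
    (fun a ha => Nat.dvd_of_mem_primeFactors (Finset.mem_of_mem_erase ha)) H.cont H.modular
    H.mem_iff (fun l hl _ hl2 => H.Sm_mem_S hl hl2) (fun e he => (H.corePrimes.prime e he).two_le)
    P φ (fun q hq => ?_) _
  exact ⟨(hPF q hq).1, (hPF q hq).2,
    H.aux_trace q hq (P q) (hPF q hq).1 (φ q) (hPF q hq).2⟩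

/-- **Complete intersection and freeness at every stage of a final setting.** -/
theorem IsBaseSetting.ci_and_basis [Fact (Nat.Prime 2)] (H : IsBaseSetting E res Sm R t T)
    (K : KummerPair)
    (hkey : ∀ f : ℕ → ℕ, (∀ i ∈ E.D.primeFactors.erase E.ℓ₀,
        HasPattern res (f i) E.D.primeFactors (twPattern E i)) →
      ∀ Q, Q = (E.D.primeFactors.erase E.ℓ₀).image f →
      ∀ (h : IsResidualPair res E Q {(K.s, K.t)}) (U : (pairFunctor h).UniversalPoint),
          ∃ φ : MvPowerSeries (Fin ((E.D.primeFactors.erase E.ℓ₀).card + 1)) O →ₐ[O] U.R,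
            Function.Surjective φ ∧
            φ (MvPowerSeries.X (Fin.last (E.D.primeFactors.erase E.ℓ₀).card)) = uRoot U - 1 ∧
            (xIdeal O (E.D.primeFactors.erase E.ℓ₀).card).map φ = entryIdeal U ∧
            (uRoot U - 1) ^ 2 ∈ entryIdeal U)
    (h : ∀ S : Stage E, IsResidualPair res S.data ∅ {(K.s, K.t)})
    (U : ∀ S : Stage E, (pairFunctor (h S)).UniversalPoint)
    [∀ S : Stage E, Module (U S).R
      (T.NewQuot O (stage_subset E T (baseV E) H.subset_W S) (baseV E ∪ S.1))]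
    [∀ S : Stage E, IsScalarTower O (U S).R
      (T.NewQuot O (stage_subset E T (baseV E) H.subset_W S) (baseV E ∪ S.1))]
    (htr : ∀ S : Stage E,
      HasTraces (U S) (stage_subset E T (baseV E) H.subset_W S) (baseV E ∪ S.1) (baseBad E Sm R))
    (hroot : ∀ S : Stage E,
      HasRoot (U S) (stage_subset E T (baseV E) H.subset_W S) (baseV E ∪ S.1) H.two_notMem)
    (S : Stage E) :
    IsFiniteCI O (U S).R ∧ Nonempty (Module.Basis (Fin 2) (U S).R
      (T.NewQuot O (stage_subset E T (baseV E) H.subset_W S) (baseV E ∪ S.1))) := by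
  classical
  have : Fact (((2 : ℕ) : O) ∈ maximalIdeal O) := ⟨by exact_mod_cast T.two⟩
  have hfr : ∀ q : ℕ, ∃ (P : ValuationSubring (AlgebraicClosure ℚ)) (σ : GQ),
      q ∈ E.aux → P.LiesOverPrime q ∧ P.IsFrobeniusAt σ q := fun q => by
    by_cases hq : q ∈ E.aux
    · obtain ⟨P, σ, hP, hσ⟩ :=
        Frobenius.exists_liesOverPrime_and_isFrobeniusAt_qbar (E.aux_spec q hq).1
      exact ⟨P, σ, fun _ => ⟨hP, hσ⟩⟩
    · obtain ⟨P, σ, -, -⟩ := Frobenius.exists_liesOverPrime_and_isFrobeniusAt_qbar Nat.prime_two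
      exact ⟨P, σ, fun h => absurd h hq⟩
  choose P φ hPF using hfr
  have hP : ∀ q ∈ E.aux, (P q).LiesOverPrime q ∧ (P q).IsFrobeniusAt (φ q) q ∧
      (res.rbar (φ q)).trace = 0 ∧ res.rbar (φ q) ≠ 1 := fun q hq =>
    ⟨(hPF q hq).1, (hPF q hq).2, H.aux_trace q hq (P q) (hPF q hq).1 (φ q) (hPF q hq).2⟩
  have hspan : Submodule.span (ResidueField O) (Set.range res.rbar) = ⊤ :=
    Final.span_range_eq_top_of_dihedral H.dihedral H.D_pos
  have hC : IsInertialSet ({(K.s, K.t)} : Set (GQ × GQ)) := fun x hx => by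
    rw [Set.mem_singleton_iff.mp hx]
    exact ⟨K.P, K.over_two, K.exp.s_mem, K.exp.t_mem⟩
  have hcube := H.cube
  have hdisj : ∀ q ∈ E.aux, q ∉ baseV E := fun q hq hq' =>
    (E.aux_spec q hq).2.2 (Nat.dvd_of_mem_primeFactors (Finset.mem_of_mem_erase hq'))
  have hihara : ∀ (q : ℕ) (S : Stage E), q ∈ S.1 → q.Prime →
      IharaPrimes (awayMonoid T.m) (T.level (baseV E ∪ (S.erase q).1)) q 2 := fun q S _ _ =>
    (H.nonempty_ihara (T.level_ne_zero (stage_subset E T (baseV E) H.subset_W (S.erase q))) q).some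
  set Sx : Finset ℕ := Sm.erase 2 ∪ E.aux with hSx
  have hS₂ : T.S ⊆ ↑(insert 2 Sx) := by
    rw [H.S_eq]
    exact Finset.coe_subset.mpr (Finset.subset_insert 2 Sx)
  have hS₂S₀ : ∀ ℓ ∈ (↑(insert 2 Sx) : Set ℕ), ℓ.Prime → ℓ ∈ baseBad E Sm R := fun ℓ hℓ _ => by
    rcases Finset.mem_insert.mp (Finset.mem_coe.mp hℓ) with rfl | hℓ
    · simp [baseBad]
    · exact Finset.mem_coe.mp (H.S_subset_bad (H.S_eq.symm ▸ Finset.mem_coe.mpr hℓ))
  have hRSm : Disjoint R Sm := Finset.disjoint_left.mpr fun x hx => (H.corePrimes.fresh x hx).1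
  have hSmSx : ∀ l ∈ Sm, l ≠ 2 → l ∈ Sx := fun l hl hl2 =>
    Finset.mem_union_left _ (Finset.mem_erase.mpr ⟨hl2, hl⟩)
  have hDSx : E.D.primeFactors ⊆ Sx := H.isBase.D_mem
  obtain ⟨Φ, hΦ, hunit, hm, hU, h2Φ⟩ := exists_basePhi H.corePrimes H.doubling H.modular hRSm T
    H.core_eq H.S_eq hDSx hSmSx H.root H.mem_iff hS₂
  have : Nontrivial (T.H (baseV E) O) := nontrivial_base_H H.corePrimes H.doubling H.modular hRSm
    T H.χ_eq H.baseV_subset H.core_eq H.S_eq hDSx hSmSx H.root H.mem_iff
  have : NeZero (T.level (baseV E)) := ⟨T.level_ne_zero H.baseV_subset⟩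
  obtain ⟨_, ⟨b⟩⟩ := H.isBase.exists_basis
  have hκ : ∀ q ∈ E.aux, IsUnit (T.c q) := fun q hq => by
    have hqW : q ∈ T.W := H.subset_W (Finset.mem_union_right _ hq)
    have h1 := T.sq q hqW (T.coprime_M hqW)
    simp only [H.χ_eq, MonoidHom.one_apply] at h1
    exact IsUnit.of_mul_eq_one (T.c q)
      (by rw [← pow_two]; first | exact h1 | (rw [pow_two]; simpa using h1))
  have hdim := Base.card_top_of_doubling E T (baseV E) H.χ_eq hspan T.coreInS H.subset_W hdisj φ
    (fun q hq => (hP q hq).2.2.1) hihara hcube h U (baseBad E Sm R) hS₂ hS₂S₀ (loopOp T)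
    (fun ℓ hℓ hℓS _ => dif_pos ⟨hℓ, hℓS⟩)
    (fun S ℓ hℓ hℓ0 P' hP' σ hσ m => by
      have hℓS : ℓ ∉ T.S := fun hm => hℓ0 (Finset.mem_coe.mp (H.S_subset_bad hm))
      rw [show loopOp T ℓ = awayX O hℓ hℓS from dif_pos ⟨hℓ, hℓS⟩]
      exact htr S ℓ hℓ hℓS hℓ0 P' hP' σ hσ m)
    T.c hκ
    (fun q _ S hqW hqV hq m => by
      obtain ⟨_, -⟩ := T.free_newQuot (stage_subset E T (baseV E) H.subset_W (S.erase q)) subset_rfl
        (hcube.mono (Finset.union_subset_union_right (S.erase q).2))
      have hqA : q ∈ E.aux := S.2 hq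
      exact traceElt_smul_eq T (stage_subset E T (baseV E) H.subset_W (S.erase q)) H.χ_eq
        H.finite_S (U (S.erase q)) hspan (baseBad E Sm R) H.two_notMem (htr (S.erase q))
        (hroot (S.erase q)) (E.aux_spec q hqA).2.1 hqW hqV (hP q hqA).1 (hP q hqA).2.1
        (H.sgn_eq q) m)
    H.trace_mem (V := baseV E) (Finset.union_empty _) H.baseV_subset H.isBase.lowerVanish b Φ hΦ
    hunit hm hU (l₀ := ⟨2, Nat.prime_two⟩) (h2Φ _ rfl)
  let top : Stage E := ⟨E.aux, subset_rfl⟩
  obtain ⟨_, _⟩ := T.free_newQuot (stage_subset E T (baseV E) H.subset_W top)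
    (B := baseV E ∪ E.aux) subset_rfl hcube
  have : Nontrivial (T.NewQuot O (stage_subset E T (baseV E) H.subset_W top)
      (baseV E ∪ E.aux)) := by
    by_contra hn
    rw [not_nontrivial_iff_subsingleton] at hn
    have := hn
    have : Subsingleton (T.NewQuot O (stage_subset E T (baseV E) H.subset_W top) (baseV E ∪ E.aux)
        ⧸ entryIdeal (U top) • (⊤ : Submodule (U top).R
          (T.NewQuot O (stage_subset E T (baseV E) H.subset_W top) (baseV E ∪ E.aux)))) :=
      (Submodule.mkQ_surjective _).subsingleton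
    have h1 : Nat.card (ResidueField O) ^ 4 ≤ 1 := hdim.trans_eq (Nat.card_unique)
    have h2 : 1 < Nat.card (ResidueField O) := Finite.one_lt_card
    have h3 : Nat.card (ResidueField O) ≤ Nat.card (ResidueField O) ^ 4 :=
      Nat.le_self_pow (by norm_num) _
    omega
  let d := Module.finrank O (T.NewQuot O (stage_subset E T (baseV E) H.subset_W top)
    (baseV E ∪ E.aux))
  let b₀ : Module.Basis (Fin d) O (T.NewQuot O (stage_subset E T (baseV E) H.subset_W top)
    (baseV E ∪ E.aux)) := Module.finBasis O _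
  have : NeZero d := ⟨Module.finrank_pos.ne'⟩
  have hMα : ∀ y, uRoot (U top) • uRoot (U top) • y + (2 : O) • y =
      T.newAct O (stage_subset E T (baseV E) H.subset_W top) (baseV E ∪ E.aux)
        (awayX O Nat.prime_two H.two_notMem) (uRoot (U top) • y) := fun y => (hroot top y).symm
  have hgen := TopGen.exists_gen_top (E := E) (U top) hspan H.isBase H.root
    (stage_subset E T (baseV E) H.subset_W top) (B := baseV E ∪ E.aux) Finset.subset_union_left
    (fun e he => Or.inl he) (baseBad E Sm R) H.S_subset_bad H.two_notMem H.trace_mem (htr top) hMα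
  obtain ⟨hci, ⟨β⟩, -⟩ := free_rank_two_top_keyed (E := E) hC H.dihedral H.cont H.aux_trace hspan
    H.hz (U top) T H.χ_eq (stage_subset E T (baseV E) H.subset_W top) (B := baseV E ∪ E.aux)
    subset_rfl hcube (baseBad E Sm R) H.S_subset_bad H.two_notMem H.trace_mem (htr top) hMα b₀
    hkey
    (fun n q hq α P hP τ hτ cyc hcyc h' U' => TSide.tSideAction_of_base H.dihedral H.cont hspan
      (fun x hx => ⟨K, Set.mem_singleton_iff.mp hx⟩) H.corePrimes rfl subset_rfl (fun _ _ => rfl) T
      H.core_eq H.c_eq (stage_subset E T (baseV E) H.subset_W top) rfl Finset.subset_union_right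
      (baseBad E Sm R) H.S_subset_bad (by simp [baseBad]) H.primeFactors_level_subset H.two_notMem
      H.trace_mem H.two_mem n q (fun i => ⟨(hq i).1, (hq i).2.1⟩) α P hP τ hτ cyc hcyc U')
    (by simp [baseBad]) H.primeFactors_level_subset hgen hdim
  exact descent_geometric E T (baseV E) H.dihedral hspan T.coreInS H.χ_eq H.subset_W
    (fun q hq => ⟨hdisj q hq, Finset.notMem_empty q⟩) P φ hP (fun q _ => H.sgn_eq q) hihara hcube
    h U H.finite_S H.two_notMem (baseBad E Sm R)
    (fun ℓ hℓ _ => Finset.mem_coe.mp (H.S_subset_bad hℓ)) htr hroot hci β S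

end Fermat.Agent.TwoAdic.TopDown

end
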