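import Fermat.Agent.TwoAdic.Route.Curve
import Fermat.Agent.TwoAdic.CurvePoint.Pair

/-!
# `SwitchModular` from the final step and the square step
-/

set_option autoImplicit false

namespace Fermat.Agent.TwoAdic.TopDown

/-- `SwitchModular` from `FinalStep` and `SquareInput`. -/
theorem switchModular_of_finalStep (hfinal : FinalStep) (hsq : SquareInput) :
    Fermat.Agent.Route.SwitchModular :=
  switchModular_of_final Fermat.Agent.TwoAdic.CurvePoint.curvePair hfinal hsq

end Fermat.Agent.TwoAdic.TopDown
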