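import Fermat.Agent.TwoAdic.Route.Inputs
import Fermat.Agent.TwoAdic.Selmer.Residual
import Fermat.Agent.Chebotarev.Main
import Fermat.Agent.TameInertia.Frobenius
import Fermat.Agent.EigenSystems.Basic

/-!
# Consequences of the dihedral residual representation for a lifting problem

Irreducibility over the fraction field and the non-Eisenstein congruence, both from a commutator
whose residual image has order three.
-/

set_option autoImplicit false
-- the section variables are kept so that the statements share one signature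
set_option linter.unusedSectionVars false

noncomputable section

open IsLocalRing GaloisRep Fermat.Agent.DefRing

namespace Fermat.Agent.TwoAdic.TopDown

variable {O : Type} [CommRing O] [IsDomain O] [IsDiscreteValuationRing O]
  [IsAdicComplete (maximalIdeal O) O] [Finite (ResidueField O)] [CharP (ResidueField O) 2]

/-- A commutator with residual image of order three. -/
theorem exists_commutator {k : Type} [Field k] [CharP k 2] {D : ℕ} {r : MRep k}
    (hr : IsDihedralResidual D r) (hD : 0 < D) :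
    ∃ σ τ : GQ, (r (σ * τ * σ⁻¹ * τ⁻¹)).trace = 1 := by
  obtain ⟨σ, τ, hσ, hτ, hc⟩ := Selmer.exists_noncommute hr hD
  refine ⟨σ, τ, Selmer.trace_eq_one hr hD (fun h => ?_) (fun h => hc ?_)⟩
  · have e1 := Selmer.transp_iff hr (σ := σ⁻¹)
    have e2 := Selmer.transp_iff hr (σ := τ⁻¹)
    have hinv : ∀ g : GQ, Selmer.IsTransp r g → Selmer.IsTransp r g⁻¹ := fun g hg => by
      rw [Selmer.transp_iff hr] at hg ⊢
      intro h'
      apply hg
      have := congrArg (g : AlgebraicClosure ℚ → AlgebraicClosure ℚ) h'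
      rwa [← AlgEquiv.mul_apply, mul_inv_cancel, AlgEquiv.one_apply, eq_comm] at this
    rw [Selmer.transp_mul_iff hr, Selmer.transp_mul_iff hr, Selmer.transp_mul_iff hr] at h
    have := hinv σ hσ
    have := hinv τ hτ
    tauto
  · have e : r (σ * τ * σ⁻¹ * τ⁻¹) * r (τ * σ) = r (σ * τ) := by
      rw [← map_mul]; group
    rw [h, one_mul, map_mul, map_mul] at e
    exact e.symm

namespace LiftProblem

variable (P : LiftProblem O)

theorem D_pos : 0 < P.E.D := by have := P.E.mod_eight; omega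

/-- No vector spans a stable line over the fraction field. -/
theorem no_line (v : P.rho.V) (hv : v ≠ 0) :
    ∃ σ, ∀ c d : O, c • P.rho.ρ σ v = d • v → c = 0 := by
  by_contra! hall
  obtain ⟨σ, τ, htr⟩ := exists_commutator P.dihedral P.D_pos
  obtain ⟨b, hb⟩ := P.residual
  obtain ⟨c, d, hcd, hc⟩ := hall σ
  obtain ⟨c', d', hcd', hc'⟩ := hall τ
  have hcomm : P.rho.ρ (σ * τ) v = P.rho.ρ (τ * σ) v := by
    have : Module.IsTorsionFree O P.rho.V := inferInstance
    refine smul_right_injective P.rho.V (mul_ne_zero hc hc') ?_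
    show (c * c') • P.rho.ρ (σ * τ) v = (c * c') • P.rho.ρ (τ * σ) v
    rw [map_mul, map_mul, Module.End.mul_apply, Module.End.mul_apply]
    calc (c * c') • P.rho.ρ σ (P.rho.ρ τ v) = c • P.rho.ρ σ (c' • P.rho.ρ τ v) := by
          rw [map_smul, mul_smul]
      _ = (d' * d) • v := by rw [hcd', map_smul, smul_comm, hcd, mul_smul]
      _ = c' • P.rho.ρ τ (c • P.rho.ρ σ v) := by
          rw [hcd, map_smul, smul_comm, hcd', mul_comm, mul_smul]
      _ = (c * c') • P.rho.ρ τ (P.rho.ρ σ v) := by rw [map_smul, smul_comm, mul_smul]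
  set g := σ * τ * σ⁻¹ * τ⁻¹ with hg
  set u := P.rho.ρ (τ * σ) v with hu
  have hgu : P.rho.ρ g u = u := by
    rw [hu, ← Module.End.mul_apply, ← map_mul, show g * (τ * σ) = σ * τ by rw [hg]; group]
    exact hcomm
  have hu0 : u ≠ 0 := fun h => hv (by
    have := congrArg (P.rho.ρ (τ * σ)⁻¹) h
    rwa [map_zero, hu, ← Module.End.mul_apply, ← map_mul, inv_mul_cancel, map_one,
      Module.End.one_apply] at this)
  have hker : (matrixRep P.rho b g - 1).det = 0 := by
    refine Matrix.exists_mulVec_eq_zero_iff.mp ⟨b.repr u, fun h => hu0 ?_, ?_⟩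
    · exact b.repr.map_eq_zero_iff.mp (Finsupp.ext fun i => congrFun h i)
    · rw [Matrix.sub_mulVec, Matrix.one_mulVec, matrixRep_apply, LinearMap.toMatrix_mulVec_repr,
        hgu, sub_self]
  have hk := congrArg (residue O) hker
  rw [RingHom.map_det, map_zero, map_sub, map_one,
    show (residue O).mapMatrix (matrixRep P.rho b g) = P.res.rbar g from hb g,
    Matrix.det_fin_two] at hk
  have hd := P.dihedral.det_one g
  rw [Matrix.det_fin_two] at hd
  have ht := htr
  rw [Matrix.trace_fin_two] at ht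
  simp only [Matrix.sub_apply, Matrix.one_apply_eq, ne_eq, Fin.zero_eq_one_iff, Nat.succ_ne_self,
    not_false_eq_true, Matrix.one_apply_ne, sub_zero, Fin.one_eq_zero_iff] at hk
  have h2 : (2 : ResidueField O) = 0 := CharTwo.two_eq_zero
  exact one_ne_zero (show (1 : ResidueField O) = 0 by linear_combination hk - hd + ht)

omit [IsAdicComplete (maximalIdeal O) O] [Finite (ResidueField O)] [CharP (ResidueField O) 2] in
/-- The residual trace of the traces. -/
theorem residue_a {ℓ : ℕ} (hℓ : ℓ.Prime) (hℓS : ℓ ∉ P.S) {A : ValuationSubring (AlgebraicClosure ℚ)}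
    (hA : A.LiesOverPrime ℓ) {φ : GQ} (hφ : A.IsFrobeniusAt φ ℓ) :
    residue O (P.a ℓ) = (P.res.rbar φ).trace := by
  obtain ⟨b, hb⟩ := P.residual
  rw [← P.attached.2 ℓ hℓ hℓS A hA φ hφ, ← hb φ, GaloisRepAdic.trace,
    LinearMap.trace_eq_matrix_trace O b]
  simp [Matrix.trace, Fin.sum_univ_two]

/-- The traces are not Eisenstein at any level. -/
theorem nonEisenstein {N : ℕ} (hN : N ≠ 0) (S : Finset ℕ) :
    EigenSystems.NonEisensteinSystem N (P.S ∪ S)
      (fun ℓ => algebraMap O (FractionRing O) (P.a ℓ)) := by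
  classical
  obtain ⟨σ, τ, htr⟩ := exists_commutator P.dihedral P.D_pos
  obtain ⟨L, hL, hL1⟩ := Selmer.exists_level P.cont
  have : NeZero N := ⟨hN⟩
  obtain ⟨ζ, hζ⟩ := HasEnoughRootsOfUnity.exists_primitiveRoot (AlgebraicClosure ℚ) N
  let Z : IntermediateField ℚ (AlgebraicClosure ℚ) := IntermediateField.adjoin ℚ {ζ}
  have : FiniteDimensional ℚ Z := IntermediateField.adjoin.finiteDimensional
    ((hζ.isIntegral (NeZero.pos N)).tower_top)
  have : FiniteDimensional ℚ L := hL
  set g := σ * τ * σ⁻¹ * τ⁻¹ with hg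
  obtain ⟨ℓ, hℓ, hℓS, A, hA, φ, hφ, hagree⟩ :=
    Chebotarev.exists_isFrobeniusAt_eqOn (L ⊔ Z) g ((P.S ∪ S) ∪ N.primeFactors)
  rw [Finset.mem_union, not_or] at hℓS
  have hℓN : ¬ ℓ ∣ N := fun h => hℓS.2 (Nat.mem_primeFactors.mpr ⟨hℓ, h, hN⟩)
  have hℓS' : ℓ ∉ P.S := fun h => hℓS.1 (Finset.mem_union_left _ h)
  have hroot : ∀ μ : AlgebraicClosure ℚ, μ ^ N = 1 → g μ = μ := fun μ hμ => by
    have hcomm : ∀ x : AlgebraicClosure ℚ, x ^ N = 1 → σ (τ x) = τ (σ x) := fun x hx => by
      have hp : ∀ e : GQ, ∀ y : AlgebraicClosure ℚ, y ^ N = 1 → ∃ i, e y = y ^ i ∧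
          e ζ = ζ ^ i := fun e y hy => by
        obtain ⟨i, -, hi⟩ := hζ.eq_pow_of_pow_eq_one (show e ζ ^ N = 1 by
          rw [← map_pow, hζ.pow_eq_one, map_one])
        obtain ⟨j, -, rfl⟩ := hζ.eq_pow_of_pow_eq_one hy
        exact ⟨i, by rw [map_pow, ← hi, ← pow_mul, ← pow_mul, mul_comm], hi.symm⟩
      obtain ⟨j, -, rfl⟩ := hζ.eq_pow_of_pow_eq_one hx
      obtain ⟨a, -, ha⟩ := hp σ ζ hζ.pow_eq_one
      obtain ⟨c, -, hc⟩ := hp τ ζ hζ.pow_eq_one
      simp only [map_pow, hc, ha, ← pow_mul, mul_comm, mul_left_comm]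
    have hy : ∀ e : GQ, (e μ) ^ N = 1 := fun e => by rw [← map_pow, hμ, map_one]
    have h1 := hcomm ((σ⁻¹ * τ⁻¹) μ) (hy _)
    have e1 : g μ = σ (τ ((σ⁻¹ * τ⁻¹) μ)) := by rw [hg]; rfl
    rw [e1, h1, ← AlgEquiv.mul_apply, ← AlgEquiv.mul_apply,
      show τ * σ * (σ⁻¹ * τ⁻¹) = 1 by group]
    rfl
  have h1 : φ ζ = ζ ^ ℓ := TameInertia.frobenius_root_of_unity hℓ hA hφ hℓN hζ.pow_eq_one
  rw [hagree ζ (le_sup_right (α := IntermediateField ℚ (AlgebraicClosure ℚ))
    (IntermediateField.mem_adjoin_simple_self ℚ ζ)), hroot ζ hζ.pow_eq_one] at h1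
  have hℓ1 : (ℓ : ZMod N) = 1 := by
    have := hζ.eq_orderOf
    rw [← Nat.cast_one, ZMod.natCast_eq_natCast_iff, this,
      ← (hζ.isOfFinOrder hN).pow_eq_pow_iff_modEq, pow_one, ← h1]
  refine ⟨ℓ, hℓ, hℓS.1, hℓ1, fun h => ?_⟩
  have h2 : P.a ℓ = (ℓ : O) + 1 :=
    FaithfulSMul.algebraMap_injective O (FractionRing O)
      (by rw [map_add, map_natCast, map_one]; exact h)
  have h3 := P.residue_a hℓ hℓS' hA hφ
  have hrφ : P.res.rbar φ = P.res.rbar g := by
    have := hL1 (g⁻¹ * φ) ((IntermediateField.mem_fixingSubgroup_iff L _).mpr fun x hx => by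
      rw [AlgEquiv.mul_apply, hagree x (le_sup_left (α := IntermediateField ℚ (AlgebraicClosure ℚ))
          hx)]
      exact g.symm_apply_apply x)
    calc P.res.rbar φ = P.res.rbar (g * (g⁻¹ * φ)) := by rw [mul_inv_cancel_left]
      _ = P.res.rbar g := by rw [map_mul, this, mul_one]
  rw [hrφ, htr, h2, map_add, map_natCast, map_one] at h3
  have hodd : ¬ 2 ∣ ℓ := fun h' => hℓS' (P.mem_S ℓ hℓ
    (Or.inl ((Nat.prime_dvd_prime_iff_eq Nat.prime_two hℓ).mp h').symm))
  obtain ⟨m, rfl⟩ : ∃ m, ℓ = 2 * m + 1 := ⟨ℓ / 2, by omega⟩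
  have h20 : (2 : ResidueField O) = 0 := CharTwo.two_eq_zero
  push_cast at h3
  exact one_ne_zero (show (1 : ResidueField O) = 0 by
    linear_combination (-1 : ResidueField O) * h3 + ((m : ResidueField O) + 1) * h20)

end LiftProblem

end Fermat.Agent.TwoAdic.TopDown

end
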